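import Mathlib.RingTheory.Valuation.ValuationSubring
import Mathlib.RingTheory.Valuation.LocalSubring
import Mathlib.RingTheory.Flat.Basic
import Mathlib.RingTheory.Nullstellensatz
import Mathlib.RingTheory.Jacobson.Ring
import Mathlib.RingTheory.TensorProduct.Basic
import Mathlib.LinearAlgebra.TensorProduct.Basis
import Mathlib.RingTheory.Polynomial.Basic
import Mathlib.FieldTheory.IsAlgClosed.Basic

/-!
# Extension of homomorphisms to places with algebraically closed residue field
-/

set_option autoImplicit false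

noncomputable section

open scoped TensorProduct

namespace Fermat.Agent.AV

/-- A place of `M` over the algebraically closed field `L` with values in `L`. -/
structure LPlace (L M : Type*) [Field L] [Field M] [Algebra L M] where
  ring : ValuationSubring M
  algebraMap_mem : ∀ c : L, algebraMap L M c ∈ ring
  value : ring →+* L
  value_algebraMap : ∀ c : L, value ⟨algebraMap L M c, algebraMap_mem c⟩ = c
  isLocalHom : ∀ z : ring, value z ≠ 0 → IsUnit z

variable {L M : Type*} [Field L] [Field M] [Algebra L M]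

/-- Graphs of partial homomorphisms `M ⇀ L`. -/
def IsHomGraph (G : Subalgebra L (M × L)) : Prop := ∀ c : L, ((0 : M), c) ∈ G → c = 0

theorem IsHomGraph.eq_of_mem {G : Subalgebra L (M × L)} (hG : IsHomGraph G) {m : M} {a b : L}
    (ha : (m, a) ∈ G) (hb : (m, b) ∈ G) : a = b := by
  have := sub_mem ha hb
  rw [Prod.mk_sub_mk, sub_self] at this
  exact sub_eq_zero.mp (hG _ this)

/-- The domain of a hom graph. -/
abbrev graphDom (G : Subalgebra L (M × L)) : Subalgebra L M := G.map (AlgHom.fst L M L)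

theorem mem_graphDom {G : Subalgebra L (M × L)} {m : M} : m ∈ graphDom G ↔ ∃ a, (m, a) ∈ G := by
  refine ⟨fun ⟨⟨m', a⟩, h, e⟩ => ⟨a, by obtain rfl : m' = m := e; exact h⟩,
    fun ⟨a, h⟩ => ⟨(m, a), h, rfl⟩⟩

/-- A hom graph is isomorphic to its domain. -/
def graphEquiv {G : Subalgebra L (M × L)} (hG : IsHomGraph G) : G ≃ₐ[L] graphDom G :=
  AlgEquiv.ofBijective (((AlgHom.fst L M L).comp G.val).codRestrict (graphDom G)
      (fun z => ⟨z.1, z.2, rfl⟩))
    ⟨fun ⟨⟨m, a⟩, ha⟩ ⟨⟨m', b⟩, hb⟩ e => by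
      obtain rfl : m = m' := congrArg Subtype.val e
      obtain rfl := hG.eq_of_mem ha hb
      rfl,
     fun ⟨m, hm⟩ => by
      obtain ⟨a, ha⟩ := mem_graphDom.mp hm
      exact ⟨⟨(m, a), ha⟩, Subtype.ext rfl⟩⟩

/-- The homomorphism of a hom graph. -/
def graphHom {G : Subalgebra L (M × L)} (hG : IsHomGraph G) : graphDom G →ₐ[L] L :=
  ((AlgHom.snd L M L).comp G.val).comp (graphEquiv hG).symm.toAlgHom

theorem mem_graph_graphHom {G : Subalgebra L (M × L)} (hG : IsHomGraph G) (z : graphDom G) :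
    ((z : M), graphHom hG z) ∈ G := by
  have h1 : ((((graphEquiv hG).symm z : G) : M × L).1) = z :=
    congrArg Subtype.val ((graphEquiv hG).apply_symm_apply z)
  have h2 : (((((graphEquiv hG).symm z : G) : M × L).1), graphHom hG z) ∈ G :=
    ((graphEquiv hG).symm z).2
  rwa [h1] at h2

theorem exists_maximal_graph {G : Subalgebra L (M × L)} (hG : IsHomGraph G) :
    ∃ H, G ≤ H ∧ IsHomGraph H ∧ ∀ H', H ≤ H' → IsHomGraph H' → H' = H := by
  obtain ⟨H, hle, hmax⟩ := zorn_le_nonempty₀ {H : Subalgebra L (M × L) | IsHomGraph H}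
    (fun c hc hchain y hy => by
      have : Nonempty c := ⟨⟨y, hy⟩⟩
      have hdir : Directed (· ≤ ·) (fun H : c => (H : Subalgebra L (M × L))) :=
        hchain.directed
      refine ⟨⨆ H : c, (H : Subalgebra L (M × L)), ?_,
        fun z hz => le_iSup (fun H : c => (H : Subalgebra L (M × L))) ⟨z, hz⟩⟩
      intro a ha
      rw [← SetLike.mem_coe, Subalgebra.coe_iSup_of_directed hdir, Set.mem_iUnion] at ha
      obtain ⟨⟨H, hH⟩, ha⟩ := ha
      exact hc hH a ha) G hG
  exact ⟨H, hle, hmax.1, fun H' h1 h2 => le_antisymm (hmax.2 h2 h1) h1⟩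

/-- The graph of a homomorphism on a subalgebra. -/
def homGraph (S : Subalgebra L M) (π : S →ₐ[L] L) : Subalgebra L (M × L) :=
  ((S.val.prod π).range)

theorem isHomGraph_homGraph (S : Subalgebra L M) (π : S →ₐ[L] L) : IsHomGraph (homGraph S π) := by
  rintro c ⟨z, hz⟩
  obtain ⟨h1, h2⟩ := Prod.mk.injEq .. ▸ (hz : ((z : M), π z) = (0, c))
  obtain rfl : z = 0 := Subtype.ext h1
  rw [← h2, map_zero]

theorem mem_homGraph (S : Subalgebra L M) (π : S →ₐ[L] L) (z : S) :
    ((z : M), π z) ∈ homGraph S π := ⟨z, rfl⟩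

variable [IsAlgClosed L]

/-- An extension of a maximal graph by one element. -/
theorem mem_graphDom_of_ne_top {G : Subalgebra L (M × L)} (hG : IsHomGraph G)
    (hmax : ∀ H', G ≤ H' → IsHomGraph H' → H' = G) {x : M}
    {J : Ideal (Algebra.adjoin (graphDom G) {x})} (hJ : J ≠ ⊤)
    (hle : ∀ z : graphDom G, graphHom hG z = 0 → algebraMap _ _ z ∈ J) :
    x ∈ graphDom G := by
  obtain ⟨P, hP, hJP⟩ := Ideal.exists_le_maximal J hJ
  let D := graphDom G
  let B := Algebra.adjoin D {x}
  have : P.IsMaximal := hP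
  let _ : Field (B ⧸ P) := Ideal.Quotient.field P
  have hred : ∀ z : D, Ideal.Quotient.mk P (algebraMap D B z) =
      algebraMap L (B ⧸ P) (graphHom hG z) := by
    intro z
    rw [IsScalarTower.algebraMap_apply L B (B ⧸ P), IsScalarTower.algebraMap_apply L D B,
      Ideal.Quotient.algebraMap_eq, ← sub_eq_zero, ← map_sub, ← map_sub,
      Ideal.Quotient.eq_zero_iff_mem]
    exact hJP (hle _ (by rw [map_sub, AlgHom.commutes]; exact sub_self _))
  have hft : Algebra.FiniteType L (B ⧸ P) := by
    refine ⟨⟨{Ideal.Quotient.mk P ⟨x, Algebra.self_mem_adjoin_singleton D x⟩}, ?_⟩⟩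
    rw [Finset.coe_singleton]
    refine eq_top_iff.mpr fun q _ => ?_
    obtain ⟨⟨b, hb⟩, rfl⟩ := Ideal.Quotient.mk_surjective q
    induction hb using Algebra.adjoin_induction with
    | mem y hy =>
      obtain rfl : y = x := hy
      exact Algebra.subset_adjoin rfl
    | algebraMap r =>
      show Ideal.Quotient.mk P (algebraMap D B r) ∈ _
      rw [hred]
      exact Subalgebra.algebraMap_mem _ _
    | add y z hy hz h1 h2 => exact add_mem (h1 trivial) (h2 trivial)
    | mul y z hy hz h1 h2 => exact mul_mem (h1 trivial) (h2 trivial)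
  have : Module.Finite L (B ⧸ P) := finite_of_finite_type_of_isJacobsonRing L (B ⧸ P)
  have hbij : Function.Bijective (algebraMap L (B ⧸ P)) :=
    IsAlgClosed.algebraMap_bijective_of_isIntegral
  let e := AlgEquiv.ofBijective (Algebra.ofId L (B ⧸ P)) hbij
  let θ : B →ₐ[L] L := e.symm.toAlgHom.comp (Ideal.Quotient.mkₐ L P)
  have hθ : ∀ z : D, θ (algebraMap D B z) = graphHom hG z := by
    intro z
    show e.symm (Ideal.Quotient.mk P (algebraMap D B z)) = _
    rw [hred]
    exact e.symm.commutes _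
  let incl : B →ₐ[L] M × L := (B.val.restrictScalars L).prod θ
  have hle' : G ≤ incl.range := by
    rintro ⟨m, a⟩ hma
    have hm : m ∈ D := mem_graphDom.mpr ⟨a, hma⟩
    refine ⟨algebraMap D B ⟨m, hm⟩, Prod.ext rfl ?_⟩
    show θ (algebraMap D B ⟨m, hm⟩) = a
    rw [hθ]
    exact hG.eq_of_mem (mem_graph_graphHom hG ⟨m, hm⟩) hma
  have hgraph : IsHomGraph incl.range := by
    rintro c ⟨z, hz⟩
    obtain ⟨h1, h2⟩ := Prod.mk.injEq .. ▸ (hz : ((z : M), θ z) = (0, c))
    obtain rfl : z = 0 := Subtype.ext h1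
    rw [← h2, map_zero]
  have h := hmax _ hle' hgraph
  refine mem_graphDom.mpr ⟨θ ⟨x, Algebra.self_mem_adjoin_singleton D x⟩, ?_⟩
  rw [← h]
  exact ⟨⟨x, Algebra.self_mem_adjoin_singleton D x⟩, rfl⟩

/-- A homomorphism to an algebraically closed field extends to a place. -/
theorem LPlace.exists_extend (S : Subalgebra L M) (π : S →ₐ[L] L) :
    ∃ P : LPlace L M, ∀ z : S, ∃ h : (z : M) ∈ P.ring, P.value ⟨(z : M), h⟩ = π z := by
  obtain ⟨G, hle, hG, hmax⟩ := exists_maximal_graph (isHomGraph_homGraph S π)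
  set D := graphDom G
  set p := graphHom hG
  have hadj : ∀ x : M, x ∉ D →
      (RingHom.ker p).map (algebraMap D (Algebra.adjoin D {x})) = ⊤ := by
    intro x hx
    by_contra h
    exact hx (mem_graphDom_of_ne_top hG hmax h fun z hz => Ideal.mem_map_of_mem _ hz)
  have hunit : ∀ z : D, p z ≠ 0 → IsUnit z := by
    intro z hz
    have hz0 : (z : M) ≠ 0 := fun h => hz (by rw [show z = 0 from Subtype.ext h, map_zero])
    suffices (z : M)⁻¹ ∈ D from
      isUnit_iff_exists_inv.mpr ⟨⟨_, this⟩, Subtype.ext (mul_inv_cancel₀ hz0)⟩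
    by_contra hx
    have htop := hadj _ hx
    have hN : ∀ y ∈ Algebra.adjoin D {(z : M)⁻¹}, ∃ n : ℕ, (z : M) ^ n * y ∈ D := by
      intro y hy
      induction hy using Algebra.adjoin_induction with
      | mem y hy =>
        refine ⟨1, ?_⟩
        rw [show y = (z : M)⁻¹ from hy, pow_one, mul_inv_cancel₀ hz0]
        exact one_mem D
      | algebraMap r => exact ⟨0, by rw [pow_zero, one_mul]; exact r.2⟩
      | add y y' _ _ h h' =>
        obtain ⟨n, hn⟩ := h
        obtain ⟨m, hm⟩ := h'
        refine ⟨n + m, ?_⟩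
        rw [show (z : M) ^ (n + m) * (y + y') =
          (z : M) ^ m * ((z : M) ^ n * y) + (z : M) ^ n * ((z : M) ^ m * y') by ring]
        exact add_mem (mul_mem (pow_mem z.2 m) hn) (mul_mem (pow_mem z.2 n) hm)
      | mul y y' _ _ h h' =>
        obtain ⟨n, hn⟩ := h
        obtain ⟨m, hm⟩ := h'
        refine ⟨n + m, ?_⟩
        rw [show (z : M) ^ (n + m) * (y * y') =
          ((z : M) ^ n * y) * ((z : M) ^ m * y') by ring]
        exact mul_mem hn hm
    have key : ∀ b ∈ (RingHom.ker p).map (algebraMap D (Algebra.adjoin D {(z : M)⁻¹})),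
        ∃ (n : ℕ) (d : D), (z : M) ^ n * (b : M) = d ∧ p d = 0 := by
      intro b hb
      refine Submodule.span_induction ?_ ?_ ?_ ?_ hb
      · rintro _ ⟨d, hd, rfl⟩
        exact ⟨0, d, by rw [pow_zero, one_mul]; rfl, hd⟩
      · exact ⟨0, 0, by simp, map_zero p⟩
      · rintro a b _ _ ⟨n, d, hd, hd0⟩ ⟨m, d', hd', hd0'⟩
        refine ⟨n + m, z ^ m * d + z ^ n * d', ?_, by simp [hd0, hd0']⟩
        push_cast
        rw [← hd, ← hd']
        ring
      · rintro a b _ ⟨n, d, hd, hd0⟩
        obtain ⟨m, hm⟩ := hN a a.2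
        refine ⟨m + n, ⟨_, hm⟩ * d, ?_, by simp [hd0]⟩
        push_cast [smul_eq_mul]
        rw [← hd]
        ring
    obtain ⟨n, d, hd, hd0⟩ := key 1 (htop ▸ Submodule.mem_top)
    rw [OneMemClass.coe_one, mul_one] at hd
    rw [← show z ^ n = d from Subtype.ext (by simpa using hd), map_pow] at hd0
    exact hz (pow_eq_zero_iff'.mp hd0).1
  have htot : ∀ x : M, x ∈ D ∨ x⁻¹ ∈ D := by
    intro x
    by_contra h
    rw [not_or] at h
    have hx0 : x ≠ 0 := fun e => h.1 (e ▸ zero_mem D)
    have : IsLocalRing D := by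
      refine IsLocalRing.of_isUnit_or_isUnit_one_sub_self fun a => ?_
      by_cases ha : p a = 0
      · exact Or.inr (hunit _ (by simp [ha]))
      · exact Or.inl (hunit _ ha)
    have hker : RingHom.ker p = IsLocalRing.maximalIdeal D := by
      refine le_antisymm (IsLocalRing.le_maximalIdeal (RingHom.ker_ne_top _)) fun z hz => ?_
      by_contra h'
      exact hz (hunit z h')
    let R : LocalSubring M := LocalSubring.mk (D.toSubring) (isLocalRing := ‹IsLocalRing D›)
    have hR : IsMax R := by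
      intro R' hR'
      by_contra hlt
      obtain ⟨hsub, hloc⟩ := hR'
      have hne : ¬ R'.toSubring ≤ D.toSubring := fun hle2 => hlt (le_of_eq
        (LocalSubring.toSubring_injective (le_antisymm hle2 hsub)))
      obtain ⟨y, hy, hyD⟩ := SetLike.not_le_iff_exists.mp hne
      let B := Algebra.adjoin D {y}
      have hB : ∀ b : M, b ∈ B → b ∈ R'.toSubring := by
        intro b hb
        induction hb using Algebra.adjoin_induction with
        | mem b hb => rwa [show b = y from hb]
        | algebraMap r => exact hsub r.2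
        | add a b _ _ ha hb => exact add_mem ha hb
        | mul a b _ _ ha hb => exact mul_mem ha hb
      let φ : B →+* R'.toSubring :=
        { toFun := fun b => ⟨b, hB b b.2⟩
          map_one' := rfl
          map_mul' := fun _ _ => rfl
          map_zero' := rfl
          map_add' := fun _ _ => rfl }
      have h1 : (RingHom.ker p).map (algebraMap D B) ≤
          (IsLocalRing.maximalIdeal R'.toSubring).comap φ := by
        rw [Ideal.map_le_iff_le_comap]
        intro z hz
        rw [hker] at hz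
        show φ (algebraMap D B z) ∈ nonunits _
        exact fun hu => hz (hloc.1 z hu)
      rw [hadj y hyD, top_le_iff, Ideal.comap_eq_top_iff] at h1
      exact (IsLocalRing.maximalIdeal.isMaximal _).ne_top h1
    obtain ⟨V, hV⟩ := LocalSubring.exists_valuationRing_of_isMax hR
    have hVD : ∀ m : M, m ∈ V → m ∈ D := fun m hm => by
      have : m ∈ V.toLocalSubring.toSubring := hm
      rwa [hV] at this
    exact (V.mem_or_inv_mem x).elim (fun h' => h.1 (hVD _ h')) (fun h' => h.2 (hVD _ h'))
  refine ⟨⟨⟨D.toSubring, htot⟩, D.algebraMap_mem, p.toRingHom, fun c => p.commutes c, hunit⟩,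
    fun z => ⟨mem_graphDom.mpr ⟨π z, hle (mem_homGraph S π z)⟩, ?_⟩⟩
  exact hG.eq_of_mem (mem_graph_graphHom hG ⟨(z : M), _⟩) (hle (mem_homGraph S π z))

omit [IsAlgClosed L] in
/-- A polynomial ring has a point. -/
theorem exists_hom_adjoin_transcendental {c : M} (hc : Transcendental L c) (a : L) :
    ∃ π : Algebra.adjoin L {c} →ₐ[L] L, π ⟨c, Algebra.self_mem_adjoin_singleton L c⟩ = a := by
  let e : Polynomial L ≃ₐ[L] Algebra.adjoin L {c} :=
    (AlgEquiv.ofInjective (Polynomial.aeval c) (transcendental_iff_injective.mp hc)).trans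
      (Subalgebra.equivOfEq _ _ (Algebra.adjoin_singleton_eq_range_aeval L c).symm)
  refine ⟨(Polynomial.aeval a).comp e.symm.toAlgHom, ?_⟩
  have : e Polynomial.X = ⟨c, Algebra.self_mem_adjoin_singleton L c⟩ :=
    Subtype.ext (by simp [e])
  show Polynomial.aeval a (e.symm _) = a
  rw [← this, AlgEquiv.symm_apply_apply, Polynomial.aeval_X]

section Domain

variable (k D N : Type*) [Field k] [IsAlgClosed k] [CommRing D] [IsDomain D] [Algebra k D]
  [CommRing N] [IsDomain N] [Algebra k N]

theorem exists_point_of_ne_zero [Algebra.FiniteType k D] {s : D} (hs : s ≠ 0) :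
    ∃ φ : D →ₐ[k] k, φ s ≠ 0 := by
  have : IsJacobsonRing D := isJacobsonRing_of_finiteType (A := k)
  have hjac : (⊥ : Ideal D).jacobson = ⊥ :=
    IsJacobsonRing.out ‹_› Ideal.isRadical_bot
  have : ¬ s ∈ (⊥ : Ideal D).jacobson := by rw [hjac]; exact hs
  rw [Ideal.jacobson, Ideal.mem_sInf] at this
  simp only [Set.mem_setOf_eq, not_forall] at this
  obtain ⟨m, ⟨-, hm⟩, hsm⟩ := this
  let _ : Field (D ⧸ m) := Ideal.Quotient.field m
  have : Module.Finite k (D ⧸ m) := finite_of_finite_type_of_isJacobsonRing k (D ⧸ m)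
  let e := AlgEquiv.ofBijective (Algebra.ofId k (D ⧸ m))
    IsAlgClosed.algebraMap_bijective_of_isIntegral
  refine ⟨e.symm.toAlgHom.comp (Ideal.Quotient.mkₐ k m), fun h => hsm ?_⟩
  rw [← Ideal.Quotient.eq_zero_iff_mem]
  exact e.symm.injective (h.trans (map_zero _).symm)

theorem isDomain_tensorProduct_of_finiteType [Algebra.FiniteType k D] :
    IsDomain (D ⊗[k] N) := by
  classical
  let b := Module.Free.chooseBasis k N
  have : Nontrivial (D ⊗[k] N) := by
    obtain ⟨φ, -⟩ := exists_point_of_ne_zero k D one_ne_zero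
    exact ((Algebra.TensorProduct.lid k N).toRingHom.comp
      (Algebra.TensorProduct.map φ (AlgHom.id k N)).toRingHom).domain_nontrivial
  suffices NoZeroDivisors (D ⊗[k] N) from NoZeroDivisors.to_isDomain _
  refine ⟨fun {x y} hxy => ?_⟩
  by_contra hne
  rw [not_or] at hne
  have hc : ∀ z : D ⊗[k] N, z ≠ 0 →
      ∃ s : D, s ≠ 0 ∧ ∀ φ : D →ₐ[k] k, φ s ≠ 0 →
        Algebra.TensorProduct.lid k N (Algebra.TensorProduct.map φ (AlgHom.id k N) z) ≠ 0 := by
    intro z hz
    obtain ⟨i, hi⟩ : ∃ i, (b.baseChange D).repr z i ≠ 0 := by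
      by_contra h
      push Not at h
      exact hz ((b.baseChange D).repr.injective (by rw [map_zero]; exact Finsupp.ext h))
    refine ⟨(b.baseChange D).repr z i, hi, fun φ hφ h => hφ ?_⟩
    have key : ∀ w : D ⊗[k] N,
        b.repr (Algebra.TensorProduct.lid k N (Algebra.TensorProduct.map φ (AlgHom.id k N) w)) i
          = φ ((b.baseChange D).repr w i) := by
      intro w
      induction w using TensorProduct.induction_on with
      | zero => simp
      | tmul d n => simp [Module.Basis.baseChange_repr_tmul, mul_comm]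
      | add u v hu hv => simp [map_add, Finsupp.add_apply, hu, hv]
    rw [← key, h]
    simp
  obtain ⟨s, hs, hs'⟩ := hc x hne.1
  obtain ⟨t, ht, ht'⟩ := hc y hne.2
  obtain ⟨φ, hφ⟩ := exists_point_of_ne_zero k D (mul_ne_zero hs ht)
  rw [map_mul] at hφ
  have := congrArg
    (fun w => Algebra.TensorProduct.lid k N (Algebra.TensorProduct.map φ (AlgHom.id k N) w)) hxy
  simp only [map_mul, map_zero] at this
  exact (mul_ne_zero (hs' φ (left_ne_zero_of_mul hφ)) (ht' φ (right_ne_zero_of_mul hφ))) this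

/-- A domain over an algebraically closed field stays a domain after base change to a domain. -/
theorem isDomain_tensorProduct : IsDomain (D ⊗[k] N) := by
  classical
  have hinj : ∀ S : Subalgebra k D,
      Function.Injective (Algebra.TensorProduct.map S.val (AlgHom.id k N)) := fun S =>
    Module.Flat.rTensor_preserves_injective_linearMap S.val.toLinearMap Subtype.val_injective
  have hmem : ∀ z : D ⊗[k] N, ∃ S : Subalgebra k D, S.FG ∧
      ∀ T : Subalgebra k D, S ≤ T →
        z ∈ (Algebra.TensorProduct.map T.val (AlgHom.id k N)).range := by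
    intro z
    induction z using TensorProduct.induction_on with
    | zero => exact ⟨⊥, Subalgebra.fg_bot, fun T _ => zero_mem _⟩
    | tmul d n =>
      exact ⟨Algebra.adjoin k {d}, ⟨{d}, by simp⟩,
        fun T hT => ⟨⟨d, hT (Algebra.self_mem_adjoin_singleton k d)⟩ ⊗ₜ n, rfl⟩⟩
    | add u v hu hv =>
      obtain ⟨S, hS, hSu⟩ := hu
      obtain ⟨S', hS', hSv⟩ := hv
      exact ⟨S ⊔ S', hS.sup hS', fun T hT =>
        add_mem (hSu T (le_sup_left.trans hT)) (hSv T (le_sup_right.trans hT))⟩
  have : Nontrivial (D ⊗[k] N) := by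
    have := isDomain_tensorProduct_of_finiteType k (⊥ : Subalgebra k D) N
    exact (hinj ⊥).nontrivial
  suffices NoZeroDivisors (D ⊗[k] N) from NoZeroDivisors.to_isDomain _
  refine ⟨fun {x y} hxy => ?_⟩
  obtain ⟨S, hS, hSx⟩ := hmem x
  obtain ⟨S', hS', hSy⟩ := hmem y
  obtain ⟨x', rfl⟩ := hSx (S ⊔ S') le_sup_left
  obtain ⟨y', rfl⟩ := hSy (S ⊔ S') le_sup_right
  have : Algebra.FiniteType k ↥(S ⊔ S') := (Subalgebra.fg_iff_finiteType _).mp (hS.sup hS')
  have := isDomain_tensorProduct_of_finiteType k ↥(S ⊔ S') N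
  have h0 : x' * y' = 0 := hinj (S ⊔ S') (by rw [map_mul, map_zero]; exact hxy)
  rcases mul_eq_zero.mp h0 with h | h <;> simp [h]

end Domain

end Fermat.Agent.AV
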