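import Fermat.Agent.AV.Points
import Fermat.Agent.AV.PlaceExt

/-!
# Specialisation of points along places

For a place `P` of `M` with values in `L` (everything over `K`), proper points of `M` specialise to
points of `L` by the valuative criterion.
-/

set_option autoImplicit false

noncomputable section

universe u

open CategoryTheory AlgebraicGeometry

namespace Fermat.Agent.AV

variable {K : Type u} [Field K] {X : AbVar K}
variable {L M : Type u} [Field L] [Field M] [Algebra K L] [Algebra K M] [Algebra L M]
  [IsScalarTower K L M]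

namespace LPlace

variable (P : LPlace L M)

/-- The valuation ring of a place, containing the base field. -/
def kval : KValSubring K M where
  val := P.ring
  algebraMap_mem c := by
    rw [IsScalarTower.algebraMap_apply K L M]
    exact P.algebraMap_mem _

/-- The valuation ring of a place as a `K`-algebra. -/
abbrev kring : Subalgebra K M := (P.kval (K := K)).toSubalgebra

theorem mem_kring {z : M} : z ∈ P.kring (K := K) ↔ z ∈ P.ring := Iff.rfl

/-- The value map as a `K`-algebra map. -/
def valueHom : P.kring (K := K) →ₐ[K] L where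
  toFun z := P.value ⟨z, z.2⟩
  map_one' := map_one P.value
  map_mul' x y := map_mul P.value ⟨x, x.2⟩ ⟨y, y.2⟩
  map_zero' := map_zero P.value
  map_add' x y := map_add P.value ⟨x, x.2⟩ ⟨y, y.2⟩
  commutes' c := by
    rw [← P.value_algebraMap (algebraMap K L c)]
    exact congrArg P.value (Subtype.ext (IsScalarTower.algebraMap_apply K L M c))

theorem valueHom_apply (z : P.kring (K := K)) : P.valueHom z = P.value ⟨z, z.2⟩ := rfl

/-- The inclusion of constants. -/
def constHom : L →ₐ[K] P.kring (K := K) :=
  (IsScalarTower.toAlgHom K L M).codRestrict (P.kring (K := K)) P.algebraMap_mem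

theorem val_comp_constHom :
    (P.kring (K := K)).val.comp P.constHom = IsScalarTower.toAlgHom K L M := rfl

theorem valueHom_comp_constHom : (P.valueHom (K := K)).comp P.constHom = AlgHom.id K L :=
  AlgHom.ext fun c => P.value_algebraMap c

instance isLocalHom_valueHom : IsLocalHom (P.valueHom (K := K)).toRingHom where
  map_nonunit z hz := P.isLocalHom ⟨z, z.2⟩ hz.ne_zero

instance isLocalRing_kring : IsLocalRing (P.kring (K := K)) :=
  inferInstanceAs (IsLocalRing P.ring)

/-- Specialisation of points along a place. -/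
def spec : Pt X M →+ Pt X L :=
  (Pt.map P.valueHom).comp (AddMonoidHom.mk' P.kval.lift P.kval.lift_add)

theorem spec_apply (x : Pt X M) : P.spec x = Pt.map P.valueHom (P.kval.lift x) := rfl

theorem spec_eq {S : Type u} [CommRing S] [Algebra K S] (y : Pt X S)
    (χ : S →ₐ[K] P.kring (K := K)) {x : Pt X M}
    (h : Pt.map ((P.kring (K := K)).val.comp χ) y = x) :
    P.spec x = Pt.map (P.valueHom.comp χ) y := by
  rw [spec_apply, P.kval.lift_eq (y := Pt.map χ y) (by rw [Pt.map_map]; exact h), Pt.map_map]

/-- Constant points specialise to themselves. -/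
theorem spec_map_const (y : Pt X L) : P.spec (Pt.map (IsScalarTower.toAlgHom K L M) y) = y := by
  rw [P.spec_eq y P.constHom (by rw [val_comp_constHom]), valueHom_comp_constHom, Pt.map_id]

theorem mem_of_mem_spec {x : Pt X M} {U : X.carrier.Opens} (h : (P.spec x).Mem U) : x.Mem U := by
  have := Pt.mem_of_mem_map P.valueHom (x := P.kval.lift x) h
  rw [← P.kval.map_lift x]
  exact this.map _

theorem eval_mem_and_value {x : Pt X M} {U : Chart X} (h : (P.spec x).Mem U.1)
    (b : Γ(X.carrier, U.1)) :
    ∃ hb : x.eval U (P.mem_of_mem_spec h) b ∈ P.ring,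
      P.value ⟨_, hb⟩ = (P.spec x).eval U h b := by
  have hy : (P.kval.lift x).Mem U.1 := Pt.mem_of_mem_map P.valueHom (x := P.kval.lift x) h
  have h1 := Pt.eval_map (P.kring (K := K)).val (P.kval.lift x) U hy
  have h2 := Pt.eval_map P.valueHom (P.kval.lift x) U hy
  have e1 : x.eval U (P.mem_of_mem_spec h) b = ((P.kval.lift x).eval U hy b : M) := by
    have key : ∀ (y : Pt X M) (hy' : y.Mem U.1), y = x →
        x.eval U (P.mem_of_mem_spec h) b = y.eval U hy' b := by rintro y hy' rfl; rfl
    rw [key _ (hy.map _) (P.kval.map_lift x), h1]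
    rfl
  refine ⟨e1 ▸ ((P.kval.lift x).eval U hy b).2, ?_⟩
  have e2 : (P.spec x).eval U h b = P.valueHom ((P.kval.lift x).eval U hy b) := by
    show (Pt.map P.valueHom (P.kval.lift x)).eval U h b = _
    rw [h2]
    rfl
  rw [e2, valueHom_apply]
  exact congrArg P.value (Subtype.ext e1)

/-- Compatibility of specialisation with a map of places. -/
theorem spec_map_of_hom {L₂ M₂ : Type u} [Field L₂] [Field M₂] [Algebra K L₂] [Algebra K M₂]
    [Algebra L₂ M₂] [IsScalarTower K L₂ M₂] (Q : LPlace L₂ M₂) (φ : M →ₐ[K] M₂)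
    (θ : L →ₐ[K] L₂)
    (hφ : ∀ z : P.ring, ∃ h : φ z ∈ Q.ring, Q.value ⟨φ z, h⟩ = θ (P.value z)) (x : Pt X M) :
    Q.spec (Pt.map φ x) = Pt.map θ (P.spec x) := by
  let χ : P.kring (K := K) →ₐ[K] Q.kring (K := K) :=
    (φ.comp (P.kring (K := K)).val).codRestrict (Q.kring (K := K))
      fun z => (hφ ⟨z, z.2⟩).choose
  have h1 : Pt.map ((Q.kring (K := K)).val.comp χ) (P.kval.lift x) = Pt.map φ x := by
    rw [show (Q.kring (K := K)).val.comp χ = φ.comp (P.kring (K := K)).val from rfl, ← Pt.map_map,
      P.kval.map_lift]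
  rw [Q.spec_eq _ χ h1, spec_apply, Pt.map_map]
  congr 1
  exact congrArg (fun ψ => ψ) (congrArg Pt.map
    (AlgHom.ext fun z => (hφ ⟨z, z.2⟩).choose_spec))

end LPlace

end Fermat.Agent.AV
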