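import Fermat.Agent.AV.FunctionField
import Fermat.Agent.AV.Specialize
import Fermat.Agent.FF.ConstExt.RRSpace
import Mathlib.FieldTheory.IsAlgClosed.AlgebraicClosure
import Mathlib.RingTheory.Localization.FractionRing

/-!
# Constant extensions and generic points
-/

set_option autoImplicit false
set_option linter.unusedSectionVars false

noncomputable section

universe u

open CategoryTheory AlgebraicGeometry AlgebraicCurve Fermat.Agent.FF Fermat.Agent.FF.ConstExt
open scoped TensorProduct

namespace Fermat.Agent.AV

section CF

variable (L L' F : Type u) [Field L] [Field L'] [Field F] [Algebra L L'] [Algebra L F]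
  [IsAlgClosed L]

instance isDomain_tensorField : IsDomain (L' ⊗[L] F) := isDomain_tensorProduct L L' F

/-- The constant field extension of `F` to `L'`. -/
def CF : Type u := FractionRing (L' ⊗[L] F)

instance : Field (CF L L' F) := inferInstanceAs (Field (FractionRing (L' ⊗[L] F)))

/-- The defining map of the constant extension. -/
def toCF : L' ⊗[L] F →+* CF L L' F := algebraMap (L' ⊗[L] F) (FractionRing (L' ⊗[L] F))

theorem toCF_injective : Function.Injective (toCF L L' F) :=
  IsFractionRing.injective (L' ⊗[L] F) (FractionRing (L' ⊗[L] F))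

theorem exists_toCF_div (z : CF L L' F) : ∃ a b, z = toCF L L' F a / toCF L L' F b := by
  obtain ⟨a, b, -, h⟩ :=
    IsFractionRing.div_surjective (L' ⊗[L] F) (K := FractionRing (L' ⊗[L] F)) z
  exact ⟨a, b, h.symm⟩

instance : Algebra L' (CF L L' F) :=
  ((toCF L L' F).comp Algebra.TensorProduct.includeLeftRingHom).toAlgebra

instance : Algebra F (CF L L' F) :=
  ((toCF L L' F).comp Algebra.TensorProduct.includeRight.toRingHom).toAlgebra

-- the unused hypothesis keeps `F` from acting through the constants
instance algebraCFBase {K : Type u} [CommSemiring K] [Algebra K L'] [_hKL : Algebra K L] :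
    Algebra K (CF L L' F) :=
  ((algebraMap L' (CF L L' F)).comp (algebraMap K L')).toAlgebra

instance : IsScalarTower L L' (CF L L' F) := IsScalarTower.of_algebraMap_eq fun _ => rfl

instance : IsScalarTower L F (CF L L' F) := IsScalarTower.of_algebraMap_eq fun c =>
  congrArg (toCF L L' F)
    ((Algebra.TensorProduct.includeRight : F →ₐ[L] L' ⊗[L] F).commutes c).symm

theorem mulMap_eq_toCF (t : L' ⊗[L] F) : mulMap L L' F (CF L L' F) t = toCF L L' F t := by
  induction t using TensorProduct.induction_on with
  | zero => simp
  | tmul c f =>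
    rw [mulMap_tmul]
    exact ((toCF L L' F).map_mul _ _).symm.trans (congrArg (toCF L L' F)
      (by simp [Algebra.TensorProduct.includeLeftRingHom_apply]))
  | add a b ha hb => rw [map_add, map_add, ha, hb]

instance : IsConstExt L L' F (CF L L' F) where
  mulMap_injective a b h := toCF_injective L L' F (by rwa [mulMap_eq_toCF, mulMap_eq_toCF] at h)
  adjoin_eq_top := by
    refine eq_top_iff.mpr fun z _ => ?_
    have hm : ∀ t, toCF L L' F t ∈
        IntermediateField.adjoin L' (Set.range (algebraMap F (CF L L' F))) := by
      intro t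
      rw [← mulMap_eq_toCF]
      induction t using TensorProduct.induction_on with
      | zero => rw [map_zero]; exact zero_mem _
      | tmul c f =>
        rw [mulMap_tmul]
        exact mul_mem (IntermediateField.algebraMap_mem _ c)
          (IntermediateField.subset_adjoin _ _ ⟨f, rfl⟩)
      | add a b ha hb => rw [map_add]; exact add_mem ha hb
    obtain ⟨a, b, rfl⟩ := exists_toCF_div L L' F z
    exact div_mem (hm a) (hm b)

instance [IsFunctionField L F] : IsFunctionField L' (CF L L' F) :=
  ConstExt.isFunctionField (K := L) (L := L') (F := F) (F' := CF L L' F)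

variable {K : Type u} [Field K] [Algebra K L'] [Algebra K L] [Algebra K F] [IsScalarTower K L L']
  [IsScalarTower K L F]

instance : IsScalarTower K L' (CF L L' F) := IsScalarTower.of_algebraMap_eq fun _ => rfl

instance : IsScalarTower K F (CF L L' F) := IsScalarTower.of_algebraMap_eq fun c => by
  show algebraMap L' (CF L L' F) (algebraMap K L' c) = _
  rw [IsScalarTower.algebraMap_apply K L L', IsScalarTower.algebraMap_apply K L F,
    ← IsScalarTower.algebraMap_apply L L' (CF L L' F),
    ← IsScalarTower.algebraMap_apply L F (CF L L' F)]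

end CF

section Generic

variable {K : Type u} [Field K] [IsAlgClosed K] (X : AbVar K)
variable (L : Type u) [Field L] [Algebra K L]

instance isDomain_genTensor : IsDomain (FFld X ⊗[K] L) := isDomain_tensorProduct K (FFld X) L

/-- An algebraically closed field over `L` with a point generic over `L`. -/
def GenF : Type u := AlgebraicClosure (FractionRing (FFld X ⊗[K] L))

instance : Field (GenF X L) :=
  inferInstanceAs (Field (AlgebraicClosure (FractionRing (FFld X ⊗[K] L))))

instance : IsAlgClosed (GenF X L) :=
  inferInstanceAs (IsAlgClosed (AlgebraicClosure (FractionRing (FFld X ⊗[K] L))))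

/-- The defining map. -/
def toGenF : FFld X ⊗[K] L →+* GenF X L :=
  (algebraMap (FractionRing (FFld X ⊗[K] L))
    (AlgebraicClosure (FractionRing (FFld X ⊗[K] L)))).comp
    (algebraMap (FFld X ⊗[K] L) (FractionRing (FFld X ⊗[K] L)))

theorem toGenF_injective : Function.Injective (toGenF X L) :=
  (algebraMap (FractionRing (FFld X ⊗[K] L))
    (AlgebraicClosure (FractionRing (FFld X ⊗[K] L)))).injective.comp
    (IsFractionRing.injective (FFld X ⊗[K] L) (FractionRing (FFld X ⊗[K] L)))

instance : Algebra L (GenF X L) :=
  ((toGenF X L).comp Algebra.TensorProduct.includeRight.toRingHom).toAlgebra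

instance : Algebra K (GenF X L) :=
  ((toGenF X L).comp (algebraMap K (FFld X ⊗[K] L))).toAlgebra

instance : IsScalarTower K L (GenF X L) := IsScalarTower.of_algebraMap_eq fun c =>
  congrArg (toGenF X L)
    ((Algebra.TensorProduct.includeRight : L →ₐ[K] FFld X ⊗[K] L).commutes c).symm

/-- The coordinate map of the generic point. -/
def genHom : FFld X →ₐ[K] GenF X L where
  __ := (toGenF X L).comp Algebra.TensorProduct.includeLeftRingHom
  commutes' _ := rfl

/-- The point generic over `L`. -/
def genP : Pt X (GenF X L) := Pt.map (genHom X L) (genPt X)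

/-- The generic point specialises to every point. -/
theorem exists_place_genP [IsAlgClosed L] (a : Pt X L) :
    ∃ v : LPlace L (GenF X L), v.spec (genP X L) = a := by
  obtain ⟨U, hU⟩ := a.exists_chart
  have hg := mem_genericPoint_of_mem hU
  let ψ : L ⊗[K] Γ(X.carrier, U.1) →ₐ[L] GenF X L :=
    Algebra.TensorProduct.lift (Algebra.ofId L _) ((genHom X L).comp (germAlg U.1 hg))
      fun _ _ => Commute.all _ _
  have hψ : Function.Injective ψ := by
    let ι : L ⊗[K] Γ(X.carrier, U.1) →ₐ[K] FFld X ⊗[K] L :=
      (Algebra.TensorProduct.map (germAlg U.1 hg) (AlgHom.id K L)).comp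
        (Algebra.TensorProduct.comm K L Γ(X.carrier, U.1)).toAlgHom
    have e : ∀ t, ψ t = toGenF X L (ι t) := by
      intro t
      induction t using TensorProduct.induction_on with
      | zero => simp
      | tmul c b =>
        have : ι (c ⊗ₜ b) = germAlg U.1 hg b ⊗ₜ c := rfl
        rw [this, Algebra.TensorProduct.lift_tmul,
          show germAlg U.1 hg b ⊗ₜ[K] c =
            (1 : FFld X) ⊗ₜ[K] c * germAlg U.1 hg b ⊗ₜ[K] (1 : L) by simp,
          map_mul]
        rfl
      | add p q hp hq => rw [map_add, map_add, hp, hq, map_add]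
    intro p q h
    rw [e, e] at h
    exact (Algebra.TensorProduct.comm K L Γ(X.carrier, U.1)).injective
      (Module.Flat.rTensor_preserves_injective_linearMap (M := L) (germAlg U.1 hg).toLinearMap
        (germAlg_injective U.1 hg) (toGenF_injective X L h))
  let π₀ : L ⊗[K] Γ(X.carrier, U.1) →ₐ[L] L :=
    Algebra.TensorProduct.lift (AlgHom.id L L) (a.eval U hU) fun _ _ => Commute.all _ _
  let e := AlgEquiv.ofInjective ψ hψ
  obtain ⟨v, hv⟩ := LPlace.exists_extend ψ.range (π₀.comp e.symm.toAlgHom)
  refine ⟨v, ?_⟩
  have hev : ∀ b, ∃ h : genHom X L (germAlg U.1 hg b) ∈ v.ring,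
      v.value ⟨_, h⟩ = a.eval U hU b := by
    intro b
    have he : (e (1 ⊗ₜ b) : GenF X L) = genHom X L (germAlg U.1 hg b) := by simp [e, ψ]
    obtain ⟨h, h'⟩ := hv (e (1 ⊗ₜ b))
    refine ⟨he ▸ h, (congrArg v.value (Subtype.ext he.symm)).trans (h'.trans ?_)⟩
    simp [π₀]
  let χ : Γ(X.carrier, U.1) →ₐ[K] v.kring (K := K) :=
    ((genHom X L).comp (germAlg U.1 hg)).codRestrict _ fun b => (hev b).choose
  have h1 : Pt.map ((v.kring (K := K)).val.comp χ) (Pt.ofEval U (AlgHom.id K _)) = genP X L := by
    rw [genP, genPt_eq U hg, Pt.map_ofEval, Pt.map_ofEval, AlgHom.comp_id]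
    congr 1
  rw [v.spec_eq _ χ h1, Pt.map_ofEval, AlgHom.comp_id]
  refine Pt.ext_eval (Pt.mem_ofEval U _) hU ?_
  rw [Pt.eval_ofEval]
  exact AlgHom.ext fun b => (hev b).choose_spec

end Generic

end Fermat.Agent.AV
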