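import Fermat.Agent.AV.Height
import Fermat.Agent.AV.Red.Divisor

/-!
# Heights and reduction of constants
-/

set_option autoImplicit false
set_option linter.unusedSectionVars false

noncomputable section

universe u

open CategoryTheory AlgebraicGeometry AlgebraicCurve Fermat.Agent.FF Fermat.Agent.FF.ConstExt

namespace Fermat.Agent.AV

variable {K : Type u} [Field K] {X : AbVar K}
variable {L L' F F' : Type u} [Field L] [Field L'] [Field F] [Field F'] [Algebra L L'] [Algebra L F]
  [Algebra L' F'] [Algebra F F'] [Algebra L F'] [IsScalarTower L L' F'] [IsScalarTower L F F']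
  [Algebra K L] [Algebra K L'] [Algebra K F] [Algebra K F'] [IsScalarTower K L L']
  [IsScalarTower K L F] [IsScalarTower K L' F'] [IsScalarTower K F F']
variable [IsFunctionField L F] [IsAlgClosed L] [IsFunctionField L' F'] [IsAlgClosed L']
  [IsConstExt L L' F F']
variable (v : LPlace L L')

variable (F F') in
/-- Points whose specialisations commute with reduction. -/
def compat : AddSubgroup (Pt X F') :=
  ⨅ P : Place L' F', (v.spec.comp (toLP P).spec).eqLocus
    ((toLP (redPlace (F := F) v P)).spec.comp (gauss F F' v).spec)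

theorem mem_compat {x : Pt X F'} : x ∈ compat F F' v ↔ ∀ P : Place L' F',
    v.spec ((toLP P).spec x) = (toLP (redPlace (F := F) v P)).spec ((gauss F F' v).spec x) := by
  simp only [compat, AddSubgroup.mem_iInf]
  rfl

theorem map_algebraMap_mem_compat (u : Pt X F) :
    Pt.map (IsScalarTower.toAlgHom K F F') u ∈ compat F F' v := by
  rw [mem_compat]
  intro P
  rw [LPlace.spec_map_const]
  set R : Place L F := redPlace v P with hR
  have hmem : ∀ z : (toLP R).kring (K := K), algebraMap F F' (z : F) ∈ P.toValuationSubring :=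
    fun z => (value_evalAt_eq v P z.2).choose
  let χ : (toLP R).kring (K := K) →ₐ[K] (toLP P).kring (K := K) :=
    ((IsScalarTower.toAlgHom K F F').comp ((toLP R).kring (K := K)).val).codRestrict _ hmem
  have h1 : Pt.map (((toLP P).kring (K := K)).val.comp χ) ((toLP R).kval.lift u) =
      Pt.map (IsScalarTower.toAlgHom K F F') u := by
    rw [show ((toLP P).kring (K := K)).val.comp χ =
      (IsScalarTower.toAlgHom K F F').comp ((toLP R).kring (K := K)).val from rfl, ← Pt.map_map,
      (toLP R).kval.map_lift]
  rw [(toLP P).spec_eq _ χ h1]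
  have hval : ∀ z : (toLP R).kring (K := K),
      ((toLP P).valueHom.comp χ) z ∈ v.kring (K := K) :=
    fun z => (value_evalAt_eq v P z.2).choose_spec.choose
  let ξ : (toLP R).kring (K := K) →ₐ[K] v.kring (K := K) :=
    ((toLP P).valueHom.comp χ).codRestrict _ hval
  rw [show (toLP P).valueHom.comp χ = (v.kring (K := K)).val.comp ξ from rfl,
    v.spec_eq ((toLP R).kval.lift u) ξ rfl, LPlace.spec_apply]
  congr 1
  exact congrArg Pt.map (AlgHom.ext fun z => (value_evalAt_eq v P z.2).choose_spec.choose_spec)

theorem map_const_mem_compat (b : Pt X L') :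
    Pt.map (IsScalarTower.toAlgHom K L' F') b ∈ compat F F' v := by
  rw [mem_compat]
  intro P
  rw [LPlace.spec_map_const]
  rw [v.spec_map_of_hom (gauss F F' v) (IsScalarTower.toAlgHom K L' F')
    (IsScalarTower.toAlgHom K L F) (fun z => gauss_algebraMap_const v z.2) b,
    LPlace.spec_map_const]

theorem gauss_spec_map_const (b : Pt X L') :
    (gauss F F' v).spec (Pt.map (IsScalarTower.toAlgHom K L' F') b) =
      Pt.map (IsScalarTower.toAlgHom K L F) (v.spec b) :=
  v.spec_map_of_hom (gauss F F' v) (IsScalarTower.toAlgHom K L' F')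
    (IsScalarTower.toAlgHom K L F) (fun z => gauss_algebraMap_const v z.2) b

variable (c : Cocycle X)

theorem gunit_ev (x : Pt X F') {i j : Fin c.n}
    (hi : ((gauss F F' v).spec x).Mem (c.V i).1) (hj : ((gauss F F' v).spec x).Mem (c.V j).1) :
    GUnit v (c.ev x i j) (c.ev ((gauss F F' v).spec x) i j) :=
  ⟨c.ev_ne_zero _ _ _, c.ev_spec (gauss F F' v) x hi hj⟩

theorem mem_spec_of_redPlace {x : Pt X F'} (hx : x ∈ compat F F' v) {P : Place L' F'}
    {R : Place L F} (hP : redPlace v P = R) {j : Fin c.n}
    (hj : ((toLP R).spec ((gauss F F' v).spec x)).Mem (c.V j).1) :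
    ((toLP P).spec x).Mem (c.V j).1 := by
  refine v.mem_of_mem_spec ?_
  rw [(mem_compat v).mp hx P, hP]
  exact hj

variable [IsAlgClosed K]

theorem redDiv_divG {x : Pt X F'} (hx : x ∈ compat F F' v) {i : Fin c.n}
    (hi : ((gauss F F' v).spec x).Mem (c.V i).1) :
    redDiv F F' v (divG (L := L') c x i ((gauss F F' v).mem_of_mem_spec hi)) =
      divG (L := L) c ((gauss F F' v).spec x) i hi := by
  classical
  refine Finsupp.ext fun R => ?_
  set j := c.idx ((toLP R).spec ((gauss F F' v).spec x))
  have hj := c.mem_idx ((toLP R).spec ((gauss F F' v).spec x))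
  rw [divG_apply c _ hi R hj,
    show R.ord (c.ev ((gauss F F' v).spec x) i j) = dv L (c.ev ((gauss F F' v).spec x) i j) R
      from rfl,
    ← redDiv_dv v (gunit_ev v c x hi ((toLP R).mem_of_mem_spec hj))]
  have key : ∀ (D E : Divisor L' F'), (∀ P, redPlace v P = R → D P = E P) →
      redDiv F F' v D R = redDiv F F' v E R := by
    intro D E hDE
    have e : redDiv F F' v (D - E) R = 0 := by
      show Finsupp.mapDomain (redPlace v) (D - E) R = 0
      rw [Finsupp.mapDomain, Finsupp.sum, Finsupp.finsetSum_apply]
      refine Finset.sum_eq_zero fun P _ => ?_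
      rw [Finsupp.single_apply]
      split_ifs with hP
      · rw [Finsupp.sub_apply, hDE P hP, sub_self]
      · rfl
    rw [map_sub, Finsupp.sub_apply] at e
    exact sub_eq_zero.mp e
  refine key _ _ fun P hP => ?_
  rw [divG_apply c x _ P (mem_spec_of_redPlace v c hx hP hj), dv_apply]

theorem ht_gauss_spec {x : Pt X F'} (hx : x ∈ compat F F' v) :
    ht L c ((gauss F F' v).spec x) = ht L' c x := by
  have hi := c.mem_idx ((gauss F F' v).spec x)
  rw [← degree_divG c _ hi, ← redDiv_divG v c hx hi, degree_redDiv, degree_divG]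

theorem redDiv_gDiv {x : Pt X F'} (hx : x ∈ compat F F' v) :
    redDiv F F' v (gDiv L' c x) - gDiv L c ((gauss F F' v).spec x) ∈
      Divisor.principal (K := L) (F := F) := by
  have hi := c.mem_idx ((gauss F F' v).spec x)
  have h1 := redDiv_mem_principal (F := F) v
    (divG_sub_gDiv_mem (L := L') c x ((gauss F F' v).mem_of_mem_spec hi))
  rw [map_sub, redDiv_divG v c hx hi] at h1
  rw [← neg_mem_iff, neg_sub]
  exact h1

end Fermat.Agent.AV
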