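import Fermat.Agent.AV.UVal
import Fermat.Agent.AV.HeightRed
import Fermat.Agent.AV.Generic
import Mathlib.FieldTheory.Normal.Basic
import Mathlib.Algebra.Polynomial.Splits

/-!
# Restriction of a trivial class to the diagonal

If a combination of the classes of the slots `u + e` is principal over the algebraic closure of the
function field, then the same combination of degrees vanishes on the diagonal, up to the slice
through a fixed place.
-/

set_option autoImplicit false
set_option linter.unusedSectionVars false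

noncomputable section

universe u

open CategoryTheory AlgebraicGeometry AlgebraicCurve Fermat.Agent.FF Fermat.Agent.FF.ConstExt
open scoped TensorProduct

namespace Fermat.Agent.AV

variable {K : Type u} [Field K] [IsAlgClosed K] {X : AbVar K}
variable {L F : Type u} [Field L] [Field F] [Algebra L F] [Algebra K L] [Algebra K F]
  [IsScalarTower K L F] [IsFunctionField L F] [IsAlgClosed L]

variable (L F) in
/-- The function field with constants extended to its own algebraic closure. -/
abbrev Dia : Type u := CF L (AlgebraicClosure F) F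

theorem exists_tautological :
    ∃ Q : LPlace (AlgebraicClosure F) (Dia L F), ∀ f : F,
      ∃ h : algebraMap F (Dia L F) f ∈ Q.ring,
        Q.value ⟨_, h⟩ = algebraMap F (AlgebraicClosure F) f := by
  let ψ := mulMap L (AlgebraicClosure F) F (Dia L F)
  have hψ : Function.Injective ψ :=
    IsConstExt.mulMap_injective (K := L) (L := AlgebraicClosure F) (F := F) (F' := Dia L F)
  let π : AlgebraicClosure F ⊗[L] F →ₐ[AlgebraicClosure F] AlgebraicClosure F :=
    Algebra.TensorProduct.lift (AlgHom.id _ _) (IsScalarTower.toAlgHom L F (AlgebraicClosure F))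
      fun _ _ => Commute.all _ _
  let e := AlgEquiv.ofInjective ψ hψ
  obtain ⟨Q, hQ⟩ := LPlace.exists_extend ψ.range (π.comp e.symm.toAlgHom)
  refine ⟨Q, fun f => ?_⟩
  have he : (e (1 ⊗ₜ f) : Dia L F) = algebraMap F (Dia L F) f := by simp [e, ψ]
  obtain ⟨h, h'⟩ := hQ (e (1 ⊗ₜ f))
  refine ⟨he ▸ h, (congrArg Q.value (Subtype.ext he.symm)).trans (h'.trans ?_)⟩
  simp [π]

theorem exists_lplace_over (R : Place L F) :
    ∃ v : LPlace L (AlgebraicClosure F), ∀ z : R.toValuationSubring,
      ∃ h : algebraMap F (AlgebraicClosure F) (z : F) ∈ v.ring,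
        v.value ⟨_, h⟩ = evalAt R z := by
  let j : R.toValuationSubring →ₐ[L] AlgebraicClosure F :=
    (IsScalarTower.toAlgHom L F (AlgebraicClosure F)).comp
      (IsScalarTower.toAlgHom L R.toValuationSubring F)
  have hj : Function.Injective j := fun a b h =>
    Subtype.ext ((algebraMap F (AlgebraicClosure F)).injective h)
  let e := AlgEquiv.ofInjective j hj
  obtain ⟨v, hv⟩ := LPlace.exists_extend j.range ((evalAt R).comp e.symm.toAlgHom)
  refine ⟨v, fun z => ?_⟩
  obtain ⟨h, h'⟩ := hv (e z)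
  exact ⟨h, h'.trans (congrArg (evalAt R) (e.symm_apply_apply z))⟩

theorem exists_comp_aut (v : LPlace L (AlgebraicClosure F))
    (σ : AlgebraicClosure F ≃ₐ[F] AlgebraicClosure F) :
    ∃ v' : LPlace L (AlgebraicClosure F), ∀ z a, UVal v' z a ↔ UVal v (σ z) a := by
  have hσ : ∀ c : L, σ (algebraMap L (AlgebraicClosure F) c) =
      algebraMap L (AlgebraicClosure F) c := fun c => by
    rw [IsScalarTower.algebraMap_apply L F (AlgebraicClosure F), σ.commutes]
  refine ⟨{ ring := v.ring.comap σ.toAlgHom.toRingHom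
            algebraMap_mem := fun c => by
              show σ (algebraMap L (AlgebraicClosure F) c) ∈ v.ring
              rw [hσ]; exact v.algebraMap_mem c
            value :=
              { toFun := fun z => v.value ⟨σ z.1, z.2⟩
                map_one' := (congrArg v.value (Subtype.ext (map_one σ))).trans (map_one v.value)
                map_mul' := fun a b => (congrArg v.value (Subtype.ext (map_mul σ a.1 b.1))).trans
                  (map_mul v.value ⟨σ a.1, a.2⟩ ⟨σ b.1, b.2⟩)
                map_zero' := (congrArg v.value (Subtype.ext (map_zero σ))).trans (map_zero v.value)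
                map_add' := fun a b => (congrArg v.value (Subtype.ext (map_add σ a.1 b.1))).trans
                  (map_add v.value ⟨σ a.1, a.2⟩ ⟨σ b.1, b.2⟩) }
            value_algebraMap := fun c =>
              (congrArg v.value (Subtype.ext (hσ c))).trans (v.value_algebraMap c)
            isLocalHom := fun z hz => ?_ }, fun z a => Iff.rfl⟩
  obtain ⟨y, hy⟩ := (v.isLocalHom ⟨σ z.1, z.2⟩ hz).exists_right_inv
  refine isUnit_iff_exists_inv.mpr ⟨⟨σ.symm y.1, ?_⟩, Subtype.ext (σ.injective ?_)⟩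
  · show σ (σ.symm y.1) ∈ v.ring
    rw [σ.apply_symm_apply]
    exact y.2
  · show σ (z.1 * σ.symm y.1) = σ 1
    rw [map_mul, σ.apply_symm_apply, map_one]
    exact congrArg Subtype.val hy

/-- Norms: a function all whose conjugates are units times `η_R` at every place has degree zero. -/
theorem degree_eq_zero_of_conjugates {ν : AlgebraicClosure F} (hν : ν ≠ 0) (E : Divisor L F)
    (h : ∀ R : Place L F, ∃ η : F, η ≠ 0 ∧ R.ord η = E R ∧
      ∀ v : LPlace L (AlgebraicClosure F),
        (∀ z : R.toValuationSubring, ∃ h : algebraMap F (AlgebraicClosure F) (z : F) ∈ v.ring,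
          v.value ⟨_, h⟩ = evalAt R z) →
        ∃ a, UVal v (ν * algebraMap F (AlgebraicClosure F) η) a) :
    Divisor.degree E = 0 := by
  classical
  set j := algebraMap F (AlgebraicClosure F)
  have hint : IsIntegral F ν := Algebra.IsIntegral.isIntegral ν
  set p := minpoly F ν
  set m := p.natDegree with hm
  set N := p.coeff 0 with hN
  have hN0 : N ≠ 0 := minpoly.coeff_zero_ne_zero hint hν
  have hsp : (p.map j).Splits := IsAlgClosed.splits _
  have hmon : (p.map j).Monic := (minpoly.monic hint).map j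
  have key : ∀ R : Place L F, R.ord N + m * E R = 0 := by
    intro R
    obtain ⟨η, hη, hηR, hη'⟩ := h R
    obtain ⟨v, hv⟩ := exists_lplace_over R
    have hjN : j N = (-1) ^ m * (p.map j).roots.prod := by
      rw [hN, ← Polynomial.coeff_map, hsp.coeff_zero_eq_prod_roots_of_monic hmon,
        Polynomial.natDegree_map]
    have hroot : ∀ r ∈ (p.map j).roots, ∃ a, UVal v (r * j η) a := by
      intro r hr
      rw [Polynomial.mem_roots hmon.ne_zero, Polynomial.IsRoot, Polynomial.eval_map] at hr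
      obtain ⟨σ, hσ⟩ := minpoly.exists_algEquiv_of_root' hint.isAlgebraic
        (x := r) (by rw [Polynomial.aeval_def]; exact hr)
      obtain ⟨v', hv'⟩ := exists_comp_aut v σ
      obtain ⟨a, ha⟩ := hη' v' fun z => by
        obtain ⟨h1, h2⟩ := hv z
        by_cases h0 : evalAt R z = 0
        · have hz1 : evalAt R (z + 1) ≠ 0 := by rw [map_add, map_one, h0, zero_add]; exact one_ne_zero
          obtain ⟨g1, g2⟩ := hv (z + 1)
          obtain ⟨-, g3, g4⟩ := (hv' (j ((z + 1 : R.toValuationSubring) : F)) _).mpr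
            ⟨hz1, by rw [σ.commutes]; exact g1,
              (congrArg v.value (Subtype.ext (σ.commutes _))).trans g2⟩
          have hm1 : j (z : F) ∈ v'.ring := by
            have e : j (z : F) = j ((z + 1 : R.toValuationSubring) : F) - 1 := by
              rw [AddMemClass.coe_add, OneMemClass.coe_one, map_add, map_one, add_sub_cancel_right]
            rw [e]; exact sub_mem g3 (one_mem _)
          refine ⟨hm1, ?_⟩
          have e2 : (⟨j ((z + 1 : R.toValuationSubring) : F), g3⟩ : v'.ring) = ⟨_, hm1⟩ + 1 :=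
            Subtype.ext (by simp [map_add])
          rw [e2, map_add, map_one, map_add, map_one, add_left_inj] at g4
          exact g4
        · obtain ⟨-, g3, g4⟩ := (hv' (j (z : F)) _).mpr
            ⟨h0, by rw [σ.commutes]; exact h1,
              (congrArg v.value (Subtype.ext (σ.commutes _))).trans h2⟩
          exact ⟨g3, g4⟩
      refine ⟨a, ?_⟩
      have := (hv' _ a).mp ha
      rwa [map_mul, hσ, σ.commutes] at this
    have hprod : ∀ s : Multiset (AlgebraicClosure F), (∀ r ∈ s, ∃ a, UVal v (r * j η) a) →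
        ∃ a, UVal v (s.prod * j η ^ Multiset.card s) a := by
      intro s
      induction s using Multiset.induction_on with
      | empty => intro _; exact ⟨1, by simpa using UVal.one⟩
      | cons r s ih =>
        intro hs
        obtain ⟨a, ha⟩ := hs r (Multiset.mem_cons_self r s)
        obtain ⟨b, hb⟩ := ih fun x hx => hs x (Multiset.mem_cons_of_mem hx)
        refine ⟨a * b, ?_⟩
        have := ha.mul hb
        rw [Multiset.prod_cons, Multiset.card_cons, pow_succ]
        convert this using 1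
        ring
    obtain ⟨a, ha⟩ := hprod _ hroot
    rw [← hsp.natDegree_eq_card_roots, Polynomial.natDegree_map] at ha
    have hu : ∃ b, UVal v (j (N * η ^ m)) b := by
      refine ⟨(-1) ^ m * a, ?_⟩
      rw [map_mul, map_pow, hjN, mul_assoc]
      exact ((UVal.one.neg).pow m).mul ha
    obtain ⟨b, hb⟩ := hu
    have hz0 : N * η ^ m ≠ 0 := mul_ne_zero hN0 (pow_ne_zero _ hη)
    have hnn : ∀ z : F, (∃ b, UVal v (j z) b) → z ≠ 0 → ¬ 0 < R.ord z := by
      rintro z ⟨b, hb⟩ hz hpos
      have hzm : z ∈ R.toValuationSubring := (Fermat.Agent.FF.mem_iff_ord_nonneg R).mpr hpos.le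
      obtain ⟨h1, h2⟩ := hv ⟨z, hzm⟩
      have : evalAt R ⟨z, hzm⟩ ≠ 0 := by
        rw [← h2]
        exact fun e => hb.1 (hb.2.choose_spec.symm.trans e)
      have := ord_eq_zero_of_evalAt_ne_zero R hzm this
      omega
    have h1 := hnn _ ⟨b, hb⟩ hz0
    have h2 := hnn (N * η ^ m)⁻¹ ⟨b⁻¹, by rw [map_inv₀]; exact hb.inv⟩ (inv_ne_zero hz0)
    rw [R.ord_inv] at h2
    have h3 : R.ord (N * η ^ m) = R.ord N + m * E R := by
      rw [R.ord_mul hN0 (pow_ne_zero _ hη), ord_pow, hηR]
    omega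
  have hdv : dv L N = -(m • E) := Finsupp.ext fun R => by
    have := key R
    rw [dv_apply, Finsupp.neg_apply, Finsupp.smul_apply, nsmul_eq_mul]
    omega
  have hd := degree_dv (K := L) N
  rw [hdv, map_neg, map_nsmul, neg_eq_zero, nsmul_eq_mul] at hd
  exact (mul_eq_zero.mp hd).resolve_left
    (by exact_mod_cast (minpoly.natDegree_pos hint).ne')

variable {ι : Type} [Fintype ι]

/-- The slot `u + e` over the algebraic closure. -/
def slot (u : Pt X F) (e : Pt X F) : Pt X (Dia L F) :=
  Pt.map (IsScalarTower.toAlgHom K F (Dia L F)) u +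
    Pt.map (IsScalarTower.toAlgHom K (AlgebraicClosure F) (Dia L F))
      (Pt.map (IsScalarTower.toAlgHom K F (AlgebraicClosure F)) e)

/-- Diagonal versus slice. -/
theorem sum_ht_diagonal (c : Cocycle X) (u : Pt X F) (c₀ : Place L F) (ε : ι → ℤ)
    (e : ι → Pt X F)
    (hp : ∑ s, ε s • gDiv (AlgebraicClosure F) c (slot (L := L) u (e s)) ∈
      Divisor.principal (K := AlgebraicClosure F) (F := Dia L F)) :
    ∑ s, ε s * ht L c (u + e s) =
      ∑ s, ε s * ht L c (Pt.map (IsScalarTower.toAlgHom K L F) ((toLP c₀).spec u) + e s) := by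
  classical
  obtain ⟨f, hf, hfD⟩ := hp
  let Ω := AlgebraicClosure F
  set j := algebraMap F Ω with hj_def
  let J := IsScalarTower.toAlgHom K F Ω
  let u₀ : Pt X L := (toLP c₀).spec u
  let δ : ι → Pt X F := fun s => u + e s
  let γ : ι → Pt X F := fun s => Pt.map (IsScalarTower.toAlgHom K L F) u₀ + e s
  let x : ι → Pt X (Dia L F) := fun s => slot (L := L) u (e s)
  obtain ⟨T, hT⟩ := exists_tautological (L := L) (F := F)
  let P₁ : Place Ω (Dia L F) := T.toPlace
  let P₂ : Place Ω (Dia L F) := extPlace Ω (Dia L F) c₀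
  have hx₁ : ∀ s, (toLP P₁).spec (x s) = Pt.map J (δ s) := by
    intro s
    rw [T.spec_toPlace]
    simp only [x, slot, δ, map_add, LPlace.spec_map_const]
    congr 1
    rw [T.spec_eq (x := Pt.map (IsScalarTower.toAlgHom K F (Dia L F)) u) u
      ((IsScalarTower.toAlgHom K F (Dia L F)).codRestrict _ fun z => (hT z).choose) rfl]
    congr 1
    exact congrArg Pt.map (AlgHom.ext fun z => (hT z).choose_spec)
  have hx₂ : ∀ s, (toLP P₂).spec (x s) = Pt.map J (γ s) := by
    intro s
    simp only [x, slot, γ, map_add]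
    congr 1
    rw [(toLP c₀).spec_map_of_hom (toLP P₂) (IsScalarTower.toAlgHom K F (Dia L F))
      (IsScalarTower.toAlgHom K L Ω) (fun z => by
        obtain ⟨h, he⟩ := evalAt_extPlace (L' := Ω) (F' := Dia L F) c₀ z.2
        exact ⟨h, he⟩) u, Pt.map_map]
    · refine DFunLike.congr_fun ?_ u₀
      exact congrArg Pt.map (AlgHom.ext fun z => IsScalarTower.algebraMap_apply L F Ω z)
    · exact LPlace.spec_map_const _ _
  let i : ι → Fin c.n := fun s => c.idx (x s)
  let k : ι → Fin c.n := fun s => c.idx (δ s)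
  let l : ι → Fin c.n := fun s => c.idx (γ s)
  let Φ : (ι → Fin c.n) → Dia L F := fun J' => (∏ s, c.ev (x s) (i s) (J' s) ^ ε s) / f
  have hΦ0 : ∀ J', Φ J' ≠ 0 := fun J' =>
    div_ne_zero (Finset.prod_ne_zero_iff.mpr fun s _ => zpow_ne_zero _ (c.ev_ne_zero _ _ _)) hf
  have hord : ∀ (J' : ι → Fin c.n) (P : Place Ω (Dia L F)),
      (∀ s, ((toLP P).spec (x s)).Mem (c.V (J' s)).1) → P.ord (Φ J') = 0 := by
    intro J' P hJ
    have h1 := hfD P
    rw [Finsupp.finsetSum_apply] at h1
    have h2 : P.ord (∏ s, c.ev (x s) (i s) (J' s) ^ ε s) = P.ord f := by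
      rw [ord_prod P _ fun s _ => zpow_ne_zero _ (c.ev_ne_zero _ _ _), ← h1]
      refine Finset.sum_congr rfl fun s _ => ?_
      rw [P.ord_zpow, Finsupp.smul_apply, smul_eq_mul, gDiv,
        divG_apply c (x s) (c.mem_idx _) P (hJ s)]
    rw [Fermat.Agent.FF.ord_div P (Finset.prod_ne_zero_iff.mpr fun s _ =>
      zpow_ne_zero _ (c.ev_ne_zero _ _ _)) hf, h2, sub_self]
  obtain ⟨μ, hμ⟩ := uval_toLP_of_ord (hΦ0 k) (hord k P₁ fun s => by
    rw [hx₁]; exact (c.mem_idx (δ s)).map J)
  obtain ⟨μ₀, hμ₀⟩ := uval_toLP_of_ord (hΦ0 l) (hord l P₂ fun s => by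
    rw [hx₂]; exact (c.mem_idx (γ s)).map J)
  have hμ0 : μ ≠ 0 := hμ.1
  have hμ00 : μ₀ ≠ 0 := hμ₀.1
  let E : Divisor L F := ∑ s, ε s •
    (divG c (δ s) (k s) (c.mem_idx _) - divG c (γ s) (l s) (c.mem_idx _))
  suffices hE : Divisor.degree E = 0 by
    simp only [E, map_sum, map_zsmul, map_sub, degree_divG, smul_eq_mul, mul_sub,
      Finset.sum_sub_distrib] at hE
    exact sub_eq_zero.mp hE
  refine degree_eq_zero_of_conjugates (ν := μ / μ₀) (div_ne_zero hμ0 hμ00) E fun R => ?_
  let A : ι → Fin c.n := fun s => c.idx ((toLP R).spec (δ s))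
  let B : ι → Fin c.n := fun s => c.idx ((toLP R).spec (γ s))
  have hA : ∀ s, ((toLP R).spec (δ s)).Mem (c.V (A s)).1 := fun s => c.mem_idx _
  have hB : ∀ s, ((toLP R).spec (γ s)).Mem (c.V (B s)).1 := fun s => c.mem_idx _
  have hev : ∀ (g : ι → Pt X F) (a b : ι → Fin c.n),
      (∏ s, c.ev (g s) (a s) (b s) ^ ε s) ≠ 0 := fun g a b =>
    Finset.prod_ne_zero_iff.mpr fun s _ => zpow_ne_zero _ (c.ev_ne_zero _ _ _)
  refine ⟨(∏ s, c.ev (δ s) (k s) (A s) ^ ε s) / ∏ s, c.ev (γ s) (l s) (B s) ^ ε s,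
    div_ne_zero (hev _ _ _) (hev _ _ _), ?_, fun v hv => ?_⟩
  · rw [Fermat.Agent.FF.ord_div R (hev _ _ _) (hev _ _ _),
      ord_prod R _ fun s _ => zpow_ne_zero _ (c.ev_ne_zero _ _ _),
      ord_prod R _ fun s _ => zpow_ne_zero _ (c.ev_ne_zero _ _ _), ← Finset.sum_sub_distrib]
    simp only [E, Finsupp.finsetSum_apply, Finsupp.smul_apply, Finsupp.sub_apply, smul_eq_mul]
    refine Finset.sum_congr rfl fun s _ => ?_
    rw [R.ord_zpow, R.ord_zpow, divG_apply c _ _ R (hA s), divG_apply c _ _ R (hB s)]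
    ring
  have hve : ∀ y : Pt X F, v.spec (Pt.map J y) = (toLP R).spec y := fun y => by
    have := (toLP R).spec_map_of_hom v J (AlgHom.id K L) (fun z => hv z) y
    rwa [Pt.map_id] at this
  set w := gauss F (Dia L F) v with hw
  have hxc : ∀ s, x s ∈ compat F (Dia L F) v := fun s =>
    add_mem (map_algebraMap_mem_compat v u) (map_const_mem_compat v _)
  have hxw : ∀ s, w.spec (x s) = u + Pt.map (IsScalarTower.toAlgHom K L F) ((toLP R).spec (e s)) := by
    intro s
    simp only [x, slot, hw, map_add, LPlace.spec_map_const, gauss_spec_map_const]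
    congr 2
    exact hve (e s)
  have hwR : ∀ s, (toLP R).spec (w.spec (x s)) = (toLP R).spec (δ s) := fun s => by
    rw [hxw, map_add, LPlace.spec_map_const, map_add]
  have hwc : ∀ s, (toLP c₀).spec (w.spec (x s)) = (toLP R).spec (γ s) := fun s => by
    rw [hxw, map_add, LPlace.spec_map_const, map_add, LPlace.spec_map_const]
  have hred₁ : redPlace (F := F) v P₁ = R := by
    refine (ext_of_le R fun z hz => ?_).symm
    obtain ⟨h, h'⟩ := hT z
    refine ⟨h, ?_⟩
    have e : evalAt P₁ ⟨_, h⟩ = T.value ⟨_, h⟩ := T.evalAt_toPlace h h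
    rw [e, h']
    exact (hv ⟨z, hz⟩).choose
  have hred₂ : redPlace (F := F) v P₂ = c₀ := redPlace_extPlace v c₀
  have hAx : ∀ s, (w.spec (x s)).Mem (c.V (A s)).1 := fun s =>
    (toLP R).mem_of_mem_spec (by rw [hwR]; exact hA s)
  have hBx : ∀ s, (w.spec (x s)).Mem (c.V (B s)).1 := fun s =>
    (toLP c₀).mem_of_mem_spec (by rw [hwc]; exact hB s)
  obtain ⟨κ, g, r, hκ, hg, hgΦ⟩ := exists_const_mul_gunit (F := F) v (hΦ0 A)
  have hhunit := UVal.prod Finset.univ fun s (_ : s ∈ Finset.univ) =>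
    UVal.zpow (Q := gauss F (Dia L F) v) (gunit_ev v c (x s) (hAx s) (hBx s)) (ε s)
  obtain ⟨r', hh⟩ : ∃ r' : F,
      GUnit v (∏ s, c.ev (x s) (A s) (B s) ^ ε s) r' := ⟨_, hhunit⟩
  have hΦB : Φ B = algebraMap Ω (Dia L F) κ * (g * ∏ s, c.ev (x s) (A s) (B s) ^ ε s) := by
    rw [← mul_assoc, ← hgΦ]
    simp only [Φ]
    rw [div_mul_eq_mul_div, ← Finset.prod_mul_distrib]
    congr 1
    refine Finset.prod_congr rfl fun s _ => ?_
    rw [← mul_zpow, c.ev_mul (x s) (c.mem_idx _) (w.mem_of_mem_spec (hAx s))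
      (w.mem_of_mem_spec (hBx s))]
  have hκ' : ∀ P : Place Ω (Dia L F), ∀ z : Dia L F, z ≠ 0 →
      P.ord (algebraMap Ω (Dia L F) κ * z) = P.ord z := fun P z hz => by
    rw [P.ord_mul (by simpa using hκ) hz, ord_algebraMap, zero_add]
  have hval : ∀ (P : Place Ω (Dia L F)) (J' : ι → Fin c.n) (g' : Dia L F) (r'' : F),
      GUnit v g' r'' → Φ J' = algebraMap Ω (Dia L F) κ * g' →
      (∀ s, ((toLP (redPlace (F := F) v P)).spec (w.spec (x s))).Mem (c.V (J' s)).1) →
      ∃ z a, UVal v z a ∧ UVal (toLP P) (Φ J') (κ * z) := by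
    intro P J' g' r'' hg' hΦg hJ
    obtain ⟨hP, hPv, hR, hve', hne⟩ := value_evalAt_of_gunit v hg' P fun P' hP' => by
      have := hord J' P' fun s => mem_spec_of_redPlace v c (hxc s) hP' (hJ s)
      rwa [hΦg, hκ' P' g' hg'.ne_zero] at this
    refine ⟨_, _, ⟨hne, hPv, rfl⟩, ?_⟩
    rw [hΦg]
    refine (uval_algebraMap (toLP P) hκ).mul ⟨fun h0 => hne ?_, hP, rfl⟩
    exact (congrArg v.value (Subtype.ext h0)).trans (map_zero _)
  obtain ⟨z₁, a₁, hz₁, hP₁⟩ := hval P₁ A g r hg hgΦ fun s => by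
    rw [hred₁, hwR]; exact hA s
  obtain ⟨z₂, a₂, hz₂, hP₂⟩ := hval P₂ B _ _ (hg.mul hh) hΦB fun s => by
    rw [hred₂, hwc]; exact hB s
  have hsplit : ∀ (P : Place Ω (Dia L F)) (g' : ι → Pt X F) (a b : ι → Fin c.n),
      (∀ s, (toLP P).spec (x s) = Pt.map J (g' s)) → (∀ s, (g' s).Mem (c.V (a s)).1) →
      (∀ s, (g' s).Mem (c.V (b s)).1) → ∀ m, UVal (toLP P) (Φ a) m →
      UVal (toLP P) (Φ b) (m * j (∏ s, c.ev (g' s) (a s) (b s) ^ ε s)) := by
    intro P g' a b hg' ha hb m hm
    have hma : ∀ s, ((toLP P).spec (x s)).Mem (c.V (a s)).1 := fun s => by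
      rw [hg']; exact (ha s).map J
    have hmb : ∀ s, ((toLP P).spec (x s)).Mem (c.V (b s)).1 := fun s => by
      rw [hg']; exact (hb s).map J
    have h1 := hm.mul (UVal.prod Finset.univ fun s (_ : s ∈ Finset.univ) =>
      (uval_ev c (toLP P) (x s) (hma s) (hmb s)).zpow (ε s))
    convert h1 using 1
    · simp only [Φ]
      rw [div_mul_eq_mul_div, ← Finset.prod_mul_distrib]
      congr 1
      refine Finset.prod_congr rfl fun s _ => ?_
      rw [← mul_zpow, c.ev_mul (x s) (c.mem_idx _) ((toLP P).mem_of_mem_spec (hma s))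
        ((toLP P).mem_of_mem_spec (hmb s))]
    · rw [map_prod]
      refine congrArg (m * ·) (Finset.prod_congr rfl fun s _ => ?_)
      rw [map_zpow₀, hg', c.ev_map J _ (ha s) (hb s)]
      rfl
  have e₁ := hP₁.eq (hsplit P₁ δ k A hx₁ (fun s => c.mem_idx _)
    (fun s => (toLP R).mem_of_mem_spec (hA s)) μ hμ)
  have e₂ := hP₂.eq (hsplit P₂ γ l B hx₂ (fun s => c.mem_idx _)
    (fun s => (toLP R).mem_of_mem_spec (hB s)) μ₀ hμ₀)
  refine ⟨a₁ / a₂, ?_⟩
  have e : μ / μ₀ * j ((∏ s, c.ev (δ s) (k s) (A s) ^ ε s) / ∏ s, c.ev (γ s) (l s) (B s) ^ ε s) =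
      z₁ / z₂ := by
    rw [map_div₀, div_mul_div_comm, ← e₁, ← e₂, mul_div_mul_left _ _ hκ]
  rw [e]
  exact hz₁.div hz₂

end Fermat.Agent.AV
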