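import Fermat.Agent.AV.Square
import Fermat.Agent.AV.Diagonal
import Mathlib.Algebra.BigOperators.Fin
import Mathlib.Tactic.LinearCombination

/-!
# The theorem of the cube for heights
-/

set_option autoImplicit false
set_option linter.unusedSectionVars false

noncomputable section

universe u

open CategoryTheory AlgebraicGeometry AlgebraicCurve Fermat.Agent.FF Fermat.Agent.FF.ConstExt

namespace Fermat.Agent.AV

variable {K : Type u} [Field K] [IsAlgClosed K] {X : AbVar K}
variable {L F : Type u} [Field L] [Field F] [Algebra L F] [Algebra K L] [Algebra K F]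
  [IsScalarTower K L F] [IsFunctionField L F] [IsAlgClosed L]

/-- The cube identity. -/
theorem ht_cube (c : Cocycle X) (u v w : Pt X F) :
    ht L c (u + v + w) + ht L c u + ht L c v + ht L c w =
      ht L c (u + v) + ht L c (u + w) + ht L c (v + w) := by
  obtain ⟨c₀⟩ : Nonempty (Place L F) := inferInstance
  let e : Fin 4 → Pt X F := ![v + w, v, w, 0]
  let ε : Fin 4 → ℤ := ![1, -1, -1, 1]
  have hp := sq_mem_principal (L := AlgebraicClosure F) (F := Dia L F) c
    (Pt.map (IsScalarTower.toAlgHom K F (Dia L F)) u)
    (Pt.map (IsScalarTower.toAlgHom K F (AlgebraicClosure F)) v)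
    (Pt.map (IsScalarTower.toAlgHom K F (AlgebraicClosure F)) w)
  have hs : ∑ s, ε s • gDiv (AlgebraicClosure F) c (slot (L := L) u (e s)) =
      sq c (Pt.map (IsScalarTower.toAlgHom K F (Dia L F)) u)
        (Pt.map (IsScalarTower.toAlgHom K F (AlgebraicClosure F)) v)
        (Pt.map (IsScalarTower.toAlgHom K F (AlgebraicClosure F)) w) := by
    simp [Fin.sum_univ_four, e, ε, slot, sq, map_add, map_zero, add_assoc, sub_eq_add_neg]
  have h := sum_ht_diagonal (L := L) c u c₀ ε e (hs ▸ hp)
  have htr : ∀ y : Pt X F, ht L c (Pt.map (IsScalarTower.toAlgHom K L F) ((toLP c₀).spec u) + y) =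
      ht L c y := fun y => by rw [add_comm]; exact ht_add_const c y _
  simp [Fin.sum_univ_four, e, ε, htr, ht_zero, add_zero, ← add_assoc] at h
  linarith

theorem ht_recurrence (c : Cocycle X) (u : Pt X F) (n : ℕ) :
    ht L c ((n + 2) • u) + ht L c (n • u) =
      2 * ht L c ((n + 1) • u) + ht L c u + ht L c (-u) := by
  have h := ht_cube (L := L) c ((n + 1) • u) u (-u)
  rw [show (n + 1) • u + u + -u = (n + 1) • u by abel,
    show (n + 1) • u + u = (n + 2) • u by rw [add_smul, add_smul, one_smul, two_smul]; abel,
    show (n + 1) • u + -u = n • u by rw [add_smul, one_smul]; abel,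
    add_neg_cancel, ht_zero] at h
  linarith

/-- For a point whose height is that of its negative, the height is quadratic. -/
theorem ht_nsmul (c : Cocycle X) (u : Pt X F) (hu : ht L c (-u) = ht L c u) :
    ∀ n : ℕ, ht L c (n • u) = (n : ℤ) ^ 2 * ht L c u := by
  intro n
  induction n using Nat.twoStepInduction with
  | zero => simp [ht_zero]
  | one => simp
  | more n h1 h2 =>
    have h := ht_recurrence (L := L) c u n
    rw [h1, h2, hu] at h
    push_cast at h ⊢
    linear_combination h

end Fermat.Agent.AV
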