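import Fermat.Agent.AV.Height

/-!
# Units at a place with a given value
-/

set_option autoImplicit false
set_option linter.unusedSectionVars false

noncomputable section

universe u

open CategoryTheory AlgebraicGeometry AlgebraicCurve Fermat.Agent.FF Fermat.Agent.FF.ConstExt

namespace Fermat.Agent.AV

section

variable {L M : Type u} [Field L] [Field M] [Algebra L M]

/-- `z` is a unit at `Q` of value `a`. -/
def UVal (Q : LPlace L M) (z : M) (a : L) : Prop :=
  a ≠ 0 ∧ ∃ h : z ∈ Q.ring, Q.value ⟨z, h⟩ = a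

variable {Q : LPlace L M}

theorem UVal.ne_zero {z : M} {a : L} (h : UVal Q z a) : z ≠ 0 := by
  rintro rfl
  obtain ⟨ha, hm, hv⟩ := h
  exact ha (hv.symm.trans (map_zero _))

theorem UVal.mul {z z' : M} {a a' : L} (h : UVal Q z a) (h' : UVal Q z' a') :
    UVal Q (z * z') (a * a') := by
  obtain ⟨ha, hm, hv⟩ := h
  obtain ⟨ha', hm', hv'⟩ := h'
  exact ⟨mul_ne_zero ha ha', mul_mem hm hm', by rw [← hv, ← hv', ← map_mul]; rfl⟩

theorem UVal.inv {z : M} {a : L} (h : UVal Q z a) : UVal Q z⁻¹ a⁻¹ := by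
  obtain ⟨ha, hm, hv⟩ := h
  obtain ⟨y, hy⟩ := (Q.isLocalHom ⟨z, hm⟩ (hv ▸ ha)).exists_right_inv
  have e : z⁻¹ = y := inv_eq_of_mul_eq_one_right (congrArg Subtype.val hy)
  refine ⟨inv_ne_zero ha, e ▸ y.2, eq_inv_of_mul_eq_one_right ?_⟩
  rw [← hv, show (⟨z⁻¹, e ▸ y.2⟩ : Q.ring) = y from Subtype.ext e, ← map_mul, hy, map_one]

theorem UVal.div {z z' : M} {a a' : L} (h : UVal Q z a) (h' : UVal Q z' a') :
    UVal Q (z / z') (a / a') := by
  rw [div_eq_mul_inv, div_eq_mul_inv]
  exact h.mul h'.inv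

theorem UVal.one : UVal Q 1 1 := ⟨one_ne_zero, one_mem _, map_one _⟩

theorem UVal.neg {z : M} {a : L} (h : UVal Q z a) : UVal Q (-z) (-a) := by
  obtain ⟨ha, hm, hv⟩ := h
  exact ⟨neg_ne_zero.mpr ha, neg_mem hm, by rw [← hv, ← map_neg]; rfl⟩

theorem UVal.pow {z : M} {a : L} (h : UVal Q z a) : ∀ n : ℕ, UVal Q (z ^ n) (a ^ n)
  | 0 => by simpa using UVal.one
  | n + 1 => by rw [pow_succ, pow_succ]; exact (h.pow n).mul h

theorem UVal.zpow {z : M} {a : L} (h : UVal Q z a) : ∀ n : ℤ, UVal Q (z ^ n) (a ^ n)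
  | (n : ℕ) => by simpa using h.pow n
  | Int.negSucc n => by simpa [_root_.zpow_negSucc] using (h.pow (n + 1)).inv

theorem UVal.prod {ι : Type*} (s : Finset ι) {z : ι → M} {a : ι → L}
    (h : ∀ i ∈ s, UVal Q (z i) (a i)) : UVal Q (∏ i ∈ s, z i) (∏ i ∈ s, a i) := by
  classical
  induction s using Finset.induction_on with
  | empty => simpa using UVal.one
  | insert i s hi ih =>
    rw [Finset.prod_insert hi, Finset.prod_insert hi]
    exact (h i (Finset.mem_insert_self i s)).mul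
      (ih fun j hj => h j (Finset.mem_insert_of_mem hj))

theorem UVal.eq {z : M} {a b : L} (h : UVal Q z a) (h' : UVal Q z b) : a = b :=
  h.2.choose_spec.symm.trans h'.2.choose_spec

theorem uval_algebraMap (Q : LPlace L M) {c : L} (hc : c ≠ 0) : UVal Q (algebraMap L M c) c :=
  ⟨hc, Q.algebraMap_mem c, Q.value_algebraMap c⟩

end

section

variable {L F : Type u} [Field L] [Field F] [Algebra L F] [IsFunctionField L F] [IsAlgClosed L]

theorem LPlace.ring_ne_top (Q : LPlace L F) : Q.ring ≠ ⊤ := by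
  intro htop
  obtain ⟨x, hx, -⟩ := IsFunctionField.exists_transcendental (K := L) (F := F)
  have hm : ∀ z : F, z ∈ Q.ring := fun z => by rw [htop]; trivial
  let φ : F →+* L := Q.value.comp ((RingHom.id F).codRestrict Q.ring.toSubring hm)
  have hc : ∀ c : L, φ (algebraMap L F c) = c := Q.value_algebraMap
  have he : x = algebraMap L F (φ x) := φ.injective (hc (φ x)).symm
  exact hx (he ▸ isAlgebraic_algebraMap _)

/-- The place of a function field given by a place with values in the constants. -/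
def LPlace.toPlace (Q : LPlace L F) : Place L F :=
  placeOfValuationSubring Q.ring Q.algebraMap_mem Q.ring_ne_top

theorem LPlace.evalAt_toPlace (Q : LPlace L F) {z : F} (h : z ∈ Q.toPlace.toValuationSubring)
    (h' : z ∈ Q.ring) : evalAt Q.toPlace ⟨z, h⟩ = Q.value ⟨z, h'⟩ := by
  set c := evalAt Q.toPlace ⟨z, h⟩
  have hd : (⟨z, h⟩ - algebraMap L Q.toPlace.toValuationSubring c : Q.toPlace.toValuationSubring) ∈
      IsLocalRing.maximalIdeal Q.toPlace.toValuationSubring := by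
    rw [← evalAt_eq_zero_iff, map_sub, AlgHom.commutes]
    exact sub_self c
  by_contra hne
  refine (IsLocalRing.mem_maximalIdeal _).mp hd ?_
  exact Q.isLocalHom (⟨z, h'⟩ - ⟨_, Q.algebraMap_mem c⟩) (by
    rw [map_sub, Q.value_algebraMap]; exact sub_ne_zero.mpr (Ne.symm hne))

variable {K : Type u} [Field K] {X : AbVar K} [Algebra K L] [Algebra K F] [IsScalarTower K L F]

theorem LPlace.spec_toPlace (Q : LPlace L F) (x : Pt X F) :
    (toLP Q.toPlace).spec x = Q.spec x := by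
  have h := (toLP Q.toPlace).spec_map_of_hom Q (AlgHom.id K F) (AlgHom.id K L)
    (fun z => ⟨z.2, (Q.evalAt_toPlace z.2 z.2).symm⟩) x
  rwa [Pt.map_id, Pt.map_id, eq_comm] at h

theorem uval_toLP_ord {P : Place L F} {z : F} {a : L} (h : UVal (toLP P) z a) : P.ord z = 0 :=
  ord_eq_zero_of_evalAt_ne_zero P h.2.choose (fun e => h.1 (h.2.choose_spec.symm.trans e))

theorem uval_toLP_of_ord {P : Place L F} {z : F} (hz : z ≠ 0) (h : P.ord z = 0) :
    ∃ a, UVal (toLP P) z a := by
  have hm : z ∈ P.toValuationSubring := (Fermat.Agent.FF.mem_iff_ord_nonneg P).mpr h.ge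
  refine ⟨evalAt P ⟨z, hm⟩, (evalAt_ne_zero_iff P _).mpr ?_, hm, rfl⟩
  rw [← P.adicValuation_coe_eq_one_iff]
  show P.adicValuation z = 1
  rw [P.adicValuation_eq_exp_neg_ord hz, h, neg_zero, WithZero.exp_zero]

theorem uval_ev (c : Cocycle X) (P : LPlace L F) (x : Pt X F) {i j : Fin c.n}
    (hi : (P.spec x).Mem (c.V i).1) (hj : (P.spec x).Mem (c.V j).1) :
    UVal P (c.ev x i j) (c.ev (P.spec x) i j) :=
  ⟨c.ev_ne_zero _ _ _, c.ev_spec P x hi hj⟩

end

end Fermat.Agent.AV
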