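import Fermat.Agent.AV.Pencil
import Fermat.Agent.AV.UVal

/-!
# The height attached to a pencil is the number of poles
-/

set_option autoImplicit false
set_option linter.unusedSectionVars false

noncomputable section

universe u

open CategoryTheory AlgebraicGeometry AlgebraicCurve Fermat.Agent.FF Fermat.Agent.FF.ConstExt

namespace Fermat.Agent.AV

variable {K : Type u} [Field K] [IsAlgClosed K] {X : AbVar K} {f : FFld X} (π : Pencil f)

theorem Pencil.g_mul_b (i j : Fin π.n) :
    π.g i j * resAlg (show (Chart.meet (π.V i) (π.V j)).1 ≤ (π.V j).1 from inf_le_right) (π.b j) =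
      resAlg (show (Chart.meet (π.V i) (π.V j)).1 ≤ (π.V i).1 from inf_le_left) (π.b i) := by
  refine germAlg_injective _ (show genericPoint X.carrier ∈ (Chart.meet (π.V i) (π.V j)).1 from
    ⟨π.gen i, π.gen j⟩) ?_
  rw [map_mul, germAlg_res, germAlg_res]
  exact π.g_eq i j

theorem Pencil.g_mul_a (i j : Fin π.n) :
    π.g i j * resAlg (show (Chart.meet (π.V i) (π.V j)).1 ≤ (π.V j).1 from inf_le_right) (π.a j) =
      resAlg (show (Chart.meet (π.V i) (π.V j)).1 ≤ (π.V i).1 from inf_le_left) (π.a i) := by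
  refine germAlg_injective _ (show genericPoint X.carrier ∈ (Chart.meet (π.V i) (π.V j)).1 from
    ⟨π.gen i, π.gen j⟩) ?_
  rw [map_mul, germAlg_res, germAlg_res, π.eq, π.eq, ← π.g_eq i j]
  ring

/-- The cocycle of denominators of a pencil. -/
@[reducible] def Pencil.cocycle : Cocycle X where
  n := π.n
  V := π.V
  cover := π.cover
  g := π.g
  g_unit := π.g_unit
  coc i j k := by
    have hg : genericPoint X.carrier ∈
        (Chart.meet (Chart.meet (π.V i) (π.V j)) (π.V k)).1 := ⟨⟨π.gen i, π.gen j⟩, π.gen k⟩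
    refine germAlg_injective _ hg (mul_right_cancel₀
      ((map_ne_zero_iff _ (germAlg_injective _ (π.gen k))).mpr (π.b_ne k)) ?_)
    rw [map_mul, germAlg_res, germAlg_res, germAlg_res, mul_assoc, π.g_eq, π.g_eq, π.g_eq]

variable {F : Type u} [Field F] [Algebra K F]

theorem Pencil.eval_b (u : Pt X F) {i j : Fin π.n} (hi : u.Mem (π.V i).1)
    (hj : u.Mem (π.V j).1) :
    π.cocycle.ev u i j * u.eval _ hj (π.b j) = u.eval _ hi (π.b i) := by
  have h := congrArg (u.eval (Chart.meet (π.V i) (π.V j)) (hi.inf hj)) (π.g_mul_b i j)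
  rw [map_mul, ← Pt.eval_res, ← Pt.eval_res] at h
  rw [π.cocycle.ev_eq u hi hj]
  exact h

theorem Pencil.eval_a (u : Pt X F) {i j : Fin π.n} (hi : u.Mem (π.V i).1)
    (hj : u.Mem (π.V j).1) :
    π.cocycle.ev u i j * u.eval _ hj (π.a j) = u.eval _ hi (π.a i) := by
  have h := congrArg (u.eval (Chart.meet (π.V i) (π.V j)) (hi.inf hj)) (π.g_mul_a i j)
  rw [map_mul, ← Pt.eval_res, ← Pt.eval_res] at h
  rw [π.cocycle.ev_eq u hi hj]
  exact h

/-- The point is a common zero of the pencil. -/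
def Pencil.IsBase (p : Pt X F) : Prop :=
  ∃ (i : Fin π.n) (h : p.Mem (π.V i).1), p.eval _ h (π.a i) = 0 ∧ p.eval _ h (π.b i) = 0

theorem Pencil.not_isBase_iff {p : Pt X F} {i : Fin π.n} (h : p.Mem (π.V i).1) :
    ¬ π.IsBase p ↔ p.eval _ h (π.a i) ≠ 0 ∨ p.eval _ h (π.b i) ≠ 0 := by
  constructor
  · intro hn
    by_contra hc
    rw [not_or, not_not, not_not] at hc
    exact hn ⟨i, h, hc⟩
  · rintro hor ⟨j, hj, ha, hb⟩
    rw [← π.eval_a p h hj, ha, mul_zero] at hor
    rw [← π.eval_b p h hj, hb, mul_zero] at hor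
    simp at hor

/-- A generic point lies in all charts of a pencil. -/
theorem Pencil.mem_map_genPt (φ : FFld X →ₐ[K] F) (i : Fin π.n) :
    (Pt.map φ (genPt X)).Mem (π.V i).1 :=
  (genPt_mem (π.V i) (π.gen i)).map φ

theorem Pencil.eval_map_genPt (φ : FFld X →ₐ[K] F) (i : Fin π.n) (s : Γ(X.carrier, (π.V i).1)) :
    (Pt.map φ (genPt X)).eval _ (π.mem_map_genPt φ i) s = φ (germAlg _ (π.gen i) s) := by
  rw [Pt.eval_map φ (genPt X) (π.V i) (genPt_mem (π.V i) (π.gen i)), genPt_eval (π.V i) (π.gen i)]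
  rfl

variable {L : Type u} [Field L] [Algebra L F] [Algebra K L] [IsScalarTower K L F]
  [IsFunctionField L F] [IsAlgClosed L]

/-- Away from the base locus the height counts the poles. -/
theorem Pencil.degree_poleDivisor_map (φ : FFld X →ₐ[K] F)
    (hbase : ∀ P : Place L F, ¬ π.IsBase ((toLP P).spec (Pt.map φ (genPt X)))) :
    Divisor.degree (poleDivisor L (φ f)) = -ht L π.cocycle (Pt.map φ (genPt X)) := by
  set u := Pt.map φ (genPt X) with hu
  obtain ⟨i, -⟩ := π.cover (genericPoint X.carrier)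
  have hi : u.Mem (π.V i).1 := π.mem_map_genPt φ i
  have hbne : ∀ j, ∀ hj : u.Mem (π.V j).1, u.eval _ hj (π.b j) ≠ 0 := fun j hj => by
    rw [show u.eval _ hj (π.b j) = φ (germAlg _ (π.gen j) (π.b j)) from π.eval_map_genPt φ j _]
    exact (map_ne_zero_iff _ φ.injective).mpr
      ((map_ne_zero_iff _ (germAlg_injective _ _)).mpr (π.b_ne j))
  have hfab : ∀ j, ∀ hj : u.Mem (π.V j).1,
      φ f * u.eval _ hj (π.b j) = u.eval _ hj (π.a j) := fun j hj => by
    rw [show u.eval _ hj (π.b j) = φ (germAlg _ (π.gen j) (π.b j)) from π.eval_map_genPt φ j _,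
      show u.eval _ hj (π.a j) = φ (germAlg _ (π.gen j) (π.a j)) from π.eval_map_genPt φ j _,
      ← map_mul, π.eq]
  have key : poleDivisor L (φ f) =
      dv L (u.eval _ hi (π.b i)) - divG π.cocycle u i hi := by
    refine Finsupp.ext fun P => ?_
    obtain ⟨j, hjP⟩ := π.cocycle.exists_mem ((toLP P).spec u)
    have hj : u.Mem (π.V j).1 := (toLP P).mem_of_mem_spec hjP
    rw [Finsupp.sub_apply, dv_apply, divG_apply π.cocycle u hi P hjP, poleDivisor_apply,
      ← π.eval_b u hi hj, P.ord_mul (π.cocycle.ev_ne_zero _ _ _) (hbne j hj), add_sub_cancel_left]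
    obtain ⟨hbm, hbv⟩ := (toLP P).eval_mem_and_value hjP (π.b j)
    obtain ⟨ham, hav⟩ := (toLP P).eval_mem_and_value hjP (π.a j)
    have hb0 : 0 ≤ P.ord (u.eval _ hj (π.b j)) :=
      (Fermat.Agent.FF.mem_iff_ord_nonneg P).mp hbm
    rcases (π.not_isBase_iff hjP).mp (hbase P) with ha | hb
    · have ha0 : P.ord (u.eval _ hj (π.a j)) = 0 :=
        ord_eq_zero_of_evalAt_ne_zero P ham (fun e => ha (hav.symm.trans e))
      have hane : u.eval _ hj (π.a j) ≠ 0 := fun e => ha (hav.symm.trans (by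
        rw [show (⟨_, ham⟩ : (toLP P).ring) = 0 from Subtype.ext e, map_zero]))
      have hfne : φ f ≠ 0 := fun e => hane (by rw [← hfab j hj, e, zero_mul])
      rw [← hfab j hj, P.ord_mul hfne (hbne j hj)] at ha0
      omega
    · have hb0' : P.ord (u.eval _ hj (π.b j)) = 0 :=
        ord_eq_zero_of_evalAt_ne_zero P hbm (fun e => hb (hbv.symm.trans e))
      have hnn : 0 ≤ P.ord (φ f) := by
        rcases eq_or_ne (φ f) 0 with e | e
        · rw [e, P.ord_zero]
        have h := (Fermat.Agent.FF.mem_iff_ord_nonneg P).mp ham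
        change 0 ≤ P.ord (u.eval _ hj (π.a j)) at h
        rw [← hfab j hj, P.ord_mul e (hbne j hj)] at h
        omega
      omega
  rw [key, map_sub, degree_dv, zero_sub, degree_divG]

end Fermat.Agent.AV
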