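import Fermat.Agent.AV.Geometry
import Mathlib.AlgebraicGeometry.Morphisms.Affine
import Mathlib.RingTheory.AlgebraicIndependent.TranscendenceBasis
import Mathlib.RingTheory.Smooth.Flat
import Mathlib.RingTheory.Unramified.Finite

/-!
# The function field of an abelian scheme and its generic point
-/

set_option autoImplicit false

noncomputable section

universe u

open CategoryTheory CategoryTheory.Limits AlgebraicGeometry NeronModelInfra GoodReductionJacobian
  TopologicalSpace
open scoped TensorProduct

namespace Fermat.Agent.AV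

variable {K : Type u} [Field K] {X : AbVar K}

theorem isAffineOpen_inf {U V : X.carrier.Opens} (hU : IsAffineOpen U) (hV : IsAffineOpen V) :
    IsAffineOpen (U ⊓ V) :=
  (isAffineHom_diagonal_iff (f := X.str)).mp inferInstance ⊤ (isAffineOpen_top _) U
    (by simp) V (by simp) hU hV

/-- Intersection of two charts. -/
abbrev Chart.meet (U V : Chart X) : Chart X := ⟨U.1 ⊓ V.1, isAffineOpen_inf U.2 V.2⟩

variable [IsAlgClosed K]

variable (X) in
/-- The function field. -/
abbrev FFld : Type u := X.carrier.functionField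

theorem genericPoint_mem (U : X.carrier.Opens) (hU : Nonempty U) : genericPoint X.carrier ∈ U :=
  ((genericPoint_spec X.carrier).mem_open_set_iff U.isOpen).mpr (by simpa using hU)

instance : Algebra K (FFld X) :=
  (((X.carrier.presheaf.germ ⊤ (genericPoint X.carrier) trivial).hom).comp
    (algebraMap K Γ(X.carrier, ⊤))).toAlgebra

/-- The germ at the generic point. -/
def germAlg (U : X.carrier.Opens) (hU : genericPoint X.carrier ∈ U) :
    Γ(X.carrier, U) →ₐ[K] FFld X :=
  { (X.carrier.presheaf.germ U (genericPoint X.carrier) hU).hom with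
    commutes' := fun c => by
      show (X.carrier.presheaf.germ U _ hU).hom _ =
        (X.carrier.presheaf.germ ⊤ _ trivial).hom (algebraMap K Γ(X.carrier, ⊤) c)
      rw [← (resAlg (X := X) (le_top (a := U))).commutes c]
      exact TopCat.Presheaf.germ_res_apply X.carrier.presheaf (homOfLE le_top) _ hU _ }

theorem germAlg_res {U V : X.carrier.Opens} (h : V ≤ U) (hV : genericPoint X.carrier ∈ V)
    (b : Γ(X.carrier, U)) : germAlg V hV (resAlg h b) = germAlg U (h hV) b :=
  TopCat.Presheaf.germ_res_apply X.carrier.presheaf (homOfLE h) _ hV _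

theorem germAlg_comp_res {U V : X.carrier.Opens} (h : V ≤ U) (hV : genericPoint X.carrier ∈ V) :
    (germAlg V hV).comp (resAlg h) = germAlg U (h hV) :=
  AlgHom.ext (germAlg_res h hV)

theorem germAlg_injective (U : X.carrier.Opens) (hU : genericPoint X.carrier ∈ U) :
    Function.Injective (germAlg U hU) :=
  germ_injective_of_isIntegral X.carrier _ hU

theorem exists_eq_germ_div (U : Chart X) (hU : genericPoint X.carrier ∈ U.1) (f : FFld X) :
    ∃ a b, b ≠ 0 ∧ f = germAlg U.1 hU a / germAlg U.1 hU b := by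
  have : Nonempty U.1 := ⟨⟨_, hU⟩⟩
  have := functionField_isFractionRing_of_isAffineOpen X.carrier U.1 U.2
  obtain ⟨a, b, hb, h⟩ := IsFractionRing.div_surjective Γ(X.carrier, U.1) (K := FFld X) f
  exact ⟨a, b, nonZeroDivisors.ne_zero hb, h.symm⟩

theorem isFractionRing_chart (U : Chart X) (hU : genericPoint X.carrier ∈ U.1) :
    letI := (germAlg U.1 hU).toRingHom.toAlgebra
    IsFractionRing Γ(X.carrier, U.1) (FFld X) := by
  have : Nonempty U.1 := ⟨⟨_, hU⟩⟩
  exact functionField_isFractionRing_of_isAffineOpen X.carrier U.1 U.2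

variable (X) in
theorem exists_generic_chart : ∃ U : Chart X, genericPoint X.carrier ∈ U.1 := by
  obtain ⟨U, hU, -⟩ := exists_etale_chart X (genericPoint X.carrier)
  exact ⟨U, hU⟩

variable (X) in
/-- The generic point. -/
def genPt : Pt X (FFld X) :=
  Pt.ofEval (exists_generic_chart X).choose
    (germAlg (exists_generic_chart X).choose.1 (exists_generic_chart X).choose_spec)

theorem genPt_eq (U : Chart X) (hU : genericPoint X.carrier ∈ U.1) :
    genPt X = Pt.ofEval U (germAlg U.1 hU) := by
  have key : ∀ (V W : Chart X) (h : W.1 ≤ V.1) (hW : genericPoint X.carrier ∈ W.1),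
      Pt.ofEval V (germAlg V.1 (h hW)) = Pt.ofEval W (germAlg W.1 hW) := by
    intro V W h hW
    have hm := Pt.mem_ofEval W (germAlg W.1 hW)
    refine Pt.ext_eval (Pt.mem_ofEval V _) (hm.mono h) (AlgHom.ext fun b => ?_)
    rw [Pt.eval_ofEval, Pt.eval_res _ V W h hm, Pt.eval_ofEval, germAlg_res]
  set V := (exists_generic_chart X).choose
  have hV : genericPoint X.carrier ∈ V.1 := (exists_generic_chart X).choose_spec
  rw [genPt, key V (Chart.meet V U) inf_le_left ⟨hV, hU⟩]
  exact (key U (Chart.meet V U) inf_le_right ⟨hV, hU⟩).symm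

theorem genPt_mem (U : Chart X) (hU : genericPoint X.carrier ∈ U.1) : (genPt X).Mem U.1 := by
  rw [genPt_eq U hU]
  exact Pt.mem_ofEval U _

theorem genPt_eval (U : Chart X) (hU : genericPoint X.carrier ∈ U.1) :
    (genPt X).eval U (genPt_mem U hU) = germAlg U.1 hU := by
  have key : ∀ (y : Pt X (FFld X)) (hy : y.Mem U.1), y = Pt.ofEval U (germAlg U.1 hU) →
      y.eval U hy = germAlg U.1 hU := by
    rintro y hy rfl
    exact Pt.eval_ofEval U _
  exact key _ _ (genPt_eq U hU)

theorem mem_genericPoint_of_mem {F : Type u} [Field F] [Algebra K F] {x : Pt X F}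
    {U : X.carrier.Opens} (h : x.Mem U) : genericPoint X.carrier ∈ U :=
  genericPoint_mem U ⟨⟨x.pos, (Pt.mem_iff_pos x U).mp h⟩⟩

theorem injective_of_etale (U : Chart X) (hU : genericPoint X.carrier ∈ U.1)
    (g : MvPolynomial (Fin X.dim) K →ₐ[K] Γ(X.carrier, U.1)) (hg : g.Etale) :
    Function.Injective g := by
  let := g.toRingHom.toAlgebra
  have : Algebra.Etale (MvPolynomial (Fin X.dim) K) Γ(X.carrier, U.1) := hg
  have : IsDomain Γ(X.carrier, U.1) := (germAlg_injective U.1 hU).isDomain
  have : Module.Flat (MvPolynomial (Fin X.dim) K) Γ(X.carrier, U.1) := inferInstance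
  rw [injective_iff_map_eq_zero]
  intro p hp
  by_contra hp0
  have h := Module.Flat.isSMulRegular_of_nonZeroDivisors (M := Γ(X.carrier, U.1))
    (mem_nonZeroDivisors_of_ne_zero hp0)
  refine one_ne_zero (α := Γ(X.carrier, U.1)) (h ?_)
  show p • (1 : Γ(X.carrier, U.1)) = p • (0 : Γ(X.carrier, U.1))
  rw [Algebra.smul_def, smul_zero, mul_one]
  exact hp

/-- Coordinates of an étale chart form a transcendence basis of the function field. -/
theorem isTranscendenceBasis_etale (U : Chart X) (hU : genericPoint X.carrier ∈ U.1)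
    (g : MvPolynomial (Fin X.dim) K →ₐ[K] Γ(X.carrier, U.1)) (hg : g.Etale) :
    IsTranscendenceBasis K fun i => germAlg U.1 hU (g (MvPolynomial.X i)) := by
  let P := MvPolynomial (Fin X.dim) K
  let B := Γ(X.carrier, U.1)
  let ψ : P →ₐ[K] FFld X := (germAlg U.1 hU).comp g
  have hψ : Function.Injective ψ := (germAlg_injective U.1 hU).comp (injective_of_etale U hU g hg)
  have hae : MvPolynomial.aeval (fun i => germAlg U.1 hU (g (MvPolynomial.X i))) = ψ :=
    MvPolynomial.algHom_ext fun i => by simp [ψ]
  have hind : AlgebraicIndependent K fun i => germAlg U.1 hU (g (MvPolynomial.X i)) := by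
    rw [algebraicIndependent_iff_injective_aeval, hae]
    exact hψ
  let := g.toRingHom.toAlgebra
  let : Algebra P (FFld X) := ψ.toRingHom.toAlgebra
  have : IsScalarTower K P (FFld X) := IsScalarTower.of_algebraMap_eq fun c => (ψ.commutes c).symm
  let : Algebra B (FFld X) := (germAlg U.1 hU).toRingHom.toAlgebra
  have : IsScalarTower P B (FFld X) := IsScalarTower.of_algebraMap_eq fun _ => rfl
  have : Algebra.Etale P B := hg
  have : FaithfulSMul P (FFld X) := (faithfulSMul_iff_algebraMap_injective _ _).mpr hψ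
  let Q := FractionRing P
  let : Algebra Q (FFld X) := FractionRing.liftAlgebra P (FFld X)
  have : Module.Finite Q (Q ⊗[P] B) := Algebra.FormallyUnramified.finite_of_free Q _
  let μ : Q ⊗[P] B →ₐ[Q] FFld X := Algebra.TensorProduct.lift (Algebra.ofId Q _)
    (IsScalarTower.toAlgHom P B (FFld X)) fun _ _ => Commute.all _ _
  have : IsFractionRing B (FFld X) := isFractionRing_chart U hU
  have hQ : Algebra.IsAlgebraic Q (FFld X) := by
    have hb : ∀ b : B, IsIntegral Q (algebraMap B (FFld X) b) := fun b => by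
      have h := (IsIntegral.of_finite Q (1 ⊗ₜ[P] b : Q ⊗[P] B)).map μ
      simpa [μ] using h
    refine ⟨fun f => ?_⟩
    obtain ⟨a, b, -, rfl⟩ := IsFractionRing.div_surjective B (K := FFld X) f
    rw [div_eq_mul_inv]
    exact (hb a).isAlgebraic.mul (hb b).isAlgebraic.inv
  have hP : Algebra.IsAlgebraic P (FFld X) :=
    (IsFractionRing.comap_isAlgebraic_iff (A := P) (K := Q) (C := FFld X)).mpr hQ
  refine hind.isTranscendenceBasis_iff_isAlgebraic.mpr ?_
  have hr : (ψ.range : Subalgebra K (FFld X)) =
      Algebra.adjoin K (Set.range fun i => germAlg U.1 hU (g (MvPolynomial.X i))) := by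
    rw [Algebra.adjoin_range_eq_range_aeval, hae]
  rw [← hr]
  refine ⟨fun f => ?_⟩
  obtain ⟨p, hp0, hp⟩ := hP.isAlgebraic f
  refine ⟨p.map ψ.rangeRestrict.toRingHom, ?_, ?_⟩
  · exact (Polynomial.map_ne_zero_iff (fun a b h => hψ (congrArg Subtype.val h))).mpr hp0
  · rw [Polynomial.aeval_def, Polynomial.eval₂_map]
    exact hp

variable (X) in
theorem trdeg_functionField : Algebra.trdeg K (FFld X) = X.dim := by
  obtain ⟨U, hU, g, hg⟩ := exists_etale_chart X (genericPoint X.carrier)
  simpa using (isTranscendenceBasis_etale U hU g hg).lift_cardinalMk_eq_trdeg.symm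

end Fermat.Agent.AV
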