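import Mathlib.RingTheory.AlgebraicIndependent.TranscendenceBasis
import Mathlib.RingTheory.AlgebraicIndependent.Transcendental
import Mathlib.RingTheory.Algebraic.Integral
import Mathlib.FieldTheory.IntermediateField.Adjoin.Algebra
import Mathlib.RingTheory.Localization.FractionRing

/-!
# Transcendence degree lemmas
-/

set_option autoImplicit false
set_option linter.unusedSectionVars false

noncomputable section

open scoped IntermediateField.algebraAdjoinAdjoin

universe u

namespace Fermat.Agent.AV

variable {K : Type u} [Field K] {D : Type u} [CommRing D] [IsDomain D] [Algebra K D]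

/-- A nonzero prime strictly lowers the transcendence degree. -/
theorem trdeg_quotient_add_one_le (q : Ideal D) [q.IsPrime] (hq : q ≠ ⊥) :
    Algebra.trdeg K (D ⧸ q) + 1 ≤ Algebra.trdeg K D := by
  obtain ⟨s, hs⟩ := exists_isTranscendenceBasis K (D ⧸ q)
  rw [← hs.cardinalMk_eq_trdeg]
  choose y hy using fun i : s => Ideal.Quotient.mk_surjective (I := q) (i : D ⧸ q)
  obtain ⟨b, hbq, hb0⟩ := Submodule.exists_mem_ne_zero_of_ne_bot hq
  have hind : AlgebraicIndependent K y := by
    refine AlgebraicIndependent.of_comp (Ideal.Quotient.mkₐ K q) ?_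
    rw [show (Ideal.Quotient.mkₐ K q : D → D ⧸ q) ∘ y = Subtype.val from funext hy]
    exact hs.1
  have hopt : AlgebraicIndependent K fun o : Option s => o.elim b y := by
    rw [hind.option_iff_transcendental]
    intro halg
    obtain ⟨⟨r, hr⟩, hr0, hdvd⟩ := halg.exists_nonzero_dvd (mem_nonZeroDivisors_of_ne_zero hb0)
    have hrq : r ∈ q := by
      obtain ⟨c, hc⟩ := hdvd
      rw [show r = b * c from hc]
      exact q.mul_mem_right _ hbq
    rw [Algebra.adjoin_range_eq_range_aeval] at hr
    obtain ⟨p, rfl⟩ := hr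
    have h1 : Ideal.Quotient.mkₐ K q (MvPolynomial.aeval y p) = 0 :=
      Ideal.Quotient.eq_zero_iff_mem.mpr hrq
    rw [← AlgHom.comp_apply, MvPolynomial.comp_aeval] at h1
    have hp : p = 0 := by
      refine (algebraicIndependent_iff.mp hs.1) p ?_
      rw [show (fun i => Ideal.Quotient.mkₐ K q (y i)) = Subtype.val from funext hy] at h1
      exact h1
    exact hr0 (Subtype.ext (by simp [hp]))
  have := hopt.cardinalMk_le_trdeg
  rwa [Cardinal.mk_option] at this

theorem trdeg_quotient_add_one_le_of_lt {q' q : Ideal D} [q'.IsPrime] [q.IsPrime] (h : q' < q) :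
    Algebra.trdeg K (D ⧸ q) + 1 ≤ Algebra.trdeg K (D ⧸ q') := by
  set Q := q.map (Ideal.Quotient.mk q')
  have hQ : Q.IsPrime :=
    Ideal.map_isPrime_of_surjective Ideal.Quotient.mk_surjective (by rw [Ideal.mk_ker]; exact h.le)
  have hne : Q ≠ ⊥ := fun hb => by
    rw [Ideal.map_eq_bot_iff_le_ker, Ideal.mk_ker] at hb
    exact h.not_ge hb
  refine le_trans ?_ (trdeg_quotient_add_one_le Q hne)
  gcongr
  refine trdeg_le_of_surjective (Ideal.Quotient.liftₐ Q
    (Ideal.Quotient.liftₐ q' (Ideal.Quotient.mkₐ K q) fun a ha =>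
      Ideal.Quotient.eq_zero_iff_mem.mpr (h.le ha)) ?_) ?_
  · intro a ha
    obtain ⟨b, hb, rfl⟩ := (Ideal.mem_map_iff_of_surjective _ Ideal.Quotient.mk_surjective).mp ha
    exact Ideal.Quotient.eq_zero_iff_mem.mpr hb
  · intro z
    obtain ⟨d, rfl⟩ := Ideal.Quotient.mk_surjective z
    exact ⟨Ideal.Quotient.mk _ (Ideal.Quotient.mk _ d), rfl⟩

/-- The field generated by the image of a homomorphism has the degree of the quotient. -/
theorem trdeg_adjoin_range_le {F : Type u} [Field F] [Algebra K F] (φ : D →ₐ[K] F) :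
    Algebra.trdeg K (IntermediateField.adjoin K (Set.range φ)) ≤
      Algebra.trdeg K (D ⧸ RingHom.ker φ.toRingHom) := by
  have e : Algebra.adjoin K (Set.range φ) = φ.range := by
    rw [← Algebra.adjoin_eq φ.range, AlgHom.coe_range]
  have h := trdeg_add_eq K (Algebra.adjoin K (Set.range φ))
    (A := IntermediateField.adjoin K (Set.range φ))
  rw [trdeg_eq_zero (R := Algebra.adjoin K (Set.range φ)), add_zero] at h
  rw [← h]
  refine trdeg_le_of_surjective ((Subalgebra.equivOfEq _ _ e.symm).toAlgHom.comp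
    (Ideal.Quotient.liftₐ (RingHom.ker φ.toRingHom) φ.rangeRestrict fun a ha =>
      Subtype.ext ha)) ?_
  refine (Subalgebra.equivOfEq _ _ e.symm).surjective.comp ?_
  rintro ⟨_, d, rfl⟩
  exact ⟨Ideal.Quotient.mk _ d, rfl⟩

end Fermat.Agent.AV
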