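import Fermat.Agent.AV.FunctionField
import Fermat.Agent.AV.Trdeg
import Mathlib.AlgebraicGeometry.Morphisms.Separated

/-!
# Generic points, fields of definition and the inversion of the function field
-/

set_option autoImplicit false
set_option linter.unusedSectionVars false

noncomputable section

universe u

open CategoryTheory AlgebraicGeometry

namespace Fermat.Agent.AV

variable {K : Type u} [Field K] {X : AbVar K}

/-- An injection into a field is injective on points. -/
theorem Pt.map_injective_of_injective {B F : Type u} [CommRing B] [Algebra K B] [IsReduced B]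
    [Field F] [Algebra K F] (φ : B →ₐ[K] F) (hφ : Function.Injective φ) :
    Function.Injective (Pt.map (X := X) φ) := by
  intro x y h
  refine Pt.ext ?_
  have : IsDominant (Spec.map (CommRingCat.ofHom φ.toRingHom)) := ⟨by
    show DenseRange (PrimeSpectrum.comap φ.toRingHom)
    rw [PrimeSpectrum.denseRange_comap_iff_ker_le_nilRadical,
      (RingHom.injective_iff_ker_eq_bot φ.toRingHom).mp hφ]
    exact bot_le⟩
  exact ext_of_isDominant_of_isSeparated X.str (by rw [x.hom_comp_str, y.hom_comp_str])
    (Spec.map (CommRingCat.ofHom φ.toRingHom)) (congrArg Pt.hom h)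

section Defined

variable {F : Type u} [Field F] [Algebra K F]

variable (X) in
/-- The points defined over a subfield. -/
def defPts (E : IntermediateField K F) : AddSubgroup (Pt X F) := (Pt.map E.val).range

theorem defPts_mono {E E' : IntermediateField K F} (h : E ≤ E') : defPts X E ≤ defPts X E' := by
  rintro _ ⟨p, rfl⟩
  exact ⟨Pt.map (IntermediateField.inclusion h) p, by rw [Pt.map_map]; rfl⟩

theorem mem_defPts_of_eval {E : IntermediateField K F} {x : Pt X F} {U : Chart X}
    (h : x.Mem U.1) (hE : ∀ b, x.eval U h b ∈ E) : x ∈ defPts X E := by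
  refine ⟨Pt.ofEval U ((x.eval U h).codRestrict E.toSubalgebra hE), ?_⟩
  rw [Pt.map_ofEval]
  exact Pt.ofEval_eval x U h

theorem Pt.mem_of_map_field {E : Type u} [Field E] [Algebra K E] {φ : E →ₐ[K] F} {p : Pt X E}
    {U : X.carrier.Opens} (h : (Pt.map φ p).Mem U) : p.Mem U := by
  have : IsLocalHom φ.toRingHom :=
    ⟨fun a ha => isUnit_iff_ne_zero.mpr fun h0 => ha.ne_zero (by rw [h0, map_zero])⟩
  exact Pt.mem_of_mem_map φ h

theorem eval_mem_of_mem_defPts {E : IntermediateField K F} {x : Pt X F} (hx : x ∈ defPts X E)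
    {U : Chart X} (h : x.Mem U.1) (b : Γ(X.carrier, U.1)) : x.eval U h b ∈ E := by
  obtain ⟨p, rfl⟩ := hx
  rw [Pt.eval_map E.val p U (Pt.mem_of_map_field h)]
  exact (p.eval U (Pt.mem_of_map_field h) b).2

theorem zero_mem_defPts (E : IntermediateField K F) : (0 : Pt X F) ∈ defPts X E := zero_mem _

theorem map_mem_defPts {F₀ : Type u} [Field F₀] [Algebra K F₀] (φ : F₀ →ₐ[K] F) (x : Pt X F₀)
    {E : IntermediateField K F₀} (hx : x ∈ defPts X E) :
    Pt.map φ x ∈ defPts X (E.map φ) := by
  obtain ⟨p, rfl⟩ := hx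
  refine ⟨Pt.map ((φ.comp E.val).codRestrict (E.map φ).toSubalgebra fun z => ⟨z, z.2, rfl⟩) p, ?_⟩
  rw [Pt.map_map, Pt.map_map]
  rfl

end Defined

variable [IsAlgClosed K]

theorem genHom_ext {F : Type u} [Field F] [Algebra K F] {φ ψ : FFld X →ₐ[K] F}
    (h : Pt.map φ (genPt X) = Pt.map ψ (genPt X)) : φ = ψ := by
  obtain ⟨U, hU⟩ := exists_generic_chart X
  have e : ∀ χ : FFld X →ₐ[K] F, ∀ b, (Pt.map χ (genPt X)).eval U ((genPt_mem U hU).map χ) b =
      χ (germAlg U.1 hU b) := fun χ b => by
    rw [Pt.eval_map χ (genPt X) U (genPt_mem U hU), genPt_eval U hU]; rfl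
  have key : ∀ b, φ (germAlg U.1 hU b) = ψ (germAlg U.1 hU b) := fun b => by
    have h1 : ∀ (x y : Pt X F), x = y → ∀ hx hy, x.eval U hx b = y.eval U hy b := by
      rintro x y rfl _ _; rfl
    rw [← e, ← e]
    exact h1 _ _ h _ _
  refine AlgHom.ext fun f => ?_
  obtain ⟨a, b, -, rfl⟩ := exists_eq_germ_div U hU f
  rw [map_div₀, map_div₀, key, key]

/-- A point with injective coordinates is the image of the generic point. -/
theorem exists_map_genPt {F : Type u} [Field F] [Algebra K F] (x : Pt X F) (U : Chart X)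
    (h : x.Mem U.1) (hinj : Function.Injective (x.eval U h)) :
    ∃ φ : FFld X →ₐ[K] F, Pt.map φ (genPt X) = x := by
  have hU := mem_genericPoint_of_mem h
  let _ := (germAlg U.1 hU).toRingHom.toAlgebra
  have hF : IsFractionRing Γ(X.carrier, U.1) (FFld X) := isFractionRing_chart U hU
  have : IsScalarTower K Γ(X.carrier, U.1) (FFld X) :=
    IsScalarTower.of_algebraMap_eq fun c => ((germAlg U.1 hU).commutes c).symm
  let φ : FFld X →ₐ[K] F :=
    { (IsFractionRing.lift (g := (x.eval U h).toRingHom) hinj : FFld X →+* F) with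
      commutes' := fun c => by
        show IsFractionRing.lift (g := (x.eval U h).toRingHom) hinj (algebraMap K (FFld X) c) = _
        rw [IsScalarTower.algebraMap_apply K Γ(X.carrier, U.1) (FFld X),
          IsFractionRing.lift_algebraMap]
        exact (x.eval U h).commutes c }
  refine ⟨φ, Pt.ext_eval ((genPt_mem U hU).map φ) h ?_⟩
  rw [Pt.eval_map φ (genPt X) U (genPt_mem U hU), genPt_eval U hU]
  exact AlgHom.ext fun b => IsFractionRing.lift_algebraMap hinj b

/-- The coordinates of a point lie in a field of transcendence degree at most the dimension. -/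
theorem exists_defPts_trdeg_le {F : Type u} [Field F] [Algebra K F] (x : Pt X F) :
    ∃ E : IntermediateField K F, x ∈ defPts X E ∧ Algebra.trdeg K E ≤ X.dim := by
  obtain ⟨U, hU⟩ := x.exists_chart
  have hg := mem_genericPoint_of_mem hU
  have : IsDomain Γ(X.carrier, U.1) := (germAlg_injective U.1 hg).isDomain
  refine ⟨IntermediateField.adjoin K (Set.range (x.eval U hU)),
    mem_defPts_of_eval hU fun b => IntermediateField.subset_adjoin _ _ ⟨b, rfl⟩, ?_⟩
  refine (trdeg_adjoin_range_le (x.eval U hU)).trans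
    ((trdeg_le_of_surjective (Ideal.Quotient.mkₐ K _) Ideal.Quotient.mk_surjective).trans ?_)
  exact trdeg_functionField X ▸ trdeg_le_of_injective (germAlg U.1 hg) (germAlg_injective _ _)

theorem eq_top_of_genPt_mem_defPts {E : IntermediateField K (FFld X)}
    (h : genPt X ∈ defPts X E) : E = ⊤ := by
  obtain ⟨U, hU⟩ := exists_generic_chart X
  refine eq_top_iff.mpr fun f _ => ?_
  obtain ⟨a, b, -, rfl⟩ := exists_eq_germ_div U hU f
  rw [← genPt_eval U hU]
  exact div_mem (eval_mem_of_mem_defPts h _ a) (eval_mem_of_mem_defPts h _ b)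

variable (X) in
theorem exists_invHom :
    ∃ ι : FFld X →ₐ[K] FFld X, Pt.map ι (genPt X) = -genPt X := by
  obtain ⟨U, hU⟩ := (-genPt X).exists_chart
  by_cases hinj : Function.Injective ((-genPt X).eval U hU)
  · exact exists_map_genPt _ U hU hinj
  exfalso
  have hg := mem_genericPoint_of_mem hU
  have : IsDomain Γ(X.carrier, U.1) := (germAlg_injective U.1 hg).isDomain
  set φ := (-genPt X).eval U hU
  set E := IntermediateField.adjoin K (Set.range φ)
  have hE : -genPt X ∈ defPts X E :=
    mem_defPts_of_eval hU fun b => IntermediateField.subset_adjoin _ _ ⟨b, rfl⟩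
  have htop : E = ⊤ := eq_top_of_genPt_mem_defPts (neg_mem_iff.mp hE)
  have hker : RingHom.ker φ.toRingHom ≠ ⊥ := fun h =>
    hinj ((RingHom.injective_iff_ker_eq_bot _).mpr h)
  have := RingHom.ker_isPrime φ.toRingHom
  have h1 := trdeg_quotient_add_one_le (K := K) (RingHom.ker φ.toRingHom) hker
  have h2 : Algebra.trdeg K Γ(X.carrier, U.1) ≤ X.dim :=
    trdeg_functionField X ▸ trdeg_le_of_injective (germAlg U.1 hg) (germAlg_injective _ _)
  have h3 : (X.dim : Cardinal) ≤ Algebra.trdeg K (Γ(X.carrier, U.1) ⧸ RingHom.ker φ.toRingHom) := by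
    have h4 : Algebra.trdeg K E = X.dim := by
      rw [(IntermediateField.equivOfEq htop).trdeg_eq, IntermediateField.topEquiv.trdeg_eq,
        trdeg_functionField]
    exact h4 ▸ trdeg_adjoin_range_le φ
  have h5 : (X.dim : Cardinal) + 1 ≤ X.dim := (add_le_add h3 le_rfl).trans (h1.trans h2)
  norm_cast at h5
  omega

end Fermat.Agent.AV
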