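import Fermat.Agent.AV.PowerSeriesUFD
import Mathlib.RingTheory.Etale.Basic
import Mathlib.RingTheory.Etale.Field
import Mathlib.RingTheory.Smooth.AdicCompletion
import Mathlib.RingTheory.Localization.AtPrime.Basic
import Mathlib.RingTheory.MvPolynomial.Ideal
import Mathlib.RingTheory.Filtration
import Mathlib.RingTheory.Unramified.Field

/-!
# Local rings at rational points of étale algebras over affine space

Such a ring embeds densely in a power series ring, so it is a factorial domain.
-/

set_option autoImplicit false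

noncomputable section

open MvPowerSeries

namespace Fermat.Agent.AV

/-- Factoriality descends along a dense embedding of local rings. -/
theorem ufm_of_dense {R S : Type*} [CommRing R] [IsDomain R] [IsLocalRing R] [IsNoetherianRing R]
    [CommRing S] [IsDomain S] [IsLocalRing S] [IsNoetherianRing S] [UniqueFactorizationMonoid S]
    (ψ : R →+* S) (hinj : Function.Injective ψ)
    (hcomap : ∀ (k : ℕ) (r : R),
      ψ r ∈ IsLocalRing.maximalIdeal S ^ k → r ∈ IsLocalRing.maximalIdeal R ^ k)
    (hmap : ∀ r : R, r ∈ IsLocalRing.maximalIdeal R → ψ r ∈ IsLocalRing.maximalIdeal S)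
    (hdense : ∀ (k : ℕ) (s : S), ∃ r : R, s - ψ r ∈ IsLocalRing.maximalIdeal S ^ k) :
    UniqueFactorizationMonoid R := by
  set m := IsLocalRing.maximalIdeal R
  set mS := IsLocalRing.maximalIdeal S
  have hpow : ∀ (k : ℕ) (r : R), r ∈ m ^ k → ψ r ∈ mS ^ k := by
    intro k r hr
    have : m.map ψ ≤ mS := Ideal.map_le_iff_le_comap.mpr hmap
    exact Ideal.pow_right_mono this k (by rw [← Ideal.map_pow]; exact Ideal.mem_map_of_mem ψ hr)
  have hdvd : ∀ a b : R, ψ a ∣ ψ b → a ∣ b := by
    rintro a b ⟨t, ht⟩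
    rcases eq_or_ne a 0 with rfl | ha0
    · rw [map_zero, zero_mul, map_eq_zero_iff _ hinj] at ht
      rw [ht]
    obtain ⟨c, hc⟩ := Ideal.exists_pow_inf_eq_pow_smul m (Ideal.span {a} : Ideal R) (M := R)
    by_cases htop : Ideal.span {a} = (⊤ : Ideal R)
    · exact (Ideal.span_singleton_eq_top.mp htop).dvd
    rw [← Ideal.mem_span_singleton]
    have hk : b ∈ ⨅ k, (Ideal.span {a} ⊔ m ^ k) := by
      rw [Submodule.mem_iInf]
      intro k
      obtain ⟨r, hr⟩ := hdense k t
      refine Submodule.mem_sup.mpr ⟨a * r, Ideal.mem_span_singleton.mpr ⟨r, rfl⟩, b - a * r,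
        hcomap k _ ?_, by ring⟩
      rw [map_sub, map_mul, ht, ← mul_sub]
      exact Ideal.mul_mem_left _ _ hr
    by_contra hb
    let π := Ideal.Quotient.mk (Ideal.span {a})
    have hb0 : π b ≠ 0 := fun h => hb (Ideal.Quotient.eq_zero_iff_mem.mp h)
    have : Nontrivial (R ⧸ Ideal.span {a}) := Ideal.Quotient.nontrivial_iff.mpr htop
    have hlocal : IsLocalRing (R ⧸ Ideal.span {a}) :=
      IsLocalRing.of_surjective' π Ideal.Quotient.mk_surjective
    have hne : m.map π ≠ ⊤ := by
      intro h
      have h1 := congrArg (Ideal.comap π) h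
      rw [Ideal.comap_map_of_surjective π Ideal.Quotient.mk_surjective, Ideal.comap_top] at h1
      have h2 : m ⊔ Ideal.comap π ⊥ ≤ m := sup_le le_rfl (by
        rw [← RingHom.ker_eq_comap_bot, Ideal.mk_ker]
        exact IsLocalRing.le_maximalIdeal htop)
      exact (IsLocalRing.maximalIdeal.isMaximal R).ne_top (top_unique (h1 ▸ h2))
    have hkrull := Ideal.iInf_pow_eq_bot_of_isLocalRing (m.map π) hne
    apply hb0
    rw [← Ideal.mem_bot, ← hkrull, Submodule.mem_iInf]
    intro k
    obtain ⟨u, hu, v, hv, huv⟩ := Submodule.mem_sup.mp (Submodule.mem_iInf _ |>.mp hk k)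
    rw [← Ideal.map_pow, ← huv, map_add, Ideal.Quotient.eq_zero_iff_mem.mpr hu, zero_add]
    exact Ideal.mem_map_of_mem _ hv
  refine { (IsNoetherianRing.wfDvdMonoid : WfDvdMonoid R) with
    irreducible_iff_prime := fun {a} => ⟨fun ha => ?_, Prime.irreducible⟩ }
  refine ⟨ha.ne_zero, ha.not_isUnit, fun b c hbc => ?_⟩
  by_contra hne
  rw [not_or] at hne
  have hψa : ψ a ≠ 0 := by rw [Ne, map_eq_zero_iff _ hinj]; exact ha.ne_zero
  obtain ⟨α, β, d, hrel, hdα, hdβ⟩ :=
    UniqueFactorizationMonoid.exists_reduced_factors (ψ a) hψa (ψ b)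
  have hd : d ≠ 0 := left_ne_zero_of_mul (hdα ▸ hψa)
  have hα : α ≠ 0 := right_ne_zero_of_mul (hdα ▸ hψa)
  obtain ⟨j, hj⟩ : ∃ j, α ∉ mS ^ j := by
    by_contra h
    push Not at h
    have := Ideal.iInf_pow_eq_bot_of_isLocalRing mS (IsLocalRing.maximalIdeal.isMaximal S).ne_top
    exact hα (by rw [← Ideal.mem_bot, ← this, Submodule.mem_iInf]; exact h)
  obtain ⟨c0, hc0⟩ := Ideal.exists_pow_inf_eq_pow_smul m (Ideal.span {a, b} : Ideal R) (M := R)
  obtain ⟨x, hx⟩ := hdense (c0 + j) α
  obtain ⟨y, hy⟩ := hdense (c0 + j) β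
  have hmem : x * b - y * a ∈ m ^ (c0 + j) := by
    refine hcomap _ _ ?_
    have : ψ (x * b - y * a) = -(α - ψ x) * ψ b + (β - ψ y) * ψ a := by
      simp only [map_sub, map_mul, ← hdα, ← hdβ]; ring
    rw [this]
    exact add_mem (Ideal.mul_mem_right _ _ (neg_mem hx)) (Ideal.mul_mem_right _ _ hy)
  have hmem' : x * b - y * a ∈ m ^ j * Ideal.span {a, b} := by
    have h1 : x * b - y * a ∈ (m ^ (c0 + j) • ⊤ : Submodule R R) ⊓ Ideal.span {a, b} := by
      refine Submodule.mem_inf.mpr ⟨by simpa using hmem, ?_⟩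
      exact sub_mem (Ideal.mul_mem_left _ _ (Ideal.subset_span (by simp)))
        (Ideal.mul_mem_left _ _ (Ideal.subset_span (by simp)))
    rw [hc0 _ (Nat.le_add_right _ _), Nat.add_sub_cancel_left, Ideal.smul_eq_mul] at h1
    exact Ideal.mul_mono_right inf_le_right h1
  obtain ⟨u, v, hu, hv, huv⟩ : ∃ u v, u ∈ m ^ j ∧ v ∈ m ^ j ∧ x * b - y * a = v * a + u * b := by
    rw [Ideal.span_insert, Ideal.mul_sup] at hmem'
    obtain ⟨p, hp, q, hq, hpq⟩ := Submodule.mem_sup.mp hmem'
    obtain ⟨v, hv, rfl⟩ := Ideal.mem_mul_span_singleton.mp hp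
    obtain ⟨u, hu, rfl⟩ := Ideal.mem_mul_span_singleton.mp hq
    exact ⟨u, v, hu, hv, hpq.symm⟩
  have hsol : (x - u) * b = (y + v) * a := by linear_combination huv
  have hsolS : ψ (x - u) * β = ψ (y + v) * α := by
    have h1 := congrArg ψ hsol
    rw [map_mul, map_mul, ← hdα, ← hdβ] at h1
    exact mul_left_cancel₀ hd (by linear_combination h1)
  obtain ⟨s, hs⟩ : α ∣ ψ (x - u) := hrel.dvd_of_dvd_mul_right ⟨ψ (y + v), by rw [hsolS]; ring⟩
  have hsu : IsUnit s := by
    by_contra hns
    have h1 : α * (1 - s) ∈ mS ^ j := by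
      rw [mul_sub, mul_one, ← hs, map_sub, sub_sub_eq_add_sub, add_comm, add_sub_assoc]
      exact add_mem (hpow j u hu) (Ideal.pow_le_pow_right (Nat.le_add_left _ _) hx)
    obtain ⟨w, hw⟩ := ((IsLocalRing.isUnit_or_isUnit_one_sub_self s).resolve_left hns).exists_right_inv
    exact hj (by
      have := Ideal.mul_mem_right w _ h1
      rwa [mul_assoc, hw, mul_one] at this)
  obtain ⟨e, he⟩ : (x - u) ∣ a := by
    refine hdvd _ _ ?_
    obtain ⟨w, hw⟩ := hsu.exists_right_inv
    exact ⟨w * d, by rw [hs, ← hdα]; linear_combination (-(α * d)) * hw⟩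
  rcases ha.isUnit_or_isUnit he with hu' | hu'
  · have : IsUnit α := isUnit_of_mul_isUnit_left (hs ▸ hu'.map ψ)
    obtain ⟨w, hw⟩ := this.exists_right_inv
    exact hne.1 (hdvd _ _ ⟨w * β, by rw [← hdα, ← hdβ]; linear_combination (-(d * β)) * hw⟩)
  · have hdu : IsUnit d := by
      have h1 := congrArg ψ he
      rw [map_mul, hs, ← hdα] at h1
      have h2 : d = s * ψ e := mul_right_cancel₀ hα (by linear_combination h1)
      rw [h2]; exact hsu.mul (hu'.map ψ)
    obtain ⟨w, hw⟩ := hdu.exists_right_inv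
    have h1 : ψ a ∣ ψ b * ψ c := by rw [← map_mul]; exact map_dvd ψ hbc
    rw [← hdα, ← hdβ] at h1
    have h2 : α ∣ β * ψ c := by
      rw [mul_assoc] at h1
      exact (mul_dvd_mul_iff_left hd).mp h1
    obtain ⟨t, ht⟩ := hrel.dvd_of_dvd_mul_left h2
    exact hne.2 (hdvd _ _ ⟨w * t, by rw [← hdα, ht]; linear_combination (-(α * t)) * hw⟩)

section Etale

variable {K : Type*} [Field K] {n : ℕ} {B : Type*} [CommRing B] [Algebra K B]
  [Algebra (MvPolynomial (Fin n) K) B] [IsScalarTower K (MvPolynomial (Fin n) K) B]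
  [hEt : Algebra.Etale (MvPolynomial (Fin n) K) B] (φ : B →ₐ[K] K)

omit [Algebra.Etale (MvPolynomial (Fin n) K) B] in
theorem algebraMap_C_eq (r : K) :
    algebraMap (MvPolynomial (Fin n) K) B (MvPolynomial.C r) = algebraMap K B r := by
  rw [← MvPolynomial.algebraMap_eq, ← IsScalarTower.algebraMap_apply]

omit [Algebra.Etale (MvPolynomial (Fin n) K) B] in
theorem point_algebraMap_C (r : K) :
    φ (algebraMap (MvPolynomial (Fin n) K) B (MvPolynomial.C r)) = r := by
  rw [algebraMap_C_eq, AlgHom.commutes]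
  rfl

/-- The coordinates of a rational point. -/
def pointCoord (i : Fin n) : K := φ (algebraMap (MvPolynomial (Fin n) K) B (MvPolynomial.X i))

/-- Taylor expansion of polynomials at a point. -/
def shiftHom : MvPolynomial (Fin n) K →ₐ[K] MvPowerSeries (Fin n) K :=
  MvPolynomial.aeval fun i => X i + MvPowerSeries.C (pointCoord (n := n) φ i)

theorem constantCoeff_shiftHom (p : MvPolynomial (Fin n) K) :
    constantCoeff (shiftHom (n := n) φ p) = φ (algebraMap _ B p) := by
  have : ((constantCoeff (σ := Fin n) (R := K)).comp (shiftHom (n := n) φ).toRingHom) =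
      φ.toRingHom.comp (algebraMap (MvPolynomial (Fin n) K) B) := by
    refine MvPolynomial.ringHom_ext (fun r => ?_) (fun i => ?_)
    · simp [shiftHom, point_algebraMap_C, MvPowerSeries.algebraMap_apply]
    · simp [shiftHom, pointCoord]
  exact RingHom.congr_fun this p

theorem shiftHom_dense (k : ℕ) (s : MvPowerSeries (Fin n) K) :
    ∃ p : MvPolynomial (Fin n) K,
      s - shiftHom (n := n) φ p ∈ IsLocalRing.maximalIdeal (MvPowerSeries (Fin n) K) ^ k := by
  induction k generalizing s with
  | zero => exact ⟨0, by simp⟩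
  | succ k ih =>
    have hs : s - MvPowerSeries.C (constantCoeff s) ∈
        Ideal.span (Set.range (X : Fin n → MvPowerSeries (Fin n) K)) :=
      exists_eq_sum_X_mul _ (by simp)
    obtain ⟨l, hl⟩ := (Submodule.mem_span_range_iff_exists_fun _).mp hs
    choose p hp using fun i => ih (l i)
    refine ⟨MvPolynomial.C (constantCoeff s) +
      ∑ i, p i * (MvPolynomial.X i - MvPolynomial.C (pointCoord (n := n) φ i)), ?_⟩
    have hX : ∀ i, shiftHom (n := n) φ (MvPolynomial.X i - MvPolynomial.C (pointCoord (n := n) φ i)) = X i := by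
      intro i
      simp [shiftHom, MvPowerSeries.c_eq_algebraMap, ← MvPolynomial.algebraMap_eq]
    have hC : shiftHom (n := n) φ (MvPolynomial.C (constantCoeff s)) = MvPowerSeries.C (constantCoeff s) := by
      simp [shiftHom, MvPowerSeries.c_eq_algebraMap, ← MvPolynomial.algebraMap_eq]
    rw [map_add, hC, map_sum, sub_add_eq_sub_sub, ← hl, ← Finset.sum_sub_distrib, pow_succ]
    refine sum_mem fun i _ => ?_
    rw [map_mul, hX, smul_eq_mul, ← sub_mul]
    refine Ideal.mul_mem_mul (hp i) ?_
    rw [maximalIdeal_eq_span_X]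
    exact Ideal.subset_span ⟨i, rfl⟩

theorem shiftHom_mem_pow (k : ℕ) {p : MvPolynomial (Fin n) K}
    (hp : shiftHom (n := n) φ p ∈ IsLocalRing.maximalIdeal (MvPowerSeries (Fin n) K) ^ k) :
    algebraMap _ B p ∈ RingHom.ker φ ^ k := by
  let σ : MvPolynomial (Fin n) K →ₐ[K] MvPolynomial (Fin n) K :=
    MvPolynomial.aeval fun i => MvPolynomial.X i + MvPolynomial.C (pointCoord (n := n) φ i)
  let τ : MvPolynomial (Fin n) K →ₐ[K] MvPolynomial (Fin n) K :=
    MvPolynomial.aeval fun i => MvPolynomial.X i - MvPolynomial.C (pointCoord (n := n) φ i)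
  have hcoe : shiftHom (n := n) φ p = ((σ p : MvPolynomial (Fin n) K) : MvPowerSeries (Fin n) K) := by
    have h : shiftHom (n := n) φ = (MvPolynomial.coeToMvPowerSeries.algHom K).comp σ :=
      MvPolynomial.algHom_ext fun i => by
        simp [shiftHom, σ, MvPolynomial.coeToMvPowerSeries.algHom_apply]
    rw [h]
    simp [MvPolynomial.coeToMvPowerSeries.algHom_apply]
  have hτσ : τ (σ p) = p := by
    have h : τ.comp σ = AlgHom.id K _ := MvPolynomial.algHom_ext fun i => by simp [σ, τ]
    exact AlgHom.congr_fun h p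
  have hle : ∀ j : ℕ, ∀ f ∈ IsLocalRing.maximalIdeal (MvPowerSeries (Fin n) K) ^ j,
      ∀ d : Fin n →₀ ℕ, d.degree < j → coeff d f = 0 := by
    intro j
    induction j with
    | zero => exact fun f _ d hd => absurd hd (Nat.not_lt_zero _)
    | succ j ih =>
      intro f hf
      rw [pow_succ] at hf
      refine Submodule.mul_induction_on hf (fun a ha b hb d hd => ?_) (fun a b ha hb d hd => ?_)
      · classical
        rw [MvPowerSeries.coeff_mul]
        refine Finset.sum_eq_zero fun e he => ?_
        rw [Finset.mem_antidiagonal] at he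
        have hdeg : e.1.degree + e.2.degree = d.degree := by rw [← map_add, he]
        rcases Nat.eq_zero_or_pos e.2.degree with h | h
        · have hb0 : constantCoeff b = 0 := by
            by_contra hb'
            exact hb (isUnit_iff_constantCoeff.mpr (isUnit_iff_ne_zero.mpr hb'))
          rw [(Finsupp.degree_eq_zero_iff _).mp h, coeff_zero_eq_constantCoeff_apply, hb0,
            mul_zero]
        · rw [ih a ha e.1 (by omega), zero_mul]
      · rw [map_add, ha d hd, hb d hd, add_zero]
  have hσ : σ p ∈ MvPolynomial.idealOfVars (Fin n) K ^ k := by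
    rw [MvPolynomial.mem_pow_idealOfVars_iff']
    intro d hd
    have := hle k _ hp d hd
    rwa [hcoe, MvPolynomial.coeff_coe] at this
  have hmap : (MvPolynomial.idealOfVars (Fin n) K).map
      ((algebraMap (MvPolynomial (Fin n) K) B).comp τ.toRingHom) ≤ RingHom.ker φ := by
    rw [MvPolynomial.idealOfVars, Ideal.map_span, Ideal.span_le]
    rintro _ ⟨_, ⟨i, rfl⟩, rfl⟩
    simp [τ, RingHom.mem_ker, pointCoord, point_algebraMap_C]
  have := Ideal.mem_map_of_mem ((algebraMap (MvPolynomial (Fin n) K) B).comp τ.toRingHom) hσ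
  rw [Ideal.map_pow] at this
  have h := Ideal.pow_right_mono hmap k this
  simpa [hτσ] using h

/-- The maximal ideal is generated by the coordinates up to its square. -/
theorem ker_le_coordIdeal_sup_sq :
    RingHom.ker φ ≤ Ideal.span (Set.range fun i =>
      algebraMap (MvPolynomial (Fin n) K) B
        (MvPolynomial.X i - MvPolynomial.C (pointCoord (n := n) φ i))) ⊔ RingHom.ker φ ^ 2 := by
  set I := Ideal.span (Set.range fun i => algebraMap (MvPolynomial (Fin n) K) B
        (MvPolynomial.X i - MvPolynomial.C (pointCoord (n := n) φ i)))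
  intro b hb
  have hI : I ≤ RingHom.ker φ := by
    rw [Ideal.span_le]
    rintro _ ⟨i, rfl⟩
    simp [RingHom.mem_ker, pointCoord, point_algebraMap_C]
  let π := Ideal.Quotient.mk I
  have : Algebra.FormallyUnramified K (B ⧸ I) := by
    refine Algebra.FormallyUnramified.iff_comp_injective.mpr fun C _ _ J hJ f g hfg => ?_
    have hv : ∀ h : B ⧸ I →ₐ[K] C, ∀ p : MvPolynomial (Fin n) K,
        h (π (algebraMap _ B p)) = algebraMap K C (MvPolynomial.eval (pointCoord (n := n) φ) p) := by
      intro h p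
      induction p using MvPolynomial.induction_on with
      | C r =>
        rw [algebraMap_C_eq]
        simp [π]
      | add p q hp hq => simp [map_add, hp, hq]
      | mul_X p i hp =>
        have h0 : π (algebraMap (MvPolynomial (Fin n) K) B (MvPolynomial.X i)) =
            algebraMap K (B ⧸ I) (pointCoord (n := n) φ i) := by
          rw [IsScalarTower.algebraMap_apply K B (B ⧸ I), Ideal.Quotient.algebraMap_eq,
            ← sub_eq_zero, ← map_sub, Ideal.Quotient.eq_zero_iff_mem]
          refine Ideal.subset_span ⟨i, ?_⟩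
          simp [algebraMap_C_eq]
        simp only [map_mul, hp, h0, AlgHom.commutes, MvPolynomial.eval_X]
    algebraize [(algebraMap K C).comp (MvPolynomial.eval (pointCoord (n := n) φ))]
    let f' : B →ₐ[MvPolynomial (Fin n) K] C :=
      { f.toRingHom.comp π with commutes' := fun p => hv f p }
    let g' : B →ₐ[MvPolynomial (Fin n) K] C :=
      { g.toRingHom.comp π with commutes' := fun p => hv g p }
    have := Algebra.FormallyUnramified.comp_injective (R := MvPolynomial (Fin n) K) (A := B) J hJ
      (a₁ := f') (a₂ := g') (AlgHom.ext fun x => AlgHom.congr_fun hfg (π x))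
    refine AlgHom.ext fun x => ?_
    obtain ⟨x, rfl⟩ := Ideal.Quotient.mk_surjective x
    exact AlgHom.congr_fun this x
  have : Algebra.FiniteType K B :=
    Algebra.FiniteType.trans (inferInstance : Algebra.FiniteType K (MvPolynomial (Fin n) K))
      (inferInstance : Algebra.FiniteType (MvPolynomial (Fin n) K) B)
  have : Algebra.FiniteType K (B ⧸ I) :=
    Algebra.FiniteType.of_surjective (Ideal.Quotient.mkₐ K I) Ideal.Quotient.mk_surjective
  have hred : IsReduced (B ⧸ I) := Algebra.FormallyUnramified.isReduced_of_field K (B ⧸ I)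
  have hfin : Module.Finite K (B ⧸ I) := Algebra.FormallyUnramified.finite_of_free K (B ⧸ I)
  have : IsArtinianRing (B ⧸ I) := IsArtinianRing.of_finite K (B ⧸ I)
  have hb' : π b ∈ ((RingHom.ker φ).map π) ^ 2 := by
    have hmem : π b ∈ (RingHom.ker φ).map π := Ideal.mem_map_of_mem π hb
    have hidem : IsIdempotentElem ((RingHom.ker φ).map π) := by
      obtain ⟨k, hk⟩ := IsArtinian.monotone_stabilizes
        (⟨fun j : ℕ => OrderDual.toDual ((RingHom.ker φ).map π ^ j),
          fun a b hab => Ideal.pow_le_pow_right hab⟩ : ℕ →o (Ideal (B ⧸ I))ᵒᵈ)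
      let e := IsArtinianRing.equivPi (B ⧸ I)
      classical
      refine le_antisymm Ideal.mul_le_right fun x hx => ?_
      obtain ⟨u, hu⟩ : ∃ u : B ⧸ I, x = x * (x * u) := by
        let y := e x
        refine ⟨e.symm fun m =>
          letI := Ideal.Quotient.field m.asIdeal; (y m)⁻¹, e.injective ?_⟩
        rw [map_mul, map_mul, AlgEquiv.apply_symm_apply]
        funext m
        let _ := Ideal.Quotient.field m.asIdeal
        show y m = y m * (y m * (y m)⁻¹)
        rcases eq_or_ne (y m) 0 with h | h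
        · rw [h, zero_mul]
        · rw [mul_inv_cancel₀ h, mul_one]
      rw [hu]
      exact Ideal.mul_mem_mul hx (Ideal.mul_mem_right _ _ hx)
    rw [pow_two, hidem.eq]
    exact hmem
  rw [← Ideal.map_pow, ← Ideal.mem_comap,
    Ideal.comap_map_of_surjective π Ideal.Quotient.mk_surjective,
    ← RingHom.ker_eq_comap_bot, Ideal.mk_ker, sup_comm] at hb'
  exact hb'

theorem algebraMap_dense (k : ℕ) (b : B) :
    ∃ p : MvPolynomial (Fin n) K, b - algebraMap _ B p ∈ RingHom.ker φ ^ k := by
  set I := Ideal.span (Set.range fun i => algebraMap (MvPolynomial (Fin n) K) B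
        (MvPolynomial.X i - MvPolynomial.C (pointCoord (n := n) φ i)))
  have hI : I ≤ RingHom.ker φ := by
    rw [Ideal.span_le]
    rintro _ ⟨i, rfl⟩
    simp [RingHom.mem_ker, pointCoord, point_algebraMap_C]
  have hM : ∀ j, RingHom.ker φ ≤ I ⊔ RingHom.ker φ ^ (j + 1) := by
    intro j
    induction j with
    | zero => simp
    | succ j ih =>
      refine (ker_le_coordIdeal_sup_sq (n := n) φ).trans (sup_le le_sup_left ?_)
      rw [pow_two]
      refine (Ideal.mul_mono ih le_rfl).trans ?_
      rw [Ideal.sup_mul, ← pow_succ]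
      exact sup_le (Ideal.mul_le_left.trans le_sup_left) le_sup_right
  induction k generalizing b with
  | zero => exact ⟨0, by simp⟩
  | succ k ih =>
    have hb : b - algebraMap K B (φ b) ∈ RingHom.ker φ := by simp [RingHom.mem_ker]
    obtain ⟨i, hi, w, hw, hiw⟩ := Submodule.mem_sup.mp (hM k hb)
    obtain ⟨l, hl⟩ := (Submodule.mem_span_range_iff_exists_fun _).mp hi
    choose p hp using fun i => ih (l i)
    refine ⟨MvPolynomial.C (φ b) +
      ∑ i, p i * (MvPolynomial.X i - MvPolynomial.C (pointCoord (n := n) φ i)), ?_⟩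
    have hC : algebraMap (MvPolynomial (Fin n) K) B (MvPolynomial.C (φ b)) =
        algebraMap K B (φ b) := algebraMap_C_eq _
    rw [map_add, hC, sub_add_eq_sub_sub, ← hiw, add_comm i w, ← hl, add_sub_assoc, map_sum,
      ← Finset.sum_sub_distrib]
    refine add_mem hw (sum_mem fun i _ => ?_)
    rw [map_mul, smul_eq_mul, ← sub_mul, pow_succ]
    exact Ideal.mul_mem_mul (hp i) (hI (Ideal.subset_span ⟨i, rfl⟩))

omit hEt in
/-- The power series ring as an algebra over polynomials by Taylor expansion at a point. -/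
def TaylorRing (_φ : B →ₐ[K] K) : Type _ := MvPowerSeries (Fin n) K

instance : CommRing (TaylorRing (n := n) φ) := inferInstanceAs (CommRing (MvPowerSeries (Fin n) K))

instance : IsLocalRing (TaylorRing (n := n) φ) :=
  inferInstanceAs (IsLocalRing (MvPowerSeries (Fin n) K))

instance : IsAdicComplete (IsLocalRing.maximalIdeal (TaylorRing (n := n) φ))
    (TaylorRing (n := n) φ) :=
  isAdicComplete_maximalIdeal n

instance : Algebra (MvPolynomial (Fin n) K) (TaylorRing (n := n) φ) :=
  RingHom.toAlgebra (S := TaylorRing (n := n) φ) (shiftHom (n := n) φ).toRingHom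

/-- Taylor expansion on an étale algebra over affine space at a rational point. -/
theorem exists_expansion :
    ∃ ψ : B →+* MvPowerSeries (Fin n) K, (∀ b, constantCoeff (ψ b) = φ b) ∧
      (∀ k b, ψ b ∈ IsLocalRing.maximalIdeal (MvPowerSeries (Fin n) K) ^ k ↔
        b ∈ RingHom.ker φ ^ k) ∧
      ∀ k s, ∃ b, s - ψ b ∈ IsLocalRing.maximalIdeal (MvPowerSeries (Fin n) K) ^ k := by
  let S := TaylorRing (n := n) φ
  let I : Ideal S := IsLocalRing.maximalIdeal S
  let f0 : B →ₐ[MvPolynomial (Fin n) K] S ⧸ I :=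
    { (((Ideal.Quotient.mk I).comp (MvPowerSeries.C (σ := Fin n) (R := K))).comp φ.toRingHom) with
      commutes' := fun p => by
        show Ideal.Quotient.mk I (MvPowerSeries.C (φ (algebraMap _ B p))) = _
        rw [← constantCoeff_shiftHom]
        refine (Ideal.Quotient.mk_eq_mk_iff_sub_mem _ _).mpr ?_
        show _ ∈ IsLocalRing.maximalIdeal S
        rw [IsLocalRing.mem_maximalIdeal, mem_nonunits_iff]
        have h0 : ¬IsUnit (constantCoeff (MvPowerSeries.C (constantCoeff (shiftHom (n := n) φ p)) -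
            shiftHom (n := n) φ p)) := by
          rw [map_sub, constantCoeff_C, sub_self]
          exact not_isUnit_zero
        exact fun hu => h0 (isUnit_iff_constantCoeff.mp hu) }
  obtain ⟨g₀, hg⟩ := Algebra.FormallySmooth.exists_mkₐ_comp_eq_of_isAdicComplete f0
  let g : B →+* MvPowerSeries (Fin n) K := g₀.toRingHom
  have hc : ∀ b, constantCoeff (g b) = φ b := fun b => by
    have h : Ideal.Quotient.mk I (g₀ b) = Ideal.Quotient.mk I (MvPowerSeries.C (φ b)) :=
      AlgHom.congr_fun hg b
    rw [Ideal.Quotient.mk_eq_mk_iff_sub_mem] at h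
    replace h : g b - MvPowerSeries.C (φ b) ∈
        IsLocalRing.maximalIdeal (MvPowerSeries (Fin n) K) := h
    rw [IsLocalRing.mem_maximalIdeal, mem_nonunits_iff, isUnit_iff_constantCoeff,
      isUnit_iff_ne_zero, not_not, map_sub, constantCoeff_C, sub_eq_zero] at h
    exact h
  have hle : (RingHom.ker φ).map g ≤ IsLocalRing.maximalIdeal (MvPowerSeries (Fin n) K) := by
    rw [Ideal.map_le_iff_le_comap]
    intro b hb
    rw [Ideal.mem_comap, IsLocalRing.mem_maximalIdeal, mem_nonunits_iff, isUnit_iff_constantCoeff,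
      hc, show φ b = 0 from hb]
    exact not_isUnit_zero
  have hpow : ∀ k b, b ∈ RingHom.ker φ ^ k →
      g b ∈ IsLocalRing.maximalIdeal (MvPowerSeries (Fin n) K) ^ k := fun k b hb =>
    Ideal.pow_right_mono hle k (by rw [← Ideal.map_pow]; exact Ideal.mem_map_of_mem _ hb)
  have hgp : ∀ p, g (algebraMap _ B p) = shiftHom (n := n) φ p := fun p => g₀.commutes p
  refine ⟨g, hc, fun k b => ⟨fun hb => ?_, hpow k b⟩, fun k s => ?_⟩
  · obtain ⟨p, hp⟩ := algebraMap_dense (n := n) φ k b
    have h1 : shiftHom (n := n) φ p ∈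
        IsLocalRing.maximalIdeal (MvPowerSeries (Fin n) K) ^ k := by
      rw [← hgp, show algebraMap _ B p = b - (b - algebraMap _ B p) by ring, map_sub]
      exact sub_mem hb (hpow k _ hp)
    rw [show b = (b - algebraMap _ B p) + algebraMap _ B p by ring]
    exact add_mem hp (shiftHom_mem_pow φ k h1)
  · obtain ⟨p, hp⟩ := shiftHom_dense (n := n) φ k s
    exact ⟨algebraMap _ B p, by
      show s - g _ ∈ _
      rw [hgp]; exact hp⟩

include hEt in
/-- The local ring at a rational point is a factorial domain. -/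
theorem isDomain_and_ufm_localization [Infinite K] [IsNoetherianRing B]
    (R : Type*) [CommRing R] [Algebra B R]
    (hM : (RingHom.ker φ).IsPrime) [IsLocalization.AtPrime R (RingHom.ker φ)] :
    IsDomain R ∧ UniqueFactorizationMonoid R := by
  obtain ⟨ψ, hc, hmem, hdense⟩ := exists_expansion (n := n) φ
  have hunit : ∀ s : (RingHom.ker φ).primeCompl, IsUnit (ψ s) := fun s => by
    rw [isUnit_iff_constantCoeff, hc, isUnit_iff_ne_zero]
    exact s.2
  let ψR : R →+* MvPowerSeries (Fin n) K := IsLocalization.lift hunit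
  have hR : IsLocalRing R := IsLocalization.AtPrime.isLocalRing R (RingHom.ker φ)
  have : IsNoetherianRing R := IsLocalization.isNoetherianRing (RingHom.ker φ).primeCompl R
    inferInstance
  set m := IsLocalRing.maximalIdeal R
  have hm : (RingHom.ker φ).map (algebraMap B R) = m :=
    IsLocalization.AtPrime.map_eq_maximalIdeal (RingHom.ker φ) R
  have hcomap : ∀ (k : ℕ) (r : R),
      ψR r ∈ IsLocalRing.maximalIdeal (MvPowerSeries (Fin n) K) ^ k → r ∈ m ^ k := by
    intro k r hr
    obtain ⟨⟨b, s⟩, rfl⟩ := IsLocalization.mk'_surjective (RingHom.ker φ).primeCompl r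
    rw [← hm, ← Ideal.map_pow, IsLocalization.mk'_mem_iff]
    refine Ideal.mem_map_of_mem _ ((hmem k b).mp ?_)
    have := Ideal.mul_mem_right (ψ s) _ hr
    rwa [← IsLocalization.lift_eq (S := R) (g := ψ) hunit, ← map_mul, IsLocalization.mk'_spec,
      IsLocalization.lift_eq] at this
  have hinj : Function.Injective ψR := by
    rw [injective_iff_map_eq_zero]
    intro r hr
    rw [← Ideal.mem_bot, ← Ideal.iInf_pow_eq_bot_of_isLocalRing m
      (IsLocalRing.maximalIdeal.isMaximal R).ne_top, Submodule.mem_iInf]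
    exact fun k => hcomap k r (by rw [hr]; exact zero_mem _)
  have : IsDomain (MvPowerSeries (Fin n) K) := NoZeroDivisors.to_isDomain _
  have hdom : IsDomain R := hinj.isDomain ψR
  have := mvPowerSeries_ufm (K := K) n
  refine ⟨hdom, ufm_of_dense ψR hinj hcomap (fun r hr => ?_) fun k s => ?_⟩
  · replace hr : r ∈ (RingHom.ker φ).map (algebraMap B R) := by rw [hm]; exact hr
    have : (RingHom.ker φ).map ψ ≤ IsLocalRing.maximalIdeal (MvPowerSeries (Fin n) K) := by
      rw [Ideal.map_le_iff_le_comap]
      intro b hb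
      simpa using (hmem 1 b).mpr (by simpa using hb)
    have h := Ideal.mem_map_of_mem ψR hr
    rw [Ideal.map_map, IsLocalization.lift_comp] at h
    exact this h
  · obtain ⟨b, hb⟩ := hdense k s
    exact ⟨algebraMap B R b, by rwa [IsLocalization.lift_eq]⟩

end Etale

end Fermat.Agent.AV
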