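import Fermat.Agent.AV.Points
import Fermat.Agent.AV.LocalUFD
import Mathlib.AlgebraicGeometry.AlgClosed.Basic
import Mathlib.AlgebraicGeometry.Noetherian
import Mathlib.RingTheory.RingHom.StandardSmooth
import Mathlib.FieldTheory.IsAlgClosed.Basic

/-!
# Geometry of an abelian scheme over an algebraically closed field

Étale coordinate charts, rational points at closed points, factorial local rings, integrality.
-/

set_option autoImplicit false

noncomputable section

universe u

open CategoryTheory CategoryTheory.Limits AlgebraicGeometry NeronModelInfra GoodReductionJacobian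
  TopologicalSpace

namespace Fermat.Agent.AV

variable {K : Type u} [Field K] (X : AbVar K)

theorem jacobsonSpace_carrier : JacobsonSpace X.carrier :=
  LocallyOfFiniteType.jacobsonSpace X.str

theorem compactSpace_carrier : CompactSpace X.carrier := by
  have : CompactSpace (Spec (CommRingCat.of K)) := inferInstance
  exact QuasiCompact.compactSpace_of_compactSpace X.str

theorem isLocallyNoetherian_carrier : IsLocallyNoetherian X.carrier :=
  LocallyOfFiniteType.isLocallyNoetherian X.str

instance finiteType_sections (U : Chart X) : Algebra.FiniteType K Γ(X.carrier, U.1) := by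
  have h := LocallyOfFiniteType.finiteType_appLE X.str (isAffineOpen_top _) U.2
    (e := le_top (a := U.1))
  rw [← RingHom.finiteType_algebraMap]
  exact h.comp (RingHom.FiniteType.of_surjective _
    (Scheme.ΓSpecIso (CommRingCat.of K)).symm.commRingCatIsoToRingEquiv.surjective)

instance isNoetherianRing_sections (U : Chart X) : IsNoetherianRing Γ(X.carrier, U.1) :=
  Algebra.FiniteType.isNoetherianRing K _

/-- Every point lies in a chart étale over affine space. -/
theorem exists_etale_chart (x : X.carrier) :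
    ∃ U : Chart X, x ∈ U.1 ∧
      ∃ g : MvPolynomial (Fin X.dim) K →ₐ[K] Γ(X.carrier, U.1), g.Etale := by
  obtain ⟨W, hW, V, hV, hx, e, hf⟩ :=
    SmoothOfRelativeDimension.exists_isStandardSmoothOfRelativeDimension
      (n := X.dim) (f := X.str) x
  obtain rfl : W = ⊤ := by
    refine top_unique fun p _ => ?_
    rw [Subsingleton.elim p (X.str x)]
    exact e hx
  have h : (algebraMap K Γ(X.carrier, V)).IsStandardSmoothOfRelativeDimension X.dim :=
    RingHom.isStandardSmoothOfRelativeDimension_respectsIso.2 (X.str.appLE ⊤ V e).hom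
      (Scheme.ΓSpecIso (CommRingCat.of K)).symm.commRingCatIsoToRingEquiv hf
  have : Algebra.IsStandardSmoothOfRelativeDimension X.dim K Γ(X.carrier, V) :=
    (RingHom.isStandardSmoothOfRelativeDimension_algebraMap (n := X.dim)).mp h
  exact ⟨⟨V, hV⟩, hx,
    Algebra.IsStandardSmoothOfRelativeDimension.exists_etale_mvPolynomial X.dim K _⟩

variable {X}

/-- The image in a chart of the point given by an evaluation. -/
theorem pos_ofEval {F : Type u} [Field F] [Algebra K F] (U : Chart X)
    (φ : Γ(X.carrier, U.1) →ₐ[K] F) :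
    (Pt.ofEval U φ).pos = U.2.fromSpec ⟨RingHom.ker φ.toRingHom, RingHom.ker_isPrime _⟩ := by
  show (Spec.map (CommRingCat.ofHom φ.toRingHom) ≫ U.2.fromSpec) _ = _
  rw [Scheme.Hom.comp_apply]
  congr 1
  refine PrimeSpectrum.ext ?_
  show Ideal.comap φ.toRingHom (IsLocalRing.maximalIdeal F) = _
  rw [IsLocalRing.maximalIdeal_eq_bot, ← RingHom.ker_eq_comap_bot]

theorem primeIdealOf_pos {F : Type u} [Field F] [Algebra K F] (x : Pt X F) (U : Chart X)
    (h : x.Mem U.1) :
    (U.2.primeIdealOf ⟨x.pos, (Pt.mem_iff_pos x U.1).mp h⟩).asIdeal =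
      RingHom.ker (x.eval U h).toRingHom := by
  have h1 := U.2.fromSpec_primeIdealOf ⟨x.pos, (Pt.mem_iff_pos x U.1).mp h⟩
  have h2 := pos_ofEval U (x.eval U h)
  rw [Pt.ofEval_eval] at h2
  exact congrArg PrimeSpectrum.asIdeal
    (U.2.fromSpec.isOpenEmbedding.injective (h1.trans h2))

variable [IsAlgClosed K]

theorem specStr_self : specStr K K = 𝟙 (Spec (CommRingCat.of K)) := by
  rw [specStr, Algebra.algebraMap_self, CommRingCat.ofHom_id, Spec.map_id]

/-- Every closed point is rational. -/
theorem exists_point_of_isClosed {x : X.carrier} (hx : IsClosed ({x} : Set X.carrier)) :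
    ∃ p : Pt X K, p.pos = x :=
  ⟨Pt.mk' (pointOfClosedPoint X.str x hx)
      (by rw [pointOfClosedPoint_comp, specStr_self]),
    pointOfClosedPoint_apply X.str x hx _⟩

theorem exists_isClosed_specializes (x : X.carrier) :
    ∃ y : X.carrier, IsClosed ({y} : Set X.carrier) ∧ x ⤳ y := by
  have := compactSpace_carrier X
  obtain ⟨y, hy, hyc⟩ := (isClosed_closure (s := {x})).exists_closed_singleton
    ⟨x, subset_closure rfl⟩
  exact ⟨y, hyc, specializes_iff_mem_closure.mpr hy⟩

/-- Local rings at closed points are factorial domains. -/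
theorem isDomain_and_ufm_stalk {y : X.carrier} (hy : IsClosed ({y} : Set X.carrier)) :
    IsDomain (X.carrier.presheaf.stalk y) ∧
      UniqueFactorizationMonoid (X.carrier.presheaf.stalk y) := by
  obtain ⟨U, hyU, g, hg⟩ := exists_etale_chart X y
  obtain ⟨p, rfl⟩ := exists_point_of_isClosed hy
  have hmem : p.Mem U.1 := (Pt.mem_iff_pos p U.1).mpr hyU
  let φ := p.eval U hmem
  letI := g.toRingHom.toAlgebra
  have : IsScalarTower K (MvPolynomial (Fin X.dim) K) Γ(X.carrier, U.1) :=
    IsScalarTower.of_algebraMap_eq fun r => (g.commutes r).symm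
  have : Algebra.Etale (MvPolynomial (Fin X.dim) K) Γ(X.carrier, U.1) := hg
  letI := TopCat.Presheaf.algebra_section_stalk X.carrier.presheaf (⟨p.pos, hyU⟩ : U.1)
  have : IsLocalization.AtPrime (X.carrier.presheaf.stalk p.pos)
      (U.2.primeIdealOf ⟨p.pos, hyU⟩).asIdeal := U.2.isLocalization_stalk ⟨p.pos, hyU⟩
  have hprime : (RingHom.ker φ).IsPrime := RingHom.ker_isPrime φ
  have hker : (U.2.primeIdealOf ⟨p.pos, hyU⟩).asIdeal = RingHom.ker φ := primeIdealOf_pos p U hmem
  have : IsLocalization.AtPrime (X.carrier.presheaf.stalk p.pos) (RingHom.ker φ) := by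
    simp only [IsLocalization.AtPrime, ← hker]
    exact U.2.isLocalization_stalk ⟨p.pos, hyU⟩
  exact isDomain_and_ufm_localization (n := X.dim) φ _ hprime

/-- A generisation in a chart corresponds to a smaller prime. -/
theorem primeIdealOf_le {U : Chart X} {x y : X.carrier} (hx : x ∈ U.1) (hy : y ∈ U.1)
    (hxy : x ⤳ y) :
    (U.2.primeIdealOf ⟨x, hx⟩).asIdeal ≤ (U.2.primeIdealOf ⟨y, hy⟩).asIdeal := by
  have h : U.2.fromSpec (U.2.primeIdealOf ⟨x, hx⟩) ⤳ U.2.fromSpec (U.2.primeIdealOf ⟨y, hy⟩) := by
    rw [U.2.fromSpec_primeIdealOf, U.2.fromSpec_primeIdealOf]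
    exact hxy
  exact (PrimeSpectrum.le_iff_specializes _ _).mpr
    (U.2.fromSpec.isOpenEmbedding.isInducing.specializes_iff.mp h)

theorem isReduced_carrier : AlgebraicGeometry.IsReduced X.carrier := by
  have : ∀ x : X.carrier, _root_.IsReduced (X.carrier.presheaf.stalk x) := by
    intro x
    obtain ⟨y, hy, hxy⟩ := exists_isClosed_specializes x
    obtain ⟨U, hyU⟩ : ∃ U : Chart X, y ∈ U.1 := by
      obtain ⟨U, hU, -⟩ := exists_etale_chart X y
      exact ⟨U, hU⟩
    have hxU : x ∈ U.1 := hxy.mem_open U.1.isOpen hyU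
    have hle := primeIdealOf_le hxU hyU hxy
    letI := TopCat.Presheaf.algebra_section_stalk X.carrier.presheaf (⟨x, hxU⟩ : U.1)
    letI := TopCat.Presheaf.algebra_section_stalk X.carrier.presheaf (⟨y, hyU⟩ : U.1)
    have := U.2.isLocalization_stalk ⟨x, hxU⟩
    have := U.2.isLocalization_stalk ⟨y, hyU⟩
    have hdom := (isDomain_and_ufm_stalk hy).1
    set px := (U.2.primeIdealOf ⟨x, hxU⟩).asIdeal
    set py := (U.2.primeIdealOf ⟨y, hyU⟩).asIdeal
    refine ⟨fun a ⟨n, hn⟩ => ?_⟩
    obtain ⟨⟨b, s⟩, rfl⟩ := IsLocalization.mk'_surjective px.primeCompl a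
    rw [← IsLocalization.mk'_pow, IsLocalization.mk'_eq_zero_iff] at hn
    obtain ⟨t, ht⟩ := hn
    have h0 : algebraMap _ (X.carrier.presheaf.stalk y) ((t : Γ(X.carrier, U.1)) * b) = 0 := by
      rcases Nat.eq_zero_or_pos n with rfl | hpos
      · simp only [pow_zero, mul_one] at ht
        simp [ht]
      · refine (pow_eq_zero_iff hpos.ne').mp ?_
        rw [← map_pow, mul_pow,
          show (t : Γ(X.carrier, U.1)) ^ n * b ^ n = (t : Γ(X.carrier, U.1)) ^ (n - 1) *
            ((t : Γ(X.carrier, U.1)) * b ^ n) by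
            rw [← mul_assoc, ← pow_succ, Nat.sub_add_cancel hpos], ht, mul_zero, map_zero]
    rw [IsLocalization.map_eq_zero_iff py.primeCompl] at h0
    obtain ⟨v, hv⟩ := h0
    rw [IsLocalization.mk'_eq_zero_iff]
    refine ⟨⟨v.1 * t.1, fun h => ?_⟩, by simpa [mul_assoc] using hv⟩
    rcases (U.2.primeIdealOf ⟨x, hxU⟩).isPrime.mem_or_mem h with h | h
    · exact v.2 (hle h)
    · exact t.2 h
  exact isReduced_of_isReduced_stalk _

/-- All generisations of a closed point are specialisations of a single one. -/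
theorem exists_generic_generisation {y : X.carrier} (hy : IsClosed ({y} : Set X.carrier)) :
    ∃ x₀ : X.carrier, ∀ x : X.carrier, x ⤳ y → x₀ ⤳ x := by
  obtain ⟨U, hyU, -⟩ := exists_etale_chart X y
  letI := TopCat.Presheaf.algebra_section_stalk X.carrier.presheaf (⟨y, hyU⟩ : U.1)
  have := U.2.isLocalization_stalk ⟨y, hyU⟩
  have := (isDomain_and_ufm_stalk hy).1
  set py := (U.2.primeIdealOf ⟨y, hyU⟩).asIdeal
  set π := algebraMap Γ(X.carrier, U.1) (X.carrier.presheaf.stalk y)
  refine ⟨U.2.fromSpec ⟨RingHom.ker π, RingHom.ker_isPrime π⟩, fun x hxy => ?_⟩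
  have hxU : x ∈ U.1 := hxy.mem_open U.1.isOpen hyU
  suffices hle : RingHom.ker π ≤ (U.2.primeIdealOf ⟨x, hxU⟩).asIdeal by
    have h := Specializes.map ((PrimeSpectrum.le_iff_specializes
      ⟨RingHom.ker π, RingHom.ker_isPrime π⟩ (U.2.primeIdealOf ⟨x, hxU⟩)).mp hle)
      U.2.fromSpec.continuous
    have e : U.2.fromSpec (U.2.primeIdealOf ⟨x, hxU⟩) = x := U.2.fromSpec_primeIdealOf ⟨x, hxU⟩
    exact h.trans (specializes_of_eq e)
  intro b hb
  rw [RingHom.mem_ker, IsLocalization.map_eq_zero_iff py.primeCompl] at hb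
  obtain ⟨v, hv⟩ := hb
  have hv' : (v : Γ(X.carrier, U.1)) * b ∈ (U.2.primeIdealOf ⟨x, hxU⟩).asIdeal := by
    rw [hv]; exact zero_mem _
  exact ((U.2.primeIdealOf ⟨x, hxU⟩).isPrime.mem_or_mem hv').resolve_left
    fun h => v.2 (primeIdealOf_le hxU hyU hxy h)

theorem irreducibleSpace_carrier : IrreducibleSpace X.carrier := by
  classical
  have hc := compactSpace_carrier X
  have hlN := isLocallyNoetherian_carrier X
  have hN : AlgebraicGeometry.IsNoetherian X.carrier := ⟨⟩
  have hconn : ConnectedSpace X.carrier := by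
    have h := X.bundle.connectedFibres (IsLocalRing.closedPoint K)
    have hu : X.str.base ⁻¹' {IsLocalRing.closedPoint K} = Set.univ := by
      ext p
      simp only [Set.mem_preimage, Set.mem_singleton_iff, Set.mem_univ, iff_true]
      exact Subsingleton.elim _ _
    refine connectedSpace_iff_univ.mpr ?_
    convert h using 1
    exact hu.symm
  have hfin : (irreducibleComponents X.carrier).Finite :=
    AlgebraicGeometry.finite_irreducibleComponents_of_isNoetherian
  have hne : Nonempty X.carrier := ⟨(0 : Pt X K).pos⟩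
  obtain ⟨x⟩ := hne
  set C := irreducibleComponent x
  have hC : C ∈ irreducibleComponents X.carrier := irreducibleComponent_mem_irreducibleComponents x
  have hdisj : ∀ D ∈ irreducibleComponents X.carrier, D ≠ C → Disjoint C D := by
    intro D hD hne
    rw [Set.disjoint_iff]
    rintro z ⟨hzC, hzD⟩
    obtain ⟨y, hy, hzy⟩ := exists_isClosed_specializes z
    obtain ⟨x₀, hx₀⟩ := exists_generic_generisation hy
    have key : ∀ E ∈ irreducibleComponents X.carrier, z ∈ E → E = closure {x₀} := by
      intro E hE hz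
      have hEc := isClosed_of_mem_irreducibleComponents E hE
      obtain ⟨e, he⟩ := QuasiSober.sober hE.1 hEc
      have hey : e ⤳ y := (he.specializes hz).trans hzy
      refine (hE.2 isIrreducible_singleton.closure ?_).antisymm' ?_
      · rw [← he.def]
        exact closure_minimal (Set.singleton_subset_iff.mpr
          (specializes_iff_mem_closure.mp (hx₀ e hey))) isClosed_closure
      · rw [← he.def]
        exact closure_minimal (Set.singleton_subset_iff.mpr
          (specializes_iff_mem_closure.mp (hx₀ e hey))) isClosed_closure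
    exact hne ((key D hD hzD).trans (key C hC hzC).symm)
  have hopen : IsOpen C := by
    have hcompl : Cᶜ = ⋃ D ∈ irreducibleComponents X.carrier \ {C}, D := by
      ext z
      simp only [Set.mem_compl_iff, Set.mem_iUnion, exists_prop]
      refine ⟨fun hz => ?_, fun ⟨D, ⟨hD, hDC⟩, hzD⟩ hzC => Set.disjoint_iff.mp
        (hdisj D hD hDC) ⟨hzC, hzD⟩⟩
      refine ⟨irreducibleComponent z, ⟨irreducibleComponent_mem_irreducibleComponents z,
        fun e => hz ?_⟩, mem_irreducibleComponent⟩
      rw [← (e : irreducibleComponent z = C)]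
      exact mem_irreducibleComponent
    rw [← isClosed_compl_iff, hcompl]
    exact (hfin.subset Set.sdiff_subset).isClosed_biUnion
      fun D hD => isClosed_of_mem_irreducibleComponents D hD.1
  have huniv : C = Set.univ :=
    IsClopen.eq_univ ⟨isClosed_of_mem_irreducibleComponents C hC, hopen⟩
      ⟨x, mem_irreducibleComponent⟩
  have : PreirreducibleSpace X.carrier := ⟨huniv ▸ hC.1.2⟩
  exact ⟨⟨x⟩⟩

instance isIntegral_carrier : IsIntegral X.carrier := by
  have := isReduced_carrier (X := X)
  have := irreducibleSpace_carrier (X := X)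
  exact isIntegral_of_irreducibleSpace_of_isReduced _

end Fermat.Agent.AV
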