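import Fermat.Agent.AV.Specialize
import Fermat.Agent.AV.FunctionField
import Fermat.Agent.AV.Red.Space

/-!
# Cocycles and heights of points over function fields

A unit cocycle on the scheme pulls back along a point over a function field to a divisor class;
its degree is the height of the point.
-/

set_option autoImplicit false
set_option linter.unusedSectionVars false

noncomputable section

universe u

open CategoryTheory AlgebraicGeometry AlgebraicCurve Fermat.Agent.FF Fermat.Agent.FF.ConstExt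

namespace Fermat.Agent.AV

variable {K : Type u} [Field K] {X : AbVar K}

theorem Pt.eval_congr {R : Type u} [CommRing R] [Algebra K R] (x : Pt X R) (U : Chart X)
    (h h' : x.Mem U.1) : x.eval U h = x.eval U h' := rfl

/-- A cocycle of units for an affine cover. -/
structure Cocycle (X : AbVar K) where
  n : ℕ
  V : Fin n → Chart X
  cover : ∀ p : X.carrier, ∃ i, p ∈ (V i).1
  g : ∀ i j, Γ(X.carrier, (Chart.meet (V i) (V j)).1)
  g_unit : ∀ i j, IsUnit (g i j)
  coc : ∀ i j k,
    resAlg (show (Chart.meet (Chart.meet (V i) (V j)) (V k)).1 ≤ (Chart.meet (V i) (V j)).1 from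
        inf_le_left) (g i j) *
      resAlg (show (Chart.meet (Chart.meet (V i) (V j)) (V k)).1 ≤ (Chart.meet (V j) (V k)).1 from
        fun _ hz => ⟨hz.1.2, hz.2⟩) (g j k) =
      resAlg (show (Chart.meet (Chart.meet (V i) (V j)) (V k)).1 ≤ (Chart.meet (V i) (V k)).1 from
        fun _ hz => ⟨hz.1.1, hz.2⟩) (g i k)

namespace Cocycle

variable (c : Cocycle X) {F : Type u} [Field F] [Algebra K F]

theorem exists_mem (x : Pt X F) : ∃ i, x.Mem (c.V i).1 := by
  obtain ⟨i, hi⟩ := c.cover x.pos
  exact ⟨i, (Pt.mem_iff_pos x _).mpr hi⟩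

/-- A chosen index of a point. -/
def idx (x : Pt X F) : Fin c.n := (c.exists_mem x).choose

theorem mem_idx (x : Pt X F) : x.Mem (c.V (c.idx x)).1 := (c.exists_mem x).choose_spec

open scoped Classical in
/-- The transition function at a point. -/
def ev (x : Pt X F) (i j : Fin c.n) : F :=
  if h : x.Mem (Chart.meet (c.V i) (c.V j)).1 then x.eval _ h (c.g i j) else 1

theorem ev_eq (x : Pt X F) {i j : Fin c.n} (hi : x.Mem (c.V i).1) (hj : x.Mem (c.V j).1) :
    c.ev x i j = x.eval (Chart.meet (c.V i) (c.V j)) (hi.inf hj) (c.g i j) :=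
  dif_pos (hi.inf hj)

theorem ev_ne_zero (x : Pt X F) (i j : Fin c.n) : c.ev x i j ≠ 0 := by
  rw [ev]
  split
  · exact ((c.g_unit i j).map (x.eval _ _)).ne_zero
  · exact one_ne_zero

theorem ev_mul (x : Pt X F) {i j k : Fin c.n} (hi : x.Mem (c.V i).1) (hj : x.Mem (c.V j).1)
    (hk : x.Mem (c.V k).1) : c.ev x i j * c.ev x j k = c.ev x i k := by
  rw [c.ev_eq x hi hj, c.ev_eq x hj hk, c.ev_eq x hi hk]
  have h := congrArg (x.eval (Chart.meet (Chart.meet (c.V i) (c.V j)) (c.V k))
    ((hi.inf hj).inf hk)) (c.coc i j k)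
  rw [map_mul, ← Pt.eval_res, ← Pt.eval_res, ← Pt.eval_res] at h
  exact h

theorem ev_self (x : Pt X F) {i : Fin c.n} (hi : x.Mem (c.V i).1) : c.ev x i i = 1 :=
  mul_left_cancel₀ (c.ev_ne_zero x i i) (by rw [c.ev_mul x hi hi hi, mul_one])

theorem ev_map {F₂ : Type u} [Field F₂] [Algebra K F₂] (φ : F →ₐ[K] F₂) (x : Pt X F)
    {i j : Fin c.n} (hi : x.Mem (c.V i).1) (hj : x.Mem (c.V j).1) :
    c.ev (Pt.map φ x) i j = φ (c.ev x i j) := by
  rw [c.ev_eq x hi hj, c.ev_eq _ (hi.map φ) (hj.map φ)]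
  exact AlgHom.congr_fun (Pt.eval_map φ x _ (hi.inf hj)) _

end Cocycle

section Spec

variable {L M : Type u} [Field L] [Field M] [Algebra K L] [Algebra K M] [Algebra L M]
  [IsScalarTower K L M] (P : LPlace L M) (c : Cocycle X)

theorem Cocycle.ev_spec (x : Pt X M) {i j : Fin c.n} (hi : (P.spec x).Mem (c.V i).1)
    (hj : (P.spec x).Mem (c.V j).1) :
    ∃ h : c.ev x i j ∈ P.ring, P.value ⟨_, h⟩ = c.ev (P.spec x) i j := by
  obtain ⟨hb, e⟩ := P.eval_mem_and_value (U := Chart.meet (c.V i) (c.V j)) (hi.inf hj) (c.g i j)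
  have e' := c.ev_eq x (P.mem_of_mem_spec hi) (P.mem_of_mem_spec hj)
  refine ⟨e' ▸ hb, ?_⟩
  rw [c.ev_eq _ hi hj, ← e]
  exact congrArg P.value (Subtype.ext e')

theorem LPlace.mem_spec_of_eval_mem (x : Pt X M) (U : Chart X) (h : x.Mem U.1)
    (hint : ∀ b, x.eval U h b ∈ P.ring) : (P.spec x).Mem U.1 := by
  let χ : Γ(X.carrier, U.1) →ₐ[K] P.kring (K := K) := (x.eval U h).codRestrict _ hint
  have e : Pt.map ((P.kring (K := K)).val.comp χ) (Pt.ofEval U (AlgHom.id K _)) = x := by
    rw [Pt.map_ofEval, AlgHom.comp_id,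
      show (P.kring (K := K)).val.comp χ = x.eval U h from AlgHom.ext fun _ => rfl, Pt.ofEval_eval]
  rw [P.spec_eq _ χ e, Pt.map_ofEval]
  exact Pt.mem_ofEval U _

end Spec

section Height

variable {L F : Type u} [Field L] [Field F] [Algebra L F] [Algebra K L] [Algebra K F]
  [IsScalarTower K L F] [IsFunctionField L F] [IsAlgClosed L]

/-- A place of a function field as a place with values in the constants. -/
def toLP (P : Place L F) : LPlace L F where
  ring := P.toValuationSubring
  algebraMap_mem := P.algebraMap_mem'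
  value := (evalAt P).toRingHom
  value_algebraMap c := evalAt_algebraMap P c _
  isLocalHom _ hz := (evalAt_ne_zero_iff P _).mp hz

theorem toLP_value (P : Place L F) (z : P.toValuationSubring) : (toLP P).value z = evalAt P z := rfl

theorem ord_eq_zero_of_evalAt_ne_zero (P : Place L F) {z : F} (hz : z ∈ P.toValuationSubring)
    (h : evalAt P ⟨z, hz⟩ ≠ 0) : P.ord z = 0 := by
  have h1 : P.adicValuation ((⟨z, hz⟩ : P.toValuationSubring) : F) = 1 :=
    (P.adicValuation_coe_eq_one_iff _).mpr ((evalAt_ne_zero_iff P _).mp h)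
  show -(WithZero.log (P.adicValuation z)) = 0
  rw [show P.adicValuation z = 1 from h1, WithZero.log_one, neg_zero]

variable (c : Cocycle X) (x : Pt X F)

theorem ord_ev_eq_zero (P : Place L F) {i j : Fin c.n}
    (hi : ((toLP P).spec x).Mem (c.V i).1) (hj : ((toLP P).spec x).Mem (c.V j).1) :
    P.ord (c.ev x i j) = 0 := by
  obtain ⟨h, e⟩ := c.ev_spec (toLP P) x hi hj
  exact ord_eq_zero_of_evalAt_ne_zero P h (e.symm ▸ c.ev_ne_zero _ i j)

/-- Order of the trivialisation `i` at a place. -/
def ordG (i : Fin c.n) (P : Place L F) : ℤ :=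
  P.ord (c.ev x i (c.idx ((toLP P).spec x)))

theorem ordG_eq {i : Fin c.n} (hi : x.Mem (c.V i).1) (P : Place L F) {j : Fin c.n}
    (hj : ((toLP P).spec x).Mem (c.V j).1) : ordG c x i P = P.ord (c.ev x i j) := by
  set k := c.idx ((toLP P).spec x)
  have hk := c.mem_idx ((toLP P).spec x)
  have hk' := (toLP P).mem_of_mem_spec hk
  have hj' := (toLP P).mem_of_mem_spec hj
  rw [ordG, ← c.ev_mul x hi hj' hk', P.ord_mul (c.ev_ne_zero _ _ _) (c.ev_ne_zero _ _ _),
    ord_ev_eq_zero c x P hj hk, add_zero]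

theorem finite_not_mem_spec [IsAlgClosed K] {U : Chart X} (hU : x.Mem U.1) :
    {P : Place L F | ¬ ((toLP P).spec x).Mem U.1}.Finite := by
  obtain ⟨s, hs⟩ := (finiteType_sections X U).out
  refine ((s.finite_toSet).biUnion fun b _ =>
    finite_ord_ne_zero (K := L) (x.eval U hU b)).subset fun P hP => ?_
  by_contra hne
  simp only [Set.mem_iUnion, not_exists, Set.mem_ofPred_eq] at hne
  refine hP ((toLP P).mem_spec_of_eval_mem x U hU fun b => ?_)
  have hb : b ∈ ((toLP P).kring (K := K)).comap (x.eval U hU) := by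
    refine (Algebra.adjoin_le fun b hb => ?_) (hs.symm ▸ trivial : b ∈ Algebra.adjoin K (s : Set _))
    show x.eval U hU b ∈ P.toValuationSubring
    rw [Fermat.Agent.FF.mem_iff_ord_nonneg]
    exact (not_not.mp (hne b hb)).ge
  exact hb

variable [IsAlgClosed K]

theorem finite_ordG {i : Fin c.n} (hi : x.Mem (c.V i).1) :
    {P : Place L F | ordG c x i P ≠ 0}.Finite :=
  (finite_not_mem_spec x hi).subset fun P hP hmem => hP (by
    rw [ordG_eq c x hi P hmem, c.ev_self x hi, P.ord_one])

/-- The divisor of a trivialisation containing the point. -/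
def divG (i : Fin c.n) (hi : x.Mem (c.V i).1) : Divisor L F :=
  Finsupp.ofSupportFinite (fun P => ordG c x i P)
    ((finite_ordG (L := L) c x hi).subset fun _ hP => hP)

theorem divG_apply {i : Fin c.n} (hi : x.Mem (c.V i).1) (P : Place L F) {j : Fin c.n}
    (hj : ((toLP P).spec x).Mem (c.V j).1) : divG c x i hi P = P.ord (c.ev x i j) :=
  ordG_eq c x hi P hj

theorem divG_eq_add_dv {i k : Fin c.n} (hi : x.Mem (c.V i).1) (hk : x.Mem (c.V k).1) :
    divG c x i hi = dv L (c.ev x i k) + divG c x k hk := by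
  refine Finsupp.ext fun P => ?_
  have hj := c.mem_idx ((toLP P).spec x)
  rw [Finsupp.add_apply, dv_apply, divG_apply c x hi P hj, divG_apply c x hk P hj,
    ← P.ord_mul (c.ev_ne_zero _ _ _) (c.ev_ne_zero _ _ _),
    c.ev_mul x hi hk ((toLP P).mem_of_mem_spec hj)]

variable (L) in
/-- The pull back divisor of the cocycle. -/
def gDiv : Divisor L F := divG c x _ (c.mem_idx x)

theorem divG_sub_gDiv_mem {i : Fin c.n} (hi : x.Mem (c.V i).1) :
    divG c x i hi - gDiv L c x ∈ Divisor.principal (K := L) (F := F) := by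
  rw [divG_eq_add_dv c x hi (c.mem_idx x), gDiv, add_sub_cancel_right]
  exact dv_mem_principal (c.ev_ne_zero _ _ _)

variable (L) in
/-- The height. -/
def ht : ℤ := Divisor.degree (gDiv L c x)

theorem degree_divG {i : Fin c.n} (hi : x.Mem (c.V i).1) :
    Divisor.degree (divG (L := L) c x i hi) = ht L c x := by
  rw [divG_eq_add_dv c x hi (c.mem_idx x), map_add, degree_dv, zero_add]
  rfl

theorem gDiv_map_const (y : Pt X L) :
    gDiv L c (Pt.map (IsScalarTower.toAlgHom K L F) y) ∈
      Divisor.principal (K := L) (F := F) := by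
  set x := Pt.map (IsScalarTower.toAlgHom K L F) y
  have hi : x.Mem (c.V (c.idx y)).1 := (c.mem_idx y).map _
  have h0 : divG (L := L) c x _ hi = 0 := Finsupp.ext fun P => by
    have hj : ((toLP P).spec x).Mem (c.V (c.idx y)).1 := by
      rw [LPlace.spec_map_const]; exact c.mem_idx y
    rw [divG_apply c x hi P hj, c.ev_self x hi, P.ord_one]
    rfl
  have h := divG_sub_gDiv_mem (L := L) c x hi
  rw [h0, zero_sub] at h
  exact neg_mem_iff.mp h

theorem ht_map_const (y : Pt X L) :
    ht L c (Pt.map (IsScalarTower.toAlgHom K L F) y) = 0 := by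
  obtain ⟨f, hf, hfD⟩ := gDiv_map_const (L := L) (F := F) c y
  rw [ht, show gDiv L c _ = dv L f from Finsupp.ext hfD, degree_dv]

theorem ht_zero : ht L c (0 : Pt X F) = 0 := by
  have := ht_map_const (L := L) (F := F) c (0 : Pt X L)
  rwa [map_zero] at this

end Height

end Fermat.Agent.AV
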