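import Fermat.Agent.AV.FunctionField
import Fermat.Agent.AV.Trdeg
import Mathlib.RingTheory.Localization.NumDen
import Mathlib.RingTheory.Ideal.MinimalPrime.Localization
import Mathlib.RingTheory.Jacobson.Ring
import Mathlib.RingTheory.Nullstellensatz

/-!
# The pencil of a rational function

A rational function is locally a quotient `a / b` with common zeros in codimension two, and the
denominators form a cocycle.
-/

set_option autoImplicit false

noncomputable section

universe u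

open CategoryTheory CategoryTheory.Limits AlgebraicGeometry NeronModelInfra GoodReductionJacobian
  TopologicalSpace

namespace Fermat.Agent.AV

variable {K : Type u} [Field K] [IsAlgClosed K] {X : AbVar K}

/-- Local presentations of a rational function without common factors. -/
structure Pencil (x : FFld X) where
  n : ℕ
  V : Fin n → Chart X
  gen : ∀ i, genericPoint X.carrier ∈ (V i).1
  cover : ∀ p : X.carrier, ∃ i, p ∈ (V i).1
  a : ∀ i, Γ(X.carrier, (V i).1)
  b : ∀ i, Γ(X.carrier, (V i).1)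
  b_ne : ∀ i, b i ≠ 0
  eq : ∀ i, germAlg _ (gen i) (a i) = x * germAlg _ (gen i) (b i)
  prim : ∀ i (q : Ideal Γ(X.carrier, (V i).1)), q.IsPrime → a i ∈ q → b i ∈ q →
    ∃ q' : Ideal Γ(X.carrier, (V i).1), q'.IsPrime ∧ ⊥ < q' ∧ q' < q
  g : ∀ i j, Γ(X.carrier, (Chart.meet (V i) (V j)).1)
  g_unit : ∀ i j, IsUnit (g i j)
  g_eq : ∀ i j, germAlg _ (show genericPoint X.carrier ∈ (Chart.meet (V i) (V j)).1 from
      ⟨gen i, gen j⟩) (g i j) * germAlg _ (gen j) (b j) = germAlg _ (gen i) (b i)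

theorem isDomain_sections (U : Chart X) (hU : genericPoint X.carrier ∈ U.1) :
    IsDomain Γ(X.carrier, U.1) :=
  (germAlg_injective U.1 hU).isDomain

section Stalk

variable {U : Chart X} {r : X.carrier} (hr : r ∈ U.1) (hU : genericPoint X.carrier ∈ U.1)

theorem germ_eq_algebraMap_germ (c : Γ(X.carrier, U.1)) :
    germAlg U.1 hU c =
      algebraMap (X.carrier.presheaf.stalk r) (FFld X) (X.carrier.presheaf.germ U.1 r hr c) :=
  (TopCat.Presheaf.germ_stalkSpecializes_apply X.carrier.presheaf hr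
    ((genericPoint_spec X.carrier).specializes trivial) c).symm

variable {a b : Γ(X.carrier, U.1)}

include hU in
/-- Presentations without codimension one common zeros are coprime at closed points. -/
theorem isRelPrime_germ (hb : b ≠ 0) (hrc : IsClosed ({r} : Set X.carrier))
    (hprim : ∀ q : Ideal Γ(X.carrier, U.1), q.IsPrime → a ∈ q → b ∈ q →
      ∃ q' : Ideal Γ(X.carrier, U.1), q'.IsPrime ∧ ⊥ < q' ∧ q' < q) :
    IsRelPrime (X.carrier.presheaf.germ U.1 r hr a) (X.carrier.presheaf.germ U.1 r hr b) := by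
  let O := X.carrier.presheaf.stalk r
  obtain ⟨_, hufm⟩ := isDomain_and_ufm_stalk (X := X) hrc
  let _ := TopCat.Presheaf.algebra_section_stalk X.carrier.presheaf (⟨r, hr⟩ : U.1)
  have hloc : IsLocalization.AtPrime O (U.2.primeIdealOf ⟨r, hr⟩).asIdeal :=
    U.2.isLocalization_stalk ⟨r, hr⟩
  have := isDomain_sections U hU
  intro d hda hdb
  by_contra hd
  have hd0 : d ≠ 0 := by
    rintro rfl
    refine hb (germ_injective_of_isIntegral X.carrier r hr ?_)
    rw [zero_dvd_iff.mp hdb, map_zero]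
  obtain ⟨π, hπirr, hπd⟩ := WfDvdMonoid.exists_irreducible_factor hd hd0
  have hπ : Prime π := hπirr.prime
  let P : Ideal O := Ideal.span {π}
  have hP : P.IsPrime := (Ideal.span_singleton_prime hπ.ne_zero).mpr hπ
  let q : Ideal Γ(X.carrier, U.1) := P.comap (algebraMap Γ(X.carrier, U.1) O)
  obtain ⟨q', hq', hbot, hlt⟩ := hprim q inferInstance
    (Ideal.mem_span_singleton.mpr (hπd.trans hda)) (Ideal.mem_span_singleton.mpr (hπd.trans hdb))
  set M := (U.2.primeIdealOf ⟨r, hr⟩).asIdeal.primeCompl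
  have hdisj : ∀ J : Ideal Γ(X.carrier, U.1), J ≤ q → Disjoint (M : Set Γ(X.carrier, U.1)) J := by
    intro J hJ
    rw [Set.disjoint_left]
    intro z hz hzJ
    have hu : IsUnit (algebraMap Γ(X.carrier, U.1) O z) := IsLocalization.map_units O ⟨z, hz⟩
    exact hP.ne_top (Ideal.eq_top_of_isUnit_mem _ (hJ hzJ) hu)
  have hp' : (q'.map (algebraMap Γ(X.carrier, U.1) O)).IsPrime :=
    IsLocalization.isPrime_of_isPrime_disjoint M O q' hq' (hdisj q' hlt.le)
  have hc' := IsLocalization.under_map_of_isPrime_disjoint M O hq' (hdisj q' hlt.le)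
  have hne : q'.map (algebraMap Γ(X.carrier, U.1) O) ≠ ⊥ := by
    intro h
    obtain ⟨z, hz, hz0⟩ := Submodule.exists_mem_ne_zero_of_ne_bot hbot.ne'
    have := Ideal.mem_map_of_mem (algebraMap Γ(X.carrier, U.1) O) hz
    rw [h, Ideal.mem_bot] at this
    exact hz0 (germ_injective_of_isIntegral X.carrier r hr (this.trans (map_zero _).symm))
  obtain ⟨π', hπ'mem, hπ'⟩ := hp'.exists_mem_prime_of_ne_bot hne
  have hle : q'.map (algebraMap Γ(X.carrier, U.1) O) ≤ P := Ideal.map_le_iff_le_comap.mpr hlt.le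
  have hass : Associated π π' := hπ.associated_of_dvd hπ' (Ideal.mem_span_singleton.mp (hle hπ'mem))
  have heq : q'.map (algebraMap Γ(X.carrier, U.1) O) = P := by
    refine le_antisymm hle ?_
    rw [show P = Ideal.span {π'} from Ideal.span_singleton_eq_span_singleton.mpr hass]
    exact (Ideal.span_singleton_le_iff_mem _).mpr hπ'mem
  exact hlt.ne (by rw [← hc', heq])

end Stalk

/-- A ratio which is integral at all closed points of an affine open is a section. -/
theorem exists_section_of_forall_closed (W : Chart X) (hW : genericPoint X.carrier ∈ W.1)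
    (f : FFld X)
    (h : ∀ r : X.carrier, r ∈ W.1 → IsClosed ({r} : Set X.carrier) →
      ∃ c : X.carrier.presheaf.stalk r, algebraMap _ (FFld X) c = f) :
    ∃ s : Γ(X.carrier, W.1), germAlg W.1 hW s = f := by
  obtain ⟨a, b, hb, rfl⟩ := exists_eq_germ_div W hW f
  let I : Ideal Γ(X.carrier, W.1) :=
    { carrier := {t | ∃ s, germAlg W.1 hW s = germAlg W.1 hW t *
        (germAlg W.1 hW a / germAlg W.1 hW b)}
      zero_mem' := ⟨0, by simp⟩
      add_mem' := by
        rintro s t ⟨s', hs⟩ ⟨t', ht⟩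
        exact ⟨s' + t', by rw [map_add, map_add, hs, ht, add_mul]⟩
      smul_mem' := by
        rintro c t ⟨t', ht⟩
        exact ⟨c * t', by rw [smul_eq_mul, map_mul, map_mul, ht, mul_assoc]⟩ }
  suffices hI : I = ⊤ by
    obtain ⟨s, hs⟩ : (1 : Γ(X.carrier, W.1)) ∈ I := by rw [hI]; trivial
    exact ⟨s, by rw [hs, map_one, one_mul]⟩
  by_contra hI
  obtain ⟨m, hm, hIm⟩ := Ideal.exists_le_maximal I hI
  let _ : Field (Γ(X.carrier, W.1) ⧸ m) := Ideal.Quotient.field m
  have : Module.Finite K (Γ(X.carrier, W.1) ⧸ m) :=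
    finite_of_finite_type_of_isJacobsonRing K _
  let φ : Γ(X.carrier, W.1) →ₐ[K] K :=
    ((AlgEquiv.ofBijective (Algebra.ofId K (Γ(X.carrier, W.1) ⧸ m))
      IsAlgClosed.algebraMap_bijective_of_isIntegral).symm.toAlgHom).comp (Ideal.Quotient.mkₐ K m)
  let p : Pt X K := Pt.ofEval W φ
  have hpW : p.pos ∈ W.1 := (Pt.mem_iff_pos p W.1).mp (Pt.mem_ofEval W φ)
  have hpc : IsClosed ({p.pos} : Set X.carrier) :=
    (pointEquivClosedPoint X.str ⟨p.hom, by rw [p.hom_comp_str, specStr_self]⟩).2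
  have hker : (W.2.primeIdealOf ⟨p.pos, hpW⟩).asIdeal = RingHom.ker φ.toRingHom := by
    rw [primeIdealOf_pos p W (Pt.mem_ofEval W φ), Pt.eval_ofEval]
  have hφm : ∀ t, t ∈ m → φ t = 0 := fun t ht => by
    simp only [φ, AlgHom.comp_apply, Ideal.Quotient.mkₐ_eq_mk,
      Ideal.Quotient.eq_zero_iff_mem.mpr ht, map_zero]
  obtain ⟨c, hc⟩ := h p.pos hpW hpc
  let _ := TopCat.Presheaf.algebra_section_stalk X.carrier.presheaf (⟨p.pos, hpW⟩ : W.1)
  have hloc : IsLocalization.AtPrime (X.carrier.presheaf.stalk p.pos)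
      (W.2.primeIdealOf ⟨p.pos, hpW⟩).asIdeal := W.2.isLocalization_stalk ⟨p.pos, hpW⟩
  obtain ⟨⟨s, t⟩, hst⟩ := IsLocalization.surj
    (W.2.primeIdealOf ⟨p.pos, hpW⟩).asIdeal.primeCompl c
  have ht : (t : Γ(X.carrier, W.1)) ∈ I := by
    refine ⟨s, ?_⟩
    rw [germ_eq_algebraMap_germ hpW hW s, germ_eq_algebraMap_germ hpW hW (t : Γ(X.carrier, W.1)),
      ← hc, ← map_mul, mul_comm]
    exact congrArg _ hst.symm
  exact t.2 (hker.ge (hφm _ (hIm ht)))

/-- A presentation near one closed point. -/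
theorem exists_local_presentation (x : FFld X) {r : X.carrier}
    (hrc : IsClosed ({r} : Set X.carrier)) :
    ∃ (V : Chart X) (hV : genericPoint X.carrier ∈ V.1) (a b : Γ(X.carrier, V.1)),
      r ∈ V.1 ∧ b ≠ 0 ∧ germAlg _ hV a = x * germAlg _ hV b ∧
      ∀ q : Ideal Γ(X.carrier, V.1), q.IsPrime → a ∈ q → b ∈ q →
        ∃ q' : Ideal Γ(X.carrier, V.1), q'.IsPrime ∧ ⊥ < q' ∧ q' < q := by
  classical
  obtain ⟨_, hufm⟩ := isDomain_and_ufm_stalk (X := X) hrc
  obtain ⟨a₀, b₀, hcop, hx⟩ :=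
    IsFractionRing.exists_reduced_fraction (A := X.carrier.presheaf.stalk r) (K := FFld X) x
  obtain ⟨W₁, hW₁, α, hα⟩ := X.carrier.presheaf.exists_germ_eq a₀
  obtain ⟨W₂, hW₂, β, hβ⟩ := X.carrier.presheaf.exists_germ_eq (b₀ : X.carrier.presheaf.stalk r)
  obtain ⟨_, ⟨U₀, hU₀, rfl⟩, hrU, hsub⟩ := X.carrier.isBasis_affineOpens.exists_subset_of_mem_open
    (show r ∈ W₁ ⊓ W₂ from ⟨hW₁, hW₂⟩) (W₁ ⊓ W₂).isOpen
  let U : Chart X := ⟨U₀, hU₀⟩
  have hr : r ∈ U.1 := hrU
  have hU : genericPoint X.carrier ∈ U.1 := genericPoint_mem U.1 ⟨⟨r, hr⟩⟩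
  set a := (X.carrier.presheaf.map (homOfLE (show U₀ ≤ W₁ from fun z hz => (hsub hz).1)).op).hom α
    with ha_def
  set b := (X.carrier.presheaf.map (homOfLE (show U₀ ≤ W₂ from fun z hz => (hsub hz).2)).op).hom β
    with hb_def
  have hag : X.carrier.presheaf.germ U.1 r hr a = a₀ :=
    (TopCat.Presheaf.germ_res_apply X.carrier.presheaf _ r hr α).trans hα
  have hbg : X.carrier.presheaf.germ U.1 r hr b = b₀ :=
    (TopCat.Presheaf.germ_res_apply X.carrier.presheaf _ r hr β).trans hβ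
  have hb0 : b ≠ 0 := fun h => nonZeroDivisors.ne_zero b₀.2 (by rw [← hbg, h, map_zero])
  have heq : germAlg _ hU a = x * germAlg _ hU b := by
    rw [germ_eq_algebraMap_germ hr hU a, germ_eq_algebraMap_germ hr hU b, hag, hbg, ← hx,
      IsLocalization.mk'_spec]
  let B := Γ(X.carrier, U.1)
  have := isDomain_sections U hU
  set M := (U.2.primeIdealOf ⟨r, hr⟩).asIdeal
  let _ := TopCat.Presheaf.algebra_section_stalk X.carrier.presheaf (⟨r, hr⟩ : U.1)
  have hloc : IsLocalization.AtPrime (X.carrier.presheaf.stalk r) M :=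
    U.2.isLocalization_stalk ⟨r, hr⟩
  let J : Ideal B := Ideal.span {a, b}
  have := isNoetherianRing_sections X U
  have hfin : J.minimalPrimes.Finite := Ideal.finite_minimalPrimes_of_isNoetherianRing Γ(X.carrier, U.1) J
  let T := hfin.toFinset.filter fun q => ¬ q ≤ M
  have hT : ∀ q : T, ∃ f, f ∈ q.1 ∧ f ∉ M := fun q =>
    SetLike.not_le_iff_exists.mp (Finset.mem_filter.mp q.2).2
  choose f hf hfM using hT
  let F := ∏ q : T, f q
  have hFM : F ∉ M := fun hmem => by
    obtain ⟨q, -, hq⟩ := (U.2.primeIdealOf ⟨r, hr⟩).isPrime.prod_mem_iff.mp hmem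
    exact hfM q hq
  let V : Chart X := ⟨X.carrier.basicOpen F, U.2.basicOpen F⟩
  have hrV : r ∈ V.1 := by
    show r ∈ X.carrier.basicOpen F
    rw [Scheme.mem_basicOpen X.carrier F r hr]
    exact IsLocalization.map_units (X.carrier.presheaf.stalk r) (⟨F, hFM⟩ : M.primeCompl)
  have hV : genericPoint X.carrier ∈ V.1 := genericPoint_mem V.1 ⟨⟨r, hrV⟩⟩
  have hVU : V.1 ≤ U.1 := X.carrier.basicOpen_le F
  refine ⟨V, hV, resAlg hVU a, resAlg hVU b, hrV, ?_, ?_, ?_⟩
  · intro h
    refine hb0 (germAlg_injective U.1 hU ?_)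
    rw [← germAlg_res hVU hV b, h, map_zero, map_zero]
  · rw [germAlg_res, germAlg_res]
    exact heq
  intro Q hQ haQ hbQ
  let _ : Algebra B Γ(X.carrier, V.1) := (resAlg (X := X) hVU).toRingHom.toAlgebra
  have hV' : IsLocalization.Away F Γ(X.carrier, V.1) := U.2.isLocalization_basicOpen F
  let q := Q.comap (algebraMap B Γ(X.carrier, V.1))
  have hJq : J ≤ q := Ideal.span_le.mpr (by
    rintro z (rfl | rfl)
    · exact haQ
    · exact hbQ)
  obtain ⟨qm, hqm, hqmq⟩ := Ideal.exists_minimalPrimes_le hJq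
  have hFq : F ∉ q := fun h => hQ.ne_top (Ideal.eq_top_of_isUnit_mem _ h
    (IsLocalization.Away.algebraMap_isUnit F))
  have hqmM : qm ≤ M := by
    by_contra hle
    have hmem : qm ∈ T := Finset.mem_filter.mpr ⟨hfin.mem_toFinset.mpr hqm, hle⟩
    exact hFq (hqmq (Ideal.prod_mem _ (Finset.mem_univ (⟨qm, hmem⟩ : T)) (hf ⟨qm, hmem⟩)))
  have hqmp : qm.IsPrime := hqm.1.1
  have hdM : Disjoint (M.primeCompl : Set B) qm := by
    rw [Set.disjoint_left]
    exact fun z hz hzq => hz (hqmM hzq)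
  let P := qm.map (algebraMap B (X.carrier.presheaf.stalk r))
  have hPp : P.IsPrime := IsLocalization.isPrime_of_isPrime_disjoint M.primeCompl _ qm hqmp hdM
  have hPc : P.comap (algebraMap B (X.carrier.presheaf.stalk r)) = qm :=
    IsLocalization.under_map_of_isPrime_disjoint M.primeCompl _ hqmp hdM
  have haP : a₀ ∈ P := hag ▸ Ideal.mem_map_of_mem _ (hqm.1.2 (Ideal.subset_span (Or.inl rfl)))
  have hbP : (b₀ : X.carrier.presheaf.stalk r) ∈ P :=
    hbg ▸ Ideal.mem_map_of_mem _ (hqm.1.2 (Ideal.subset_span (Or.inr rfl)))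
  obtain ⟨π, hπP, hπ⟩ := hPp.exists_mem_prime_of_ne_bot fun h => nonZeroDivisors.ne_zero b₀.2 (by
    rw [h, Ideal.mem_bot] at hbP; exact hbP)
  let q₁ := (Ideal.span {π}).comap (algebraMap B (X.carrier.presheaf.stalk r))
  have hq₁p : q₁.IsPrime := by
    have : (Ideal.span {π}).IsPrime := (Ideal.span_singleton_prime hπ.ne_zero).mpr hπ
    exact Ideal.comap_isPrime _ _
  have hle₁ : q₁ ≤ qm := hPc ▸ Ideal.comap_mono ((Ideal.span_singleton_le_iff_mem _).mpr hπP)
  have hlt₁ : q₁ < qm := by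
    refine lt_of_le_of_ne hle₁ fun e => hπ.not_isUnit (hcop ?_ ?_)
    · rw [← hag, ← Ideal.mem_span_singleton]
      exact show a ∈ q₁ from e ▸ hqm.1.2 (Ideal.subset_span (Or.inl rfl))
    · rw [← hbg, ← Ideal.mem_span_singleton]
      exact show b ∈ q₁ from e ▸ hqm.1.2 (Ideal.subset_span (Or.inr rfl))
  have hne₁ : q₁ ≠ ⊥ := by
    obtain ⟨⟨z, t⟩, hzt⟩ := IsLocalization.surj M.primeCompl π
    intro h
    have hz : z ∈ q₁ := by
      show algebraMap B _ z ∈ Ideal.span {π}
      rw [← hzt]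
      exact Ideal.mul_mem_right _ _ (Ideal.mem_span_singleton_self π)
    rw [h, Ideal.mem_bot] at hz
    simp only [hz, map_zero, mul_eq_zero] at hzt
    rcases hzt with h' | h'
    · exact hπ.ne_zero h'
    · exact (IsLocalization.map_units (X.carrier.presheaf.stalk r) t).ne_zero h'
  have hFq₁ : Disjoint (Submonoid.powers F : Set B) q₁ := by
    rw [Set.disjoint_left]
    rintro _ ⟨n, rfl⟩ hn
    exact hFq (hqmq (hle₁ (hq₁p.mem_of_pow_mem n hn)))
  have hc₁ := IsLocalization.under_map_of_isPrime_disjoint (Submonoid.powers F) Γ(X.carrier, V.1)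
    hq₁p hFq₁
  refine ⟨q₁.map (algebraMap B Γ(X.carrier, V.1)),
    IsLocalization.isPrime_of_isPrime_disjoint (Submonoid.powers F) _ q₁ hq₁p hFq₁, ?_, ?_⟩
  · refine bot_lt_iff_ne_bot.mpr fun h => hne₁ ?_
    rw [← hc₁, h, Ideal.under_def, Ideal.comap_bot_of_injective]
    intro z w e
    refine germAlg_injective U.1 hU ?_
    have e' : resAlg hVU z = resAlg hVU w := e
    rw [← germAlg_res hVU hV z, ← germAlg_res hVU hV w, e']
  · refine lt_of_le_of_ne (Ideal.map_le_iff_le_comap.mpr (hle₁.trans hqmq)) fun e => hlt₁.not_ge ?_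
    calc qm ≤ q := hqmq
      _ = q₁ := by rw [← hc₁, e]

/-- Every rational function has a pencil. -/
theorem exists_pencil (x : FFld X) : Nonempty (Pencil x) := by
  classical
  have := compactSpace_carrier X
  have hlocal : ∀ p : X.carrier, ∃ (V : Chart X) (hV : genericPoint X.carrier ∈ V.1)
      (a b : Γ(X.carrier, V.1)),
      p ∈ V.1 ∧ b ≠ 0 ∧ germAlg _ hV a = x * germAlg _ hV b ∧
      ∀ q : Ideal Γ(X.carrier, V.1), q.IsPrime → a ∈ q → b ∈ q →
        ∃ q' : Ideal Γ(X.carrier, V.1), q'.IsPrime ∧ ⊥ < q' ∧ q' < q := by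
    intro p
    obtain ⟨y, hy, hpy⟩ := exists_isClosed_specializes p
    obtain ⟨V, hV, a, b, hyV, h⟩ := exists_local_presentation x hy
    exact ⟨V, hV, a, b, hpy.mem_open V.1.isOpen hyV, h⟩
  choose V hV a b hmem hb heq hprim using hlocal
  obtain ⟨t, ht⟩ := isCompact_univ.elim_finite_subcover (fun p => ((V p).1 : Set X.carrier))
    (fun p => (V p).1.isOpen) fun p _ => Set.mem_iUnion.mpr ⟨p, hmem p⟩
  let e := t.equivFin
  have hratio : ∀ i j : t, ∀ r : X.carrier, r ∈ (V i.1).1 → r ∈ (V j.1).1 →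
      IsClosed ({r} : Set X.carrier) → ∃ c : X.carrier.presheaf.stalk r,
        algebraMap _ (FFld X) c * germAlg _ (hV j.1) (b j.1) = germAlg _ (hV i.1) (b i.1) := by
    intro i j r hri hrj hrc
    obtain ⟨_, _⟩ := isDomain_and_ufm_stalk (X := X) hrc
    have hci := isRelPrime_germ hri (hV i.1) (hb i.1) hrc (hprim i.1)
    set ai := X.carrier.presheaf.germ (V i.1).1 r hri (a i.1)
    set bi := X.carrier.presheaf.germ (V i.1).1 r hri (b i.1)
    set aj := X.carrier.presheaf.germ (V j.1).1 r hrj (a j.1)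
    set bj := X.carrier.presheaf.germ (V j.1).1 r hrj (b j.1)
    have hcj := isRelPrime_germ hrj (hV j.1) (hb j.1) hrc (hprim j.1)
    have hcross : ai * bj = aj * bi := by
      apply IsFractionRing.injective (X.carrier.presheaf.stalk r) (FFld X)
      rw [map_mul, map_mul, ← germ_eq_algebraMap_germ hri (hV i.1),
        ← germ_eq_algebraMap_germ hrj (hV j.1), ← germ_eq_algebraMap_germ hri (hV i.1),
        ← germ_eq_algebraMap_germ hrj (hV j.1), heq, heq]
      ring
    obtain ⟨c, hc⟩ : bj ∣ bi := hcj.symm.dvd_of_dvd_mul_left ⟨ai, by rw [← hcross, mul_comm]⟩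
    refine ⟨c, ?_⟩
    rw [germ_eq_algebraMap_germ hrj (hV j.1), germ_eq_algebraMap_germ hri (hV i.1), ← map_mul]
    exact congrArg _ (by rw [mul_comm]; exact hc.symm)
  have hsec : ∀ i j : t, ∀ hg : genericPoint X.carrier ∈ (Chart.meet (V i.1) (V j.1)).1,
      ∃ s : Γ(X.carrier, (Chart.meet (V i.1) (V j.1)).1),
        germAlg _ hg s * germAlg _ (hV j.1) (b j.1) = germAlg _ (hV i.1) (b i.1) := by
    intro i j hg
    have hbj : germAlg _ (hV j.1) (b j.1) ≠ 0 :=
      (map_ne_zero_iff _ (germAlg_injective _ _)).mpr (hb j.1)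
    obtain ⟨s, hs⟩ := exists_section_of_forall_closed (Chart.meet (V i.1) (V j.1)) hg
      (germAlg _ (hV i.1) (b i.1) / germAlg _ (hV j.1) (b j.1)) fun r hr hrc => by
        obtain ⟨c, hc⟩ := hratio i j r hr.1 hr.2 hrc
        exact ⟨c, by rw [← hc, mul_div_cancel_right₀ _ hbj]⟩
    exact ⟨s, by rw [hs, div_mul_cancel₀ _ hbj]⟩
  choose g hg using fun i j : t => hsec i j ⟨hV i.1, hV j.1⟩
  refine ⟨⟨t.card, fun i => V (e.symm i).1, fun i => hV _, ?_, fun i => a (e.symm i).1,
    fun i => b (e.symm i).1, fun i => hb _, fun i => heq _, fun i => hprim _,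
    fun i j => g (e.symm i) (e.symm j), ?_, fun i j => hg _ _⟩⟩
  · intro p
    have := ht (Set.mem_univ p)
    simp only [Set.mem_iUnion, SetLike.mem_coe] at this
    obtain ⟨q, hq, hpq⟩ := this
    exact ⟨e ⟨q, hq⟩, by rw [e.symm_apply_apply]; exact hpq⟩
  · intro i j
    set i' := e.symm i
    set j' := e.symm j
    have hsymm : (Chart.meet (V i'.1) (V j'.1)).1 ≤ (Chart.meet (V j'.1) (V i'.1)).1 :=
      fun z hz => ⟨hz.2, hz.1⟩
    refine isUnit_iff_exists_inv.mpr ⟨resAlg hsymm (g j' i'),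
      germAlg_injective (Chart.meet (V i'.1) (V j'.1)).1 ⟨hV i'.1, hV j'.1⟩ ?_⟩
    rw [map_mul, map_one]
    erw [germAlg_res hsymm]
    have hbi : germAlg _ (hV i'.1) (b i'.1) ≠ 0 :=
      (map_ne_zero_iff _ (germAlg_injective _ _)).mpr (hb i'.1)
    refine mul_right_cancel₀ hbi ?_
    rw [one_mul, mul_assoc, hg j' i', hg i' j']

/-- At a common zero the coordinates span a field of transcendence degree two less. -/
theorem Pencil.trdeg_base_le {x : FFld X} (π : Pencil x) {F : Type u} [Field F] [Algebra K F]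
    (p : Pt X F) (i : Fin π.n) (hp : p.Mem (π.V i).1) (ha : p.eval _ hp (π.a i) = 0)
    (hb : p.eval _ hp (π.b i) = 0) :
    Algebra.trdeg K (IntermediateField.adjoin K (Set.range (p.eval _ hp))) + 2 ≤ X.dim := by
  have := isDomain_sections (π.V i) (π.gen i)
  set φ := p.eval _ hp
  have hqp : (RingHom.ker φ.toRingHom).IsPrime := RingHom.ker_isPrime _
  obtain ⟨q', hq', hbot, hlt⟩ := π.prim i (RingHom.ker φ.toRingHom) hqp ha hb
  have h1 := trdeg_quotient_add_one_le_of_lt (K := K) hlt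
  have h2 := trdeg_quotient_add_one_le (K := K) q' hbot.ne'
  have h3 : Algebra.trdeg K Γ(X.carrier, (π.V i).1) ≤ X.dim :=
    trdeg_functionField X ▸ trdeg_le_of_injective (germAlg _ (π.gen i))
      (germAlg_injective _ _)
  have h4 := trdeg_adjoin_range_le φ
  calc Algebra.trdeg K (IntermediateField.adjoin K (Set.range φ)) + 2
      ≤ Algebra.trdeg K (Γ(X.carrier, (π.V i).1) ⧸ RingHom.ker φ.toRingHom) + 2 := by gcongr
    _ = Algebra.trdeg K (Γ(X.carrier, (π.V i).1) ⧸ RingHom.ker φ.toRingHom) + 1 + 1 := by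
        rw [add_assoc, one_add_one_eq_two]
    _ ≤ Algebra.trdeg K (Γ(X.carrier, (π.V i).1) ⧸ q') + 1 := by gcongr
    _ ≤ Algebra.trdeg K Γ(X.carrier, (π.V i).1) := h2
    _ ≤ X.dim := h3

end Fermat.Agent.AV
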