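import Fermat.Prelude.Def_JacJ1Iface
import Fermat.Prelude.Def_GoodReductionJacobian_RelativeGroupLawKernel
import Mathlib.AlgebraicGeometry.AffineScheme
import Mathlib.AlgebraicGeometry.ValuativeCriterion
import Mathlib.AlgebraicGeometry.Morphisms.Smooth
import Mathlib.AlgebraicGeometry.FunctionField
import Mathlib.RingTheory.Valuation.ValuationSubring

/-!
# Points of an abelian scheme over a field

The functor of points of a commutative group scheme on `K`-algebras, with affine charts.
-/

set_option autoImplicit false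

noncomputable section

universe u

open CategoryTheory CategoryTheory.Limits AlgebraicGeometry NeronModelInfra GoodReductionJacobian

namespace Fermat.Agent.AV

/-- An abelian scheme over a field, with its group law and relative dimension. -/
structure AbVar (K : Type u) [Field K] where
  carrier : Scheme.{u}
  str : carrier ⟶ Spec (CommRingCat.of K)
  law : RelativeGroupLaw K str
  comm : law.IsCommutative
  bundle : AbelianSchemePropertyBundle K str
  dim : ℕ
  smoothDim : SmoothOfRelativeDimension dim str

variable {K : Type u} [Field K] (X : AbVar K)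

instance : Smooth X.str := X.bundle.smooth
instance : IsProper X.str := X.bundle.proper
instance : SmoothOfRelativeDimension X.dim X.str := X.smoothDim

/-- The structure morphism of the spectrum of a `K`-algebra. -/
abbrev specStr (K : Type u) [Field K] (R : Type u) [CommRing R] [Algebra K R] :
    Spec (CommRingCat.of R) ⟶ Spec (CommRingCat.of K) :=
  Spec.map (CommRingCat.ofHom (algebraMap K R))

/-- Points of `X` in a `K`-algebra. -/
def Pt (R : Type u) [CommRing R] [Algebra K R] : Type u :=
  SchemeHomOver (specStr K R) X.str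

namespace Pt

variable {X}
variable {R S T : Type u} [CommRing R] [Algebra K R] [CommRing S] [Algebra K S] [CommRing T]
  [Algebra K T]

/-- The underlying morphism. -/
def hom (x : Pt X R) : Spec (CommRingCat.of R) ⟶ X.carrier := x.1

theorem hom_comp_str (x : Pt X R) : x.hom ≫ X.str = specStr K R := x.2

/-- A point from a morphism over `Spec K`. -/
def mk' (φ : Spec (CommRingCat.of R) ⟶ X.carrier) (h : φ ≫ X.str = specStr K R) : Pt X R := ⟨φ, h⟩

@[simp]
theorem hom_mk' (φ : Spec (CommRingCat.of R) ⟶ X.carrier) (h : φ ≫ X.str = specStr K R) :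
    (mk' φ h : Pt X R).hom = φ := rfl

@[ext]
theorem ext {x y : Pt X R} (h : x.hom = y.hom) : x = y := Subtype.ext h

instance instAdd : Add (Pt X R) := ⟨fun x y => X.law.mul (specStr K R) x y⟩

instance instZero : Zero (Pt X R) := ⟨X.law.one (specStr K R)⟩

instance instNeg : Neg (Pt X R) := ⟨fun x => X.law.inv (specStr K R) x⟩

instance : AddCommGroup (Pt X R) where
  add_assoc := X.law.mul_assoc (specStr K R)
  zero_add := X.law.one_mul (specStr K R)
  add_zero := X.law.mul_one (specStr K R)
  add_comm := X.comm (specStr K R)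
  neg_add_cancel := X.law.inv_mul_cancel (specStr K R)
  nsmul := nsmulRec
  zsmul := zsmulRec

theorem specMap_comp_specStr (φ : R →ₐ[K] S) :
    Spec.map (CommRingCat.ofHom φ.toRingHom) ≫ specStr K R = specStr K S := by
  rw [specStr, specStr, ← Spec.map_comp, ← CommRingCat.ofHom_comp]
  congr
  exact φ.comp_algebraMap

/-- Functoriality of points. -/
def map (φ : R →ₐ[K] S) : Pt X R →+ Pt X S :=
  AddMonoidHom.mk'
    (schemeHomOverComp (Spec.map (CommRingCat.ofHom φ.toRingHom)) (specMap_comp_specStr φ))
    (fun x y => X.law.mul_natural _ _ _ _ x y)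

theorem hom_map (φ : R →ₐ[K] S) (x : Pt X R) :
    (map φ x).hom = Spec.map (CommRingCat.ofHom φ.toRingHom) ≫ x.hom := rfl

@[simp]
theorem map_id (x : Pt X R) : map (AlgHom.id K R) x = x := by
  ext : 1
  rw [hom_map]
  simp

theorem map_map (φ : R →ₐ[K] S) (ψ : S →ₐ[K] T) (x : Pt X R) :
    map ψ (map φ x) = map (ψ.comp φ) x := by
  ext : 1
  rw [hom_map, hom_map, hom_map, ← Category.assoc, ← Spec.map_comp, ← CommRingCat.ofHom_comp]
  rfl

end Pt

/-- Affine charts. -/
abbrev Chart : Type u := {U : X.carrier.Opens // IsAffineOpen U}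

instance instAlgebraSections (U : X.carrier.Opens) : Algebra K Γ(X.carrier, U) :=
  ((X.str.appLE ⊤ U le_top).hom.comp
    (Scheme.ΓSpecIso (CommRingCat.of K)).inv.hom).toAlgebra

theorem algebraMap_sections (U : X.carrier.Opens) :
    CommRingCat.ofHom (algebraMap K Γ(X.carrier, U)) =
      (Scheme.ΓSpecIso (CommRingCat.of K)).inv ≫ X.str.appLE ⊤ U le_top := rfl

theorem fromSpec_comp_str (U : Chart X) :
    U.2.fromSpec ≫ X.str = specStr K Γ(X.carrier, U.1) := by
  rw [← IsAffineOpen.SpecMap_appLE_fromSpec X.str (isAffineOpen_top _) U.2 le_top, specStr,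
    algebraMap_sections, Spec.map_comp, IsAffineOpen.fromSpec_top, Scheme.isoSpec_Spec_inv]

variable {X}

/-- Restriction of sections as an algebra map. -/
def resAlg {U V : X.carrier.Opens} (h : V ≤ U) : Γ(X.carrier, U) →ₐ[K] Γ(X.carrier, V) :=
  { (X.carrier.presheaf.map (homOfLE h).op).hom with
    commutes' := fun c => by
      show (((Scheme.ΓSpecIso (CommRingCat.of K)).inv ≫ X.str.appLE ⊤ U le_top) ≫
        X.carrier.presheaf.map (homOfLE h).op).hom c = _
      rw [Category.assoc, Scheme.Hom.appLE_map]
      rfl }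

theorem coe_resAlg {U V : X.carrier.Opens} (h : V ≤ U) :
    (resAlg (X := X) h).toRingHom = (X.carrier.presheaf.map (homOfLE h).op).hom := rfl

theorem resAlg_resAlg {U V W : X.carrier.Opens} (h : V ≤ U) (h' : W ≤ V) (b : Γ(X.carrier, U)) :
    resAlg h' (resAlg h b) = resAlg (X := X) (h'.trans h) b := by
  show ((X.carrier.presheaf.map (homOfLE h).op) ≫ X.carrier.presheaf.map (homOfLE h').op).hom b = _
  rw [← Functor.map_comp]
  rfl

namespace Pt

variable {R S : Type u} [CommRing R] [Algebra K R] [CommRing S] [Algebra K S]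

/-- The point factors through the open set `U`. -/
def Mem (x : Pt X R) (U : X.carrier.Opens) : Prop := ∀ p, x.hom p ∈ U

theorem Mem.mono {x : Pt X R} {U V : X.carrier.Opens} (h : x.Mem U) (hUV : U ≤ V) : x.Mem V :=
  fun p => hUV (h p)

theorem Mem.inf {x : Pt X R} {U V : X.carrier.Opens} (h : x.Mem U) (h' : x.Mem V) :
    x.Mem (U ⊓ V) := fun p => ⟨h p, h' p⟩

theorem Mem.map {x : Pt X R} {U : X.carrier.Opens} (h : x.Mem U) (φ : R →ₐ[K] S) :
    (Pt.map φ x).Mem U := fun p => by
  rw [hom_map, Scheme.Hom.comp_apply]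
  exact h _

theorem range_subset {x : Pt X R} {U : Chart X} (h : x.Mem U.1) :
    Set.range x.hom ⊆ Set.range U.2.fromSpec := by
  rw [IsAffineOpen.range_fromSpec]
  rintro _ ⟨p, rfl⟩
  exact h p

/-- The ring map of sections defined by a point in a chart. -/
def evalRingHom (x : Pt X R) (U : Chart X) (h : x.Mem U.1) : Γ(X.carrier, U.1) →+* R :=
  (Spec.preimage (IsOpenImmersion.lift U.2.fromSpec x.hom (range_subset h))).hom

theorem specMap_evalRingHom (x : Pt X R) (U : Chart X) (h : x.Mem U.1) :
    Spec.map (CommRingCat.ofHom (evalRingHom x U h)) ≫ U.2.fromSpec = x.hom := by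
  rw [evalRingHom, CommRingCat.ofHom_hom, Spec.map_preimage, IsOpenImmersion.lift_fac]

theorem evalRingHom_comp_algebraMap (x : Pt X R) (U : Chart X) (h : x.Mem U.1) :
    (evalRingHom x U h).comp (algebraMap K Γ(X.carrier, U.1)) = algebraMap K R := by
  have h1 := hom_comp_str x
  rw [← specMap_evalRingHom x U h, Category.assoc, fromSpec_comp_str, specStr, specStr,
    ← Spec.map_comp] at h1
  exact congrArg CommRingCat.Hom.hom (Spec.map_injective h1)

/-- Evaluation of sections on a chart at a point. -/
def eval (x : Pt X R) (U : Chart X) (h : x.Mem U.1) : Γ(X.carrier, U.1) →ₐ[K] R :=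
  { evalRingHom x U h with
    commutes' := fun c => RingHom.congr_fun (evalRingHom_comp_algebraMap x U h) c }

/-- The point given by a map of sections. -/
def ofEval (U : Chart X) (φ : Γ(X.carrier, U.1) →ₐ[K] R) : Pt X R :=
  mk' (Spec.map (CommRingCat.ofHom φ.toRingHom) ≫ U.2.fromSpec) (by
    rw [Category.assoc, fromSpec_comp_str, specMap_comp_specStr])

theorem mem_ofEval (U : Chart X) (φ : Γ(X.carrier, U.1) →ₐ[K] R) : (ofEval U φ).Mem U.1 := by
  intro p
  rw [ofEval, hom_mk', Scheme.Hom.comp_apply]
  have := Set.mem_range_self (f := U.2.fromSpec) (Spec.map (CommRingCat.ofHom φ.toRingHom) p)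
  rwa [IsAffineOpen.range_fromSpec] at this

theorem eval_eq_of_specMap {x : Pt X R} {U : Chart X} (h : x.Mem U.1)
    {φ : Γ(X.carrier, U.1) →ₐ[K] R}
    (e : Spec.map (CommRingCat.ofHom φ.toRingHom) ≫ U.2.fromSpec = x.hom) : x.eval U h = φ := by
  refine AlgHom.coe_ringHom_injective ?_
  refine congrArg CommRingCat.Hom.hom (Spec.map_injective
    ((cancel_mono U.2.fromSpec).mp (?_ : Spec.map (CommRingCat.ofHom (evalRingHom x U h)) ≫ _
      = Spec.map (CommRingCat.ofHom φ.toRingHom) ≫ _)))
  rw [specMap_evalRingHom, e]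

@[simp]
theorem eval_ofEval (U : Chart X) (φ : Γ(X.carrier, U.1) →ₐ[K] R) :
    (ofEval U φ).eval U (mem_ofEval U φ) = φ :=
  eval_eq_of_specMap _ rfl

@[simp]
theorem ofEval_eval (x : Pt X R) (U : Chart X) (h : x.Mem U.1) : ofEval U (x.eval U h) = x :=
  ext (specMap_evalRingHom x U h)

theorem ext_eval {x y : Pt X R} {U : Chart X} (hx : x.Mem U.1) (hy : y.Mem U.1)
    (h : x.eval U hx = y.eval U hy) : x = y := by
  rw [← ofEval_eval x U hx, ← ofEval_eval y U hy, h]

theorem map_ofEval (U : Chart X) (φ : Γ(X.carrier, U.1) →ₐ[K] R) (ψ : R →ₐ[K] S) :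
    map ψ (ofEval U φ) = ofEval U (ψ.comp φ) := by
  ext : 1
  rw [hom_map, ofEval, ofEval, hom_mk', hom_mk', ← Category.assoc, ← Spec.map_comp,
    ← CommRingCat.ofHom_comp]
  rfl

theorem eval_map (ψ : R →ₐ[K] S) (x : Pt X R) (U : Chart X) (h : x.Mem U.1) :
    (map ψ x).eval U (h.map ψ) = ψ.comp (x.eval U h) := by
  refine eval_eq_of_specMap _ ?_
  rw [hom_map, ← specMap_evalRingHom x U h, ← Category.assoc, ← Spec.map_comp,
    ← CommRingCat.ofHom_comp]
  rfl

theorem eval_res (x : Pt X R) (U V : Chart X) (hVU : V.1 ≤ U.1) (h : x.Mem V.1)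
    (b : Γ(X.carrier, U.1)) :
    x.eval U (h.mono hVU) b = x.eval V h (resAlg hVU b) := by
  have : x.eval U (h.mono hVU) = (x.eval V h).comp (resAlg hVU) := by
    refine eval_eq_of_specMap _ ?_
    show Spec.map (CommRingCat.ofHom ((evalRingHom x V h).comp (resAlg hVU).toRingHom)) ≫ _ = _
    rw [CommRingCat.ofHom_comp, Spec.map_comp, coe_resAlg,
      CommRingCat.ofHom_hom, Category.assoc, IsAffineOpen.map_fromSpec]
    exact specMap_evalRingHom x V h
  rw [this]; rfl

theorem mem_of_specializes {x : Pt X R} {U : X.carrier.Opens} {p q : Spec (CommRingCat.of R)}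
    (hpq : q ⤳ p) (h : x.hom p ∈ U) : x.hom q ∈ U :=
  (hpq.map x.hom.continuous).mem_open U.isOpen h

/-- For a local ring it suffices to check membership at the closed point. -/
theorem mem_of_isLocalRing [IsLocalRing R] {x : Pt X R} {U : X.carrier.Opens}
    (h : x.hom (IsLocalRing.closedPoint R) ∈ U) : x.Mem U := fun p =>
  mem_of_specializes (IsLocalRing.specializes_closedPoint p) h

/-- The point of a field valued point. -/
def pos {F : Type u} [Field F] [Algebra K F] (x : Pt X F) : X.carrier :=
  x.hom (IsLocalRing.closedPoint F)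

theorem mem_iff_pos {F : Type u} [Field F] [Algebra K F] (x : Pt X F) (U : X.carrier.Opens) :
    x.Mem U ↔ x.pos ∈ U := by
  refine ⟨fun h => h _, fun h p => ?_⟩
  rw [Subsingleton.elim p (IsLocalRing.closedPoint F)]
  exact h

theorem exists_chart {F : Type u} [Field F] [Algebra K F] (x : Pt X F) :
    ∃ U : Chart X, x.Mem U.1 := by
  obtain ⟨U, hU, hxU, -⟩ := X.carrier.isBasis_affineOpens.exists_subset_of_mem_open
    (Set.mem_univ x.pos) isOpen_univ
  obtain ⟨U, hU', rfl⟩ := hU
  exact ⟨⟨U, hU'⟩, (mem_iff_pos x U).mpr hxU⟩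

/-- A point with values in a local ring lies in a chart containing its reduction. -/
theorem mem_of_mem_map {k : Type u} [Field k] [Algebra K k] [IsLocalRing R] (π : R →ₐ[K] k)
    [IsLocalHom π.toRingHom] {x : Pt X R} {U : X.carrier.Opens} (h : (map π x).Mem U) :
    x.Mem U := by
  refine mem_of_isLocalRing ?_
  have h1 := h (IsLocalRing.closedPoint k)
  rw [hom_map, Scheme.Hom.comp_apply] at h1
  convert h1 using 2
  exact (IsLocalRing.comap_closedPoint π.toRingHom).symm

end Pt

/-! ### Valuative criterion -/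

/-- A valuation subring containing the base field. -/
structure KValSubring (K : Type u) [Field K] (F : Type u) [Field F] [Algebra K F] where
  val : ValuationSubring F
  algebraMap_mem : ∀ c : K, algebraMap K F c ∈ val

namespace KValSubring

variable {F : Type u} [Field F] [Algebra K F]

/-- The valuation ring as a subalgebra. -/
def toSubalgebra (O : KValSubring K F) : Subalgebra K F :=
  { O.val.toSubring with algebraMap_mem' := O.algebraMap_mem }

theorem mem_toSubalgebra (O : KValSubring K F) {z : F} : z ∈ O.toSubalgebra ↔ z ∈ O.val := Iff.rfl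

instance (O : KValSubring K F) : ValuationRing O.toSubalgebra :=
  inferInstanceAs (ValuationRing O.val)

instance (O : KValSubring K F) : IsFractionRing O.toSubalgebra F :=
  inferInstanceAs (IsFractionRing O.val F)

theorem existsUnique_lift (O : KValSubring K F) (x : Pt X F) :
    ∃! y : Pt X O.toSubalgebra, Pt.map O.toSubalgebra.val y = x := by
  have hv : ValuativeCriterion X.str := by
    have h : IsProper X.str := inferInstance
    rw [IsProper.eq_valuativeCriterion] at h
    exact h.1.1.1
  let S : ValuativeCommSq X.str :=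
    { R := O.toSubalgebra, K := F, i₁ := x.hom, i₂ := specStr K O.toSubalgebra,
      commSq := ⟨by
        rw [Pt.hom_comp_str, specStr, specStr, ← Spec.map_comp, ← CommRingCat.ofHom_comp]
        rfl⟩ }
  obtain ⟨⟨⟨l⟩, hl⟩⟩ := hv S
  refine ⟨Pt.mk' l.l l.fac_right, ?_, ?_⟩
  · ext : 1
    exact l.fac_left
  · intro y hy
    ext : 1
    have := hl ⟨y.hom, congrArg Pt.hom hy, y.hom_comp_str⟩
    exact congrArg CommSq.LiftStruct.l this

/-- The unique integral point extending a point. -/
def lift (O : KValSubring K F) (x : Pt X F) : Pt X O.toSubalgebra :=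
  (O.existsUnique_lift x).choose

theorem map_lift (O : KValSubring K F) (x : Pt X F) :
    Pt.map O.toSubalgebra.val (O.lift x) = x :=
  (O.existsUnique_lift x).choose_spec.1

theorem lift_eq (O : KValSubring K F) {x : Pt X F} {y : Pt X O.toSubalgebra}
    (h : Pt.map O.toSubalgebra.val y = x) : O.lift x = y :=
  ((O.existsUnique_lift x).choose_spec.2 y h).symm

theorem lift_add (O : KValSubring K F) (x y : Pt X F) :
    O.lift (x + y) = O.lift x + O.lift y :=
  O.lift_eq (by rw [map_add, map_lift, map_lift])

end KValSubring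

end Fermat.Agent.AV
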