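import Mathlib.RingTheory.MvPowerSeries.Equiv
import Mathlib.RingTheory.MvPowerSeries.Substitution
import Mathlib.RingTheory.MvPowerSeries.NoZeroDivisors
import Mathlib.RingTheory.MvPowerSeries.Inverse
import Mathlib.RingTheory.AdicCompletion.Completeness
import Mathlib.RingTheory.PowerSeries.WeierstrassPreparation
import Mathlib.RingTheory.Polynomial.UniqueFactorization
import Mathlib.RingTheory.UniqueFactorizationDomain.Basic
import Mathlib.Algebra.MvPolynomial.Funext
import Mathlib.RingTheory.MvPolynomial.Homogeneous
import Mathlib.Algebra.MvPolynomial.Equiv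
import Mathlib.RingTheory.PrincipalIdealDomain
import Mathlib.RingTheory.Noetherian.UniqueFactorizationDomain

/-!
# Formal power series rings over an infinite field are factorial
-/

set_option autoImplicit false

noncomputable section

open MvPowerSeries

namespace Fermat.Agent.AV

variable {K : Type*} [Field K]

theorem exists_eq_sum_X_mul {n : ℕ} (f : MvPowerSeries (Fin n) K) (hf : constantCoeff f = 0) :
    f ∈ Ideal.span (Set.range (X : Fin n → MvPowerSeries (Fin n) K)) := by
  induction n with
  | zero =>
    have : f = 0 := by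
      ext e
      rw [Subsingleton.elim e 0, coeff_zero_eq_constantCoeff_apply, hf, map_zero]
    rw [this]
    exact zero_mem _
  | succ n ih =>
    set p := finSuccEquiv K n f
    have hp : p = PowerSeries.X * PowerSeries.mk (fun k => PowerSeries.coeff (k + 1) p) +
        PowerSeries.C (PowerSeries.coeff 0 p) := by
      rw [PowerSeries.coeff_zero_eq_constantCoeff_apply]
      exact PowerSeries.eq_X_mul_shift_add_const p
    have h0 : constantCoeff (PowerSeries.coeff 0 p) = 0 := by
      rw [← coeff_zero_eq_constantCoeff_apply, coeff_coeff_finSuccEquiv, Finsupp.cons_zero_zero,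
        coeff_zero_eq_constantCoeff_apply, hf]
    have hf' : f = X 0 * (finSuccEquiv K n).symm (PowerSeries.mk
        (fun k => PowerSeries.coeff (k + 1) p)) +
        ((finSuccEquiv K n).symm.toRingHom.comp PowerSeries.C) (PowerSeries.coeff 0 p) := by
      apply (finSuccEquiv K n).injective
      rw [map_add, map_mul, finSuccEquiv_X_zero, AlgEquiv.apply_symm_apply]
      simpa using hp
    rw [hf']
    refine add_mem (Ideal.mul_mem_right _ _ (Ideal.subset_span ⟨0, rfl⟩)) ?_
    have h := Ideal.mem_map_of_mem ((finSuccEquiv K n).symm.toRingHom.comp PowerSeries.C) (ih _ h0)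
    refine (?_ : _ ≤ Ideal.span (Set.range (X : Fin (n + 1) → MvPowerSeries (Fin (n + 1)) K))) h
    rw [Ideal.map_span, Ideal.span_le]
    rintro _ ⟨_, ⟨j, rfl⟩, rfl⟩
    refine Ideal.subset_span ⟨j.succ, ?_⟩
    apply (finSuccEquiv K n).injective
    simp

theorem maximalIdeal_eq_span_X (n : ℕ) :
    IsLocalRing.maximalIdeal (MvPowerSeries (Fin n) K) = Ideal.span (Set.range X) := by
  refine le_antisymm (fun f hf => exists_eq_sum_X_mul f ?_) (Ideal.span_le.mpr ?_)
  · by_contra h
    exact hf (isUnit_iff_constantCoeff.mpr (isUnit_iff_ne_zero.mpr h))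
  · rintro _ ⟨i, rfl⟩
    rw [SetLike.mem_coe, IsLocalRing.mem_maximalIdeal, mem_nonunits_iff, isUnit_iff_constantCoeff]
    simp

instance isAdicComplete_maximalIdeal (n : ℕ) :
    IsAdicComplete (IsLocalRing.maximalIdeal (MvPowerSeries (Fin n) K))
      (MvPowerSeries (Fin n) K) := by
  rw [maximalIdeal_eq_span_X]
  infer_instance

section Shear

variable {n : ℕ}

/-- The linear substitution `X₀ ↦ X₀`, `X_{i+1} ↦ X_{i+1} + c_i X₀`. -/
def shearVec (c : Fin n → K) : Fin (n + 1) → MvPowerSeries (Fin (n + 1)) K :=
  Fin.cases (X 0) (fun i => X i.succ + MvPowerSeries.C (c i) * X 0)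

theorem hasSubst_shearVec (c : Fin n → K) : HasSubst (shearVec c) :=
  hasSubst_of_constantCoeff_zero fun i => by
    refine Fin.cases ?_ (fun j => ?_) i <;> simp [shearVec]

/-- The linear change of variables. -/
def shear (c : Fin n → K) : MvPowerSeries (Fin (n + 1)) K →ₐ[K] MvPowerSeries (Fin (n + 1)) K :=
  substAlgHom (hasSubst_shearVec c)

theorem shear_X (c : Fin n → K) (i : Fin (n + 1)) : shear c (X i) = shearVec c i :=
  substAlgHom_X _ i

theorem shear_comp_neg (c : Fin n → K) :
    (shear c).comp (shear (-c)) = AlgHom.id K (MvPowerSeries (Fin (n + 1)) K) := by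
  have hvec : (fun i => subst (shearVec c) (shearVec (-c) i)) =
      (X : Fin (n + 1) → MvPowerSeries (Fin (n + 1)) K) := by
    funext i
    rw [← substAlgHom_apply (hasSubst_shearVec c)]
    refine Fin.cases ?_ (fun j => ?_) i
    · show shear c (shearVec (-c) 0) = _
      simp [shearVec, shear_X]
    · show shear c (X j.succ + MvPowerSeries.C ((-c) j) * X 0) = _
      rw [map_add, map_mul, shear_X, shear_X, MvPowerSeries.c_eq_algebraMap, AlgHom.commutes]
      simp [shearVec, MvPowerSeries.c_eq_algebraMap]
  refine AlgHom.ext fun f => ?_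
  show shear c (shear (-c) f) = f
  rw [shear, shear, substAlgHom_apply, substAlgHom_apply,
    subst_comp_subst_apply (hasSubst_shearVec _) (hasSubst_shearVec _), hvec, subst_self]
  rfl

/-- The linear change of variables as an equivalence. -/
def shearEquiv (c : Fin n → K) :
    MvPowerSeries (Fin (n + 1)) K ≃ₐ[K] MvPowerSeries (Fin (n + 1)) K :=
  AlgEquiv.ofAlgHom (shear c) (shear (-c)) (shear_comp_neg c)
    (by simpa using shear_comp_neg (-c))

/-- Restriction to the line `X_{i+1} = 0`. -/
def toAxis : MvPowerSeries (Fin (n + 1)) K →+* PowerSeries K :=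
  (PowerSeries.map (constantCoeff (σ := Fin n) (R := K))).comp
    (finSuccEquiv K n).toAlgHom.toRingHom

theorem coeff_toAxis (p : MvPowerSeries (Fin (n + 1)) K) (k : ℕ) :
    PowerSeries.coeff k (toAxis p) = coeff (Finsupp.cons k 0) p := by
  show PowerSeries.coeff k (PowerSeries.map constantCoeff (finSuccEquiv K n p)) = _
  rw [PowerSeries.coeff_map, ← coeff_zero_eq_constantCoeff_apply, coeff_coeff_finSuccEquiv]

theorem toAxis_shearVec (c : Fin n → K) (i : Fin (n + 1)) :
    toAxis (shearVec c i) = PowerSeries.C (Fin.cases 1 c i : K) * PowerSeries.X := by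
  show PowerSeries.map constantCoeff (finSuccEquiv K n (shearVec c i)) = _
  refine Fin.cases ?_ (fun j => ?_) i
  · simp [shearVec]
  · simp [shearVec]

theorem coeff_toAxis_shear (c : Fin n → K) (f : MvPowerSeries (Fin (n + 1)) K) (k : ℕ) :
    PowerSeries.coeff k (toAxis (shear c f)) =
      ∑ᶠ d, if d.degree = k then coeff d f * d.prod (fun i e => (Fin.cases 1 c i : K) ^ e)
        else 0 := by
  rw [coeff_toAxis, shear, substAlgHom_apply, coeff_subst (hasSubst_shearVec c)]
  refine finsum_congr fun d => ?_
  rw [← coeff_toAxis, Finsupp.prod, map_prod]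
  simp only [map_pow, toAxis_shearVec, mul_pow]
  rw [Finset.prod_mul_distrib, Finset.prod_pow_eq_pow_sum]
  simp only [← map_pow, ← map_prod, PowerSeries.coeff_C_mul, PowerSeries.coeff_X_pow]
  have hdeg : d.degree = ∑ i ∈ d.support, d i := rfl
  rw [smul_eq_mul, hdeg]
  by_cases h : k = ∑ i ∈ d.support, d i
  · rw [if_pos h, if_pos h.symm]; simp [Finsupp.prod]
  · rw [if_neg h, if_neg (fun e => h e.symm)]; simp

theorem exists_shear_ne_zero [Infinite K] {f : MvPowerSeries (Fin (n + 1)) K} (hf : f ≠ 0) :
    ∃ c : Fin n → K, toAxis (shear c f) ≠ 0 := by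
  classical
  have hex : ∃ k, ∃ d : Fin (n + 1) →₀ ℕ, d.degree = k ∧ coeff d f ≠ 0 := by
    by_contra h
    push Not at h
    exact hf (MvPowerSeries.ext fun d => by simpa using h _ d rfl)
  set k := Nat.find hex
  obtain ⟨d₀, hd₀, hd₀f⟩ := Nat.find_spec hex
  let S : Finset (Fin (n + 1) →₀ ℕ) :=
    (Finsupp.finite_of_degree_le (σ := Fin (n + 1)) k).toFinset.filter (fun d => d.degree = k)
  have hS : ∀ d, d ∈ S ↔ d.degree = k := fun d => by
    simp only [S, Finset.mem_filter, Set.Finite.mem_toFinset, Set.mem_setOf_eq]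
    exact ⟨fun h => h.2, fun h => ⟨le_of_eq h, h⟩⟩
  let P : MvPolynomial (Fin n) K :=
    ∑ d ∈ S, MvPolynomial.monomial (Finsupp.tail d) (coeff d f)
  have hinj : ∀ d ∈ S, Finsupp.tail d = Finsupp.tail d₀ → d = d₀ := by
    intro d hd h
    have h1 : ∀ e : Fin (n + 1) →₀ ℕ, e.degree = e 0 + ∑ i : Fin n, e i.succ := fun e => by
      rw [Finsupp.degree_eq_sum, Fin.sum_univ_succ]
    have h2 : ∀ i : Fin n, d i.succ = d₀ i.succ := fun i => DFunLike.congr_fun h i
    have h3 := h1 d
    have h4 := h1 d₀
    simp only [h2] at h3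
    rw [(hS d).mp hd] at h3
    rw [hd₀] at h4
    ext i
    refine Fin.cases ?_ h2 i
    omega
  have hP : P ≠ 0 := by
    intro h
    apply hd₀f
    have := congrArg (MvPolynomial.coeff (Finsupp.tail d₀)) h
    simp only [P, MvPolynomial.coeff_sum, MvPolynomial.coeff_monomial, MvPolynomial.coeff_zero]
      at this
    rw [Finset.sum_eq_single d₀ (fun d hd hne => if_neg fun e => hne (hinj d hd e))
      (fun h' => absurd ((hS d₀).mpr hd₀) h'), if_pos rfl] at this
    exact this
  obtain ⟨c, hc⟩ : ∃ c : Fin n → K, MvPolynomial.eval c P ≠ 0 := by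
    by_contra h
    push Not at h
    exact hP (MvPolynomial.funext fun x => by rw [h x, map_zero])
  refine ⟨c, fun h => hc ?_⟩
  have h' := congrArg (PowerSeries.coeff k) h
  rw [coeff_toAxis_shear, map_zero, finsum_eq_sum_of_support_subset _ (s := S)] at h'
  · rw [← h']
    simp only [P, map_sum, MvPolynomial.eval_monomial]
    refine Finset.sum_congr rfl fun d hd => ?_
    rw [if_pos ((hS d).mp hd)]
    congr 1
    rw [Finsupp.prod_fintype _ _ (fun i => pow_zero _),
      Finsupp.prod_fintype _ _ (fun i => pow_zero _), Fin.prod_univ_succ]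
    simp [Finsupp.tail, Fin.tail]
  · intro d hd
    simp only [Function.mem_support, ne_eq, ite_eq_right_iff, not_forall] at hd
    exact (hS d).mpr hd.choose

end Shear

theorem prime_of_residue_ne_zero {A : Type*} [CommRing A] [IsDomain A] [IsLocalRing A]
    [UniqueFactorizationMonoid A] [IsAdicComplete (IsLocalRing.maximalIdeal A) A]
    {g : PowerSeries A} (hg : Irreducible g) (hres : g.map (IsLocalRing.residue A) ≠ 0) :
    Prime g := by
  obtain ⟨P, h, hF⟩ := g.exists_isWeierstrassFactorization hres
  obtain ⟨hdist, hh, heq⟩ := hF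
  set m := IsLocalRing.maximalIdeal A
  have hconst : ∀ a : Polynomial A,
      a.map (IsLocalRing.residue A) = Polynomial.X ^ a.natDegree → a.natDegree ≠ 0 →
      ¬IsUnit (a : PowerSeries A) := by
    intro a ha hd hu
    have h0 := congrArg (fun p => Polynomial.coeff p 0) ha
    simp only [Polynomial.coeff_map, Polynomial.coeff_X_pow] at h0
    rw [if_neg (fun e => hd e.symm), IsLocalRing.residue_eq_zero_iff] at h0
    have := PowerSeries.isUnit_constantCoeff _ hu
    rw [← PowerSeries.coeff_zero_eq_constantCoeff_apply, Polynomial.coeff_coe] at this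
    exact h0 this
  have hPmap : P.map (IsLocalRing.residue A) = Polynomial.X ^ P.natDegree :=
    hdist.map_eq_X_pow
  have hPirr : Irreducible P := by
    refine (Polynomial.irreducible_of_monic hdist.monic ?_).mpr ?_
    · intro h1
      apply hg.not_isUnit
      rw [heq, h1]
      simpa using hh
    · intro a b ha hb hab
      by_contra hne
      rw [not_or] at hne
      have hmap := congrArg (Polynomial.map (IsLocalRing.residue A)) hab
      rw [Polynomial.map_mul, hPmap] at hmap
      have key : ∀ {a' b' : Polynomial A}, a'.Monic → b'.Monic →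
          a'.map (IsLocalRing.residue A) * b'.map (IsLocalRing.residue A) =
            Polynomial.X ^ P.natDegree → a' ≠ 1 → ¬IsUnit (a' : PowerSeries A) := by
        intro a' b' ha' hb' hmul hne'
        have hdvd : a'.map (IsLocalRing.residue A) ∣ Polynomial.X ^ P.natDegree := ⟨_, hmul.symm⟩
        obtain ⟨i, hi, hassoc⟩ := (dvd_prime_pow Polynomial.prime_X _).mp hdvd
        have heqX : a'.map (IsLocalRing.residue A) = Polynomial.X ^ i :=
          Polynomial.eq_of_monic_of_associated (ha'.map _) (Polynomial.monic_X_pow i) hassoc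
        have hdeg : i = a'.natDegree := by
          have := congrArg Polynomial.natDegree heqX
          rwa [ha'.natDegree_map, Polynomial.natDegree_X_pow, eq_comm] at this
        refine hconst a' (hdeg ▸ heqX) fun h0 => hne' ?_
        exact ha'.natDegree_eq_zero.mp h0
      have e : g = (a : PowerSeries A) * ((b : PowerSeries A) * h) := by
        rw [heq, ← hab, Polynomial.coe_mul, mul_assoc]
      rcases hg.isUnit_or_isUnit e with hu | hu
      · exact key ha hb hmap hne.1 hu
      · refine key hb ha ?_ hne.2 (isUnit_of_mul_isUnit_left hu)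
        rwa [mul_comm]
  have hPprime : Prime P := UniqueFactorizationMonoid.irreducible_iff_prime.mp hPirr
  have hspan : (Ideal.span {P}).IsPrime :=
    (Ideal.span_singleton_prime hPprime.ne_zero).mpr hPprime
  have hdom : IsDomain (Polynomial A ⧸ Ideal.span {P}) := Ideal.Quotient.isDomain _
  have : IsDomain (PowerSeries A ⧸ Ideal.span {(P : PowerSeries A)}) :=
    MulEquiv.isDomain (Polynomial A ⧸ Ideal.span {P})
      hdist.algEquivQuotient.symm.toMulEquiv
  have hspan' : (Ideal.span {(P : PowerSeries A)}).IsPrime :=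
    (Ideal.Quotient.isDomain_iff_prime _).mp this
  rw [← Ideal.span_singleton_prime hg.ne_zero]
  rwa [heq, Ideal.span_singleton_mul_right_unit hh]

theorem mvPowerSeries_ufm [Infinite K] (n : ℕ) :
    UniqueFactorizationMonoid (MvPowerSeries (Fin n) K) := by
  induction n with
  | zero =>
    exact (MvPowerSeries.isEmptyEquiv (σ := Fin 0) (R := K)).symm.toMulEquiv.uniqueFactorizationMonoid
      inferInstance
  | succ n ih =>
    have : IsDomain (MvPowerSeries (Fin n) K) := NoZeroDivisors.to_isDomain _
    have : IsDomain (MvPowerSeries (Fin (n + 1)) K) := NoZeroDivisors.to_isDomain _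
    refine { (IsNoetherianRing.wfDvdMonoid : WfDvdMonoid (MvPowerSeries (Fin (n + 1)) K)) with
      irreducible_iff_prime := fun {f} => ⟨fun hf => ?_, Prime.irreducible⟩ }
    obtain ⟨c, hc⟩ := exists_shear_ne_zero hf.ne_zero
    let e := (shearEquiv c).trans (finSuccEquiv K n)
    have hirr : Irreducible (e f) := (MulEquiv.irreducible_iff e).mpr hf
    have hres : (e f).map (IsLocalRing.residue (MvPowerSeries (Fin n) K)) ≠ 0 := by
      intro h
      apply hc
      refine PowerSeries.ext fun k => ?_
      have hk := congrArg (PowerSeries.coeff k) h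
      rw [PowerSeries.coeff_map, map_zero, IsLocalRing.residue_eq_zero_iff,
        IsLocalRing.mem_maximalIdeal, mem_nonunits_iff, isUnit_iff_constantCoeff,
        isUnit_iff_ne_zero, not_not] at hk
      show PowerSeries.coeff k (PowerSeries.map constantCoeff (finSuccEquiv K n (shear c f))) =
        PowerSeries.coeff k 0
      rw [PowerSeries.coeff_map, map_zero]
      exact hk
    exact (MulEquiv.prime_iff e).mp (prime_of_residue_ne_zero hirr hres)

end Fermat.Agent.AV
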