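import Fermat.Agent.AV.HeightRed
import Fermat.Agent.AV.Generic

/-!
# The theorem of the square on a curve and translation invariance of the height
-/

set_option autoImplicit false
set_option linter.unusedSectionVars false

noncomputable section

universe u

open CategoryTheory AlgebraicGeometry AlgebraicCurve Fermat.Agent.FF Fermat.Agent.FF.ConstExt
open scoped TensorProduct

namespace Fermat.Agent.AV

section FunctionFields

variable {L F : Type u} [Field L] [Field F] [Algebra L F] [IsFunctionField L F] [IsAlgClosed L]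

theorem exists_notMem_place (S : Finset (Place L F)) : ∃ P, P ∉ S := by
  classical
  by_contra h
  push Not at h
  obtain ⟨P₀⟩ : Nonempty (Place L F) := inferInstance
  obtain ⟨z, hz0, hzP, hz⟩ := exists_ord_pos_and_forall_neg P₀ (S.erase P₀) (Finset.notMem_erase _ _)
  obtain ⟨P, hP⟩ := exists_place_ord_pos (K := L)
    (y := z - 1) (fun halg => by
      have h0 := ord_eq_zero_of_isAlgebraic P₀ (f := z) (by
        have := halg.add (isAlgebraic_one (R := L) (A := F))
        rwa [sub_add_cancel] at this)
      omega)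
  rcases eq_or_ne P P₀ with rfl | hne
  · have h1 := (add_ne_zero_and_ord_eq_of_lt P (f := (-1 : F)) (g := z) (neg_ne_zero.mpr one_ne_zero)
      (Or.inr (by rw [ord_neg, P.ord_one]; exact hzP))).2
    rw [neg_add_eq_sub, ord_neg, P.ord_one] at h1
    omega
  · have hz' := hz P (Finset.mem_erase.mpr ⟨hne, h P⟩)
    have h1 := (add_ne_zero_and_ord_eq_of_lt P (f := z) (g := (-1 : F)) hz0
      (Or.inr (by rw [ord_neg, P.ord_one]; exact hz'))).2
    rw [← sub_eq_add_neg] at h1
    omega

/-- A divisor of degree `g` is linearly equivalent to an effective one. -/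
theorem exists_effective (D : Divisor L F) (hD : (genusFF L F : ℤ) ≤ Divisor.degree D) :
    ∃ E : Divisor L F, 0 ≤ E ∧ E - D ∈ Divisor.principal (K := L) (F := F) := by
  have h := le_finrank_riemannRochSpace D
  obtain ⟨f, hf, hf0⟩ := Submodule.exists_mem_ne_zero_of_ne_bot
    (show riemannRochSpace D ≠ ⊥ from fun hb => by rw [hb, finrank_bot] at h; omega)
  refine ⟨dv L f + D, fun P => ?_, by rw [add_sub_cancel_right]; exact dv_mem_principal hf0⟩
  have := ((mem_riemannRochSpace_iff.mp hf) P).resolve_left hf0
  simp only [Finsupp.add_apply, dv_apply, Finsupp.coe_zero, Pi.zero_apply]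
  omega

variable (L F) in
/-- An effective divisor alone in its class. -/
theorem exists_isolated_divisor :
    ∃ P₀ : Divisor L F, 0 ≤ P₀ ∧ Divisor.degree P₀ = genusFF L F ∧
      ∀ E : Divisor L F, 0 ≤ E → E - P₀ ∈ Divisor.principal (K := L) (F := F) → E = P₀ := by
  classical
  obtain ⟨R₀⟩ : Nonempty (Place L F) := inferInstance
  set g : ℤ := (genusFF L F : ℤ) with hg
  have hstep : ∀ k : ℕ, (k : ℤ) ≤ g → ∃ D : Divisor L F,
      Divisor.degree D = 2 * g - k ∧ Module.finrank L (riemannRochSpace D) = g + 1 - k := by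
    intro k
    induction k with
    | zero =>
      intro _
      refine ⟨Finsupp.single R₀ (2 * g), by rw [degree_single_eq]; simp, ?_⟩
      rw [finrank_riemannRochSpace_of_lt_degree (by rw [degree_single_eq]; omega), degree_single_eq]
      push_cast
      omega
    | succ k ih =>
      intro hk
      push_cast at hk
      obtain ⟨D, hD, hl⟩ := ih (by omega)
      obtain ⟨s, hs, hs0⟩ := Submodule.exists_mem_ne_zero_of_ne_bot
        (show riemannRochSpace D ≠ ⊥ from fun hb => by rw [hb, finrank_bot] at hl; omega)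
      obtain ⟨R, hR⟩ := exists_notMem_place (D.support ∪ (dv L s).support)
      simp only [Finset.mem_union, Finsupp.mem_support_iff, not_or, not_not, dv_apply] at hR
      refine ⟨D - Finsupp.single R 1, by rw [map_sub, degree_single_eq, hD]; push_cast; ring, ?_⟩
      have hlt : riemannRochSpace (D - Finsupp.single R 1) < riemannRochSpace D := by
        refine lt_of_le_of_ne (riemannRochSpace_mono (fun Q => ?_)) fun e => ?_
        · rw [Finsupp.sub_apply, Finsupp.single_apply]; split_ifs <;> omega
        · rw [← e] at hs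
          have := ((mem_riemannRochSpace_iff.mp hs) R).resolve_left hs0
          rw [Finsupp.sub_apply, Finsupp.single_eq_same, hR.1, hR.2] at this
          omega
      have h1 := Submodule.finrank_lt_finrank_of_lt hlt
      have h2 := le_finrank_riemannRochSpace (D - Finsupp.single R 1)
      rw [map_sub, degree_single_eq, hD] at h2
      have h3 : Module.finrank L (riemannRochSpace D) ≤
          Module.finrank L (riemannRochSpace (D - Finsupp.single R 1)) + 1 := by
        obtain ⟨t, ht, htn⟩ := SetLike.exists_of_lt hlt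
        have hle : riemannRochSpace D ≤
            riemannRochSpace (D - Finsupp.single R 1) ⊔ Submodule.span L {t} := by
          intro f hf
          have htR : t ≠ 0 ∧ R.ord t = 0 := by
            have h0 : t ≠ 0 := fun h => htn (h ▸ zero_mem _)
            refine ⟨h0, ?_⟩
            have := ((mem_riemannRochSpace_iff.mp ht) R).resolve_left h0
            rw [hR.1] at this
            by_contra hne
            refine htn ?_
            rw [mem_riemannRochSpace_iff]
            intro Q
            have hQ := ((mem_riemannRochSpace_iff.mp ht) Q).resolve_left h0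
            refine Or.inr ?_
            rw [Finsupp.sub_apply, Finsupp.single_apply]
            split_ifs with e
            · subst e; omega
            · omega
          have hfR : f ∈ R.toValuationSubring := by
            rw [Fermat.Agent.FF.mem_iff_ord_nonneg]
            rcases (mem_riemannRochSpace_iff.mp hf) R with h | h
            · rw [h, R.ord_zero]
            · rw [hR.1] at h; omega
          have htm : t ∈ R.toValuationSubring :=
            (Fermat.Agent.FF.mem_iff_ord_nonneg R).mpr htR.2.ge
          have htv : evalAt R ⟨t, htm⟩ ≠ 0 := by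
            rw [evalAt_ne_zero_iff, ← R.adicValuation_coe_eq_one_iff]
            show R.adicValuation t = 1
            rw [R.adicValuation_eq_exp_neg_ord htR.1, htR.2, neg_zero, WithZero.exp_zero]
          set a := evalAt R ⟨f, hfR⟩ / evalAt R ⟨t, htm⟩
          rw [Submodule.mem_sup]
          refine ⟨f - a • t, ?_, a • t, Submodule.smul_mem _ _ (Submodule.subset_span rfl),
            sub_add_cancel _ _⟩
          have hmem : f - a • t ∈ riemannRochSpace D :=
            sub_mem hf (Submodule.smul_mem _ _ ht)
          rw [mem_riemannRochSpace_iff]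
          intro Q
          rcases (mem_riemannRochSpace_iff.mp hmem) Q with h | h
          · exact Or.inl h
          by_cases h0 : f - a • t = 0
          · exact Or.inl h0
          refine Or.inr ?_
          rw [Finsupp.sub_apply, Finsupp.single_apply]
          split_ifs with e
          · subst e
            rw [hR.1] at h ⊢
            have hm : f - a • t ∈ R.toValuationSubring :=
              (Fermat.Agent.FF.mem_iff_ord_nonneg R).mpr (by omega)
            have h4 : f - a • t ∈ ordGE R 1 := by
              rw [← residue_eq_zero_iff R hm, IsLocalRing.residue_eq_zero_iff, ← evalAt_eq_zero_iff,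
                show (⟨_, hm⟩ : R.toValuationSubring) =
                  ⟨f, hfR⟩ - algebraMap L R.toValuationSubring a * ⟨t, htm⟩ from
                  Subtype.ext (congrArg (f - ·) (Algebra.smul_def a t)), map_sub, map_mul, AlgHom.commutes]
              simp [a, div_mul_cancel₀ _ htv]
            have := le_ord_of_mem_ordGE R h4 h0
            omega
          · omega
        refine (Submodule.finrank_mono hle).trans ((Submodule.finrank_add_le_finrank_add_finrank
          _ _).trans ?_)
        rw [finrank_span_singleton (K := L) (v := t) (fun h => htn (by rw [h]; exact zero_mem _))]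
      omega
  obtain ⟨D, hD, hl⟩ := hstep (genusFF L F) le_rfl
  obtain ⟨P₀, hP₀, hPD⟩ := exists_effective D (by omega)
  obtain ⟨f₀, hf₀, hf₀D⟩ := hPD
  have hdeg : Divisor.degree P₀ = genusFF L F := by
    have h : Divisor.degree (P₀ - D) = 0 := by
      rw [show P₀ - D = dv L f₀ from Finsupp.ext hf₀D, degree_dv]
    rw [map_sub, hD] at h
    omega
  refine ⟨P₀, hP₀, hdeg, fun E hE ⟨f, hf, hfE⟩ => ?_⟩
  have hl1 : Module.finrank L (riemannRochSpace P₀) = 1 := by
    have := finrank_riemannRochSpace_sub_principal (K := L) (F := F)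
      (show P₀ - D ∈ Divisor.principal (K := L) (F := F) from ⟨f₀, hf₀, hf₀D⟩) P₀
    rw [sub_sub_cancel] at this
    omega
  have hfmem : f ∈ riemannRochSpace P₀ := by
    rw [mem_riemannRochSpace_iff]
    intro Q
    have := hE Q
    have h2 := hfE Q
    rw [Finsupp.sub_apply] at h2
    simp only [Finsupp.coe_zero, Pi.zero_apply] at this
    exact Or.inr (by omega)
  have h1mem : (1 : F) ∈ riemannRochSpace P₀ := by
    rw [mem_riemannRochSpace_iff]
    intro Q
    have := hP₀ Q
    simp only [Finsupp.coe_zero, Pi.zero_apply] at this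
    exact Or.inr (by rw [Q.ord_one]; omega)
  obtain ⟨a, ha⟩ := (finrank_eq_one_iff_of_nonzero' (⟨1, h1mem⟩ : riemannRochSpace P₀)
    (fun h => one_ne_zero (congrArg Subtype.val h))).mp hl1 ⟨f, hfmem⟩
  have ha' : f = algebraMap L F a := by
    rw [Algebra.algebraMap_eq_smul_one]
    exact (congrArg Subtype.val ha).symm
  refine Finsupp.ext fun Q => ?_
  have h2 := hfE Q
  rw [Finsupp.sub_apply, ha', ord_algebraMap] at h2
  omega

end FunctionFields

variable {K : Type u} [Field K] [IsAlgClosed K] {X : AbVar K}

section Sq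

variable {L F : Type u} [Field L] [Field F] [Algebra L F] [Algebra K L] [Algebra K F]
  [IsScalarTower K L F] [IsFunctionField L F] [IsAlgClosed L]

/-- The square combination of a point and two constant points. -/
def sq (c : Cocycle X) (u : Pt X F) (a b : Pt X L) : Divisor L F :=
  gDiv L c (u + Pt.map (IsScalarTower.toAlgHom K L F) a + Pt.map (IsScalarTower.toAlgHom K L F) b)
    - gDiv L c (u + Pt.map (IsScalarTower.toAlgHom K L F) a)
    - gDiv L c (u + Pt.map (IsScalarTower.toAlgHom K L F) b) + gDiv L c u

theorem sq_zero_left (c : Cocycle X) (u : Pt X F) (b : Pt X L) : sq c u 0 b = 0 := by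
  simp only [sq, map_zero, add_zero]; abel

theorem sq_zero_right (c : Cocycle X) (u : Pt X F) (a : Pt X L) : sq c u a 0 = 0 := by
  simp only [sq, map_zero, add_zero]; abel

variable {L' F' : Type u} [Field L'] [Field F'] [Algebra L L']
  [Algebra L' F'] [Algebra F F'] [Algebra L F'] [IsScalarTower L L' F'] [IsScalarTower L F F']
  [Algebra K L'] [Algebra K F'] [IsScalarTower K L L'] [IsScalarTower K L' F']
  [IsScalarTower K F F'] [IsFunctionField L' F'] [IsAlgClosed L'] [IsConstExt L L' F F']

theorem gauss_spec_add_const (v : LPlace L L') (u : Pt X F) (b : Pt X L') :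
    (gauss F F' v).spec (Pt.map (IsScalarTower.toAlgHom K F F') u +
      Pt.map (IsScalarTower.toAlgHom K L' F') b) =
      u + Pt.map (IsScalarTower.toAlgHom K L F) (v.spec b) := by
  rw [map_add, LPlace.spec_map_const, gauss_spec_map_const]

theorem redDiv_sq (v : LPlace L L') (c : Cocycle X) (u : Pt X F) (a b : Pt X L') :
    redDiv F F' v (sq c (Pt.map (IsScalarTower.toAlgHom K F F') u) a b) -
      sq c u (v.spec a) (v.spec b) ∈ Divisor.principal (K := L) (F := F) := by
  set ι := Pt.map (X := X) (IsScalarTower.toAlgHom K F F')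
  set κ := Pt.map (X := X) (IsScalarTower.toAlgHom K L' F')
  have hu := map_algebraMap_mem_compat (F' := F') v u
  have ha := map_const_mem_compat (F := F) (F' := F') v a
  have hb := map_const_mem_compat (F := F) (F' := F') v b
  have h0 : (gauss F F' v).spec (ι u) = u := LPlace.spec_map_const _ u
  have hga : (gauss F F' v).spec (κ a) = Pt.map (IsScalarTower.toAlgHom K L F) (v.spec a) :=
    gauss_spec_map_const v a
  have hgb : (gauss F F' v).spec (κ b) = Pt.map (IsScalarTower.toAlgHom K L F) (v.spec b) :=
    gauss_spec_map_const v b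
  have h1 := redDiv_gDiv v c (add_mem (add_mem hu ha) hb)
  have h2 := redDiv_gDiv v c (add_mem hu ha)
  have h3 := redDiv_gDiv v c (add_mem hu hb)
  have h4 := redDiv_gDiv v c hu
  rw [map_add, map_add, h0, hga, hgb] at h1
  rw [map_add, h0, hga] at h2
  rw [map_add, h0, hgb] at h3
  rw [h0] at h4
  have h5 := add_mem (sub_mem (sub_mem h1 h2) h3) h4
  simp only [sq, map_add, map_sub]
  convert h5 using 1
  abel

end Sq

section Main

variable {L F : Type u} [Field L] [Field F] [Algebra L F] [Algebra K L] [Algebra K F]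
  [IsScalarTower K L F] [IsFunctionField L F] [IsAlgClosed L]

/-- The height is invariant under translation by constants. -/
theorem ht_add_const (c : Cocycle X) (u : Pt X F) (a : Pt X L) :
    ht L c (u + Pt.map (IsScalarTower.toAlgHom K L F) a) = ht L c u := by
  have key : ∀ b : Pt X L, ht L c (u + Pt.map (IsScalarTower.toAlgHom K L F) b) =
      ht (GenF X L) c (Pt.map (IsScalarTower.toAlgHom K F (CF L (GenF X L) F)) u +
        Pt.map (IsScalarTower.toAlgHom K (GenF X L) (CF L (GenF X L) F)) (genP X L)) := by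
    intro b
    obtain ⟨v, hv⟩ := exists_place_genP X L b
    rw [← ht_gauss_spec v c (add_mem (map_algebraMap_mem_compat v u)
      (map_const_mem_compat v (genP X L))), gauss_spec_add_const, hv]
  rw [key a, ← key 0, map_zero, add_zero]

theorem ord_nonneg_or_exists_transcendental {L' F' : Type u} [Field L'] [Field F']
    [Algebra L L'] [Algebra L' F'] [Algebra F F'] [Algebra L F'] [IsScalarTower L L' F']
    [IsScalarTower L F F'] [IsFunctionField L' F'] [IsAlgClosed L'] [IsConstExt L L' F F']
    (P : Place L' F') (hP : P ∉ Set.range (extPlace L' F' : Place L F → Place L' F')) {y : F}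
    (hy : ∀ c : L, y ≠ algebraMap L F c) :
    ∃ h : algebraMap F F' y ∈ P.toValuationSubring, Transcendental L (evalAt P ⟨_, h⟩) := by
  have h0 := fun f => ord_algebraMap_eq_zero_of_notMem_range (K := L) L' F' hP f
  have hm : algebraMap F F' y ∈ P.toValuationSubring :=
    (Fermat.Agent.FF.mem_iff_ord_nonneg P).mpr (h0 y).ge
  refine ⟨hm, fun halg => ?_⟩
  set c := evalAt P ⟨_, hm⟩
  obtain ⟨c₀, hc₀⟩ : c ∈ (algebraMap L L').range :=
    minpoly.degree_eq_one_iff.mp
      (IsAlgClosed.degree_eq_one_of_irreducible L (minpoly.irreducible halg.isIntegral))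
  have hne : y - algebraMap L F c₀ ≠ 0 := sub_ne_zero.mpr (hy c₀)
  have e : algebraMap F F' (y - algebraMap L F c₀) = algebraMap F F' y - algebraMap L' F' c := by
    rw [map_sub, ← IsScalarTower.algebraMap_apply, ← hc₀, ← IsScalarTower.algebraMap_apply]
  have hm' : algebraMap F F' (y - algebraMap L F c₀) ∈ P.toValuationSubring := by
    rw [e]; exact sub_mem hm (P.algebraMap_mem' c)
  have h1 : algebraMap F F' (y - algebraMap L F c₀) ∈ ordGE P 1 := by
    rw [← residue_eq_zero_iff P hm', IsLocalRing.residue_eq_zero_iff, ← evalAt_eq_zero_iff]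
    rw [show (⟨_, hm'⟩ : P.toValuationSubring) = ⟨_, hm⟩ - algebraMap L' _ c from Subtype.ext e,
      map_sub, AlgHom.commutes]
    exact sub_self c
  have := le_ord_of_mem_ordGE P h1 ((map_ne_zero _).mpr hne)
  rw [h0] at this
  omega

theorem le_redDiv_apply {L' F' : Type u} [Field L'] [Field F'] [Algebra L L'] [Algebra L' F']
    [Algebra F F'] [Algebra L F'] [IsScalarTower L L' F'] [IsScalarTower L F F']
    [IsFunctionField L' F'] [IsAlgClosed L'] [IsConstExt L L' F F'] (v : LPlace L L')
    {E : Divisor L' F'} (hE : 0 ≤ E) (P : Place L' F') :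
    E P ≤ redDiv F F' v E (redPlace v P) := by
  classical
  have h : 0 ≤ redDiv F F' v (E - Finsupp.single P (E P)) := redDiv_nonneg v fun Q => by
    rw [Finsupp.sub_apply, Finsupp.single_apply]
    split_ifs with e
    · subst e; simp
    · simpa using hE Q
  have h2 := h (redPlace v P)
  rw [map_sub, redDiv_single, Finsupp.sub_apply, Finsupp.single_eq_same, Finsupp.coe_zero,
    Pi.zero_apply] at h2
  omega

/-- The theorem of the square on a curve. -/
theorem sq_mem_principal (c : Cocycle X) (u : Pt X F) (a b : Pt X L) :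
    sq c u a b ∈ Divisor.principal (K := L) (F := F) := by
  classical
  let L₁ := GenF X L
  let F₁ := CF L L₁ F
  let L₂ := GenF X L₁
  let F₂ := CF L₁ L₂ F₁
  let u₁ : Pt X F₁ := Pt.map (IsScalarTower.toAlgHom K F F₁) u
  let u₂ : Pt X F₂ := Pt.map (IsScalarTower.toAlgHom K F₁ F₂) u₁
  let α : Pt X L₁ := genP X L
  let α₂ : Pt X L₂ := Pt.map (IsScalarTower.toAlgHom K L₁ L₂) α
  let β : Pt X L₂ := genP X L₁
  let Θ : Divisor L₂ F₂ := sq c u₂ α₂ β
  have hred₂ : ∀ b' : Pt X L₁, ∃ v : LPlace L₁ L₂, v.spec β = b' ∧
      redDiv F₁ F₂ v Θ - sq c u₁ α b' ∈ Divisor.principal (K := L₁) (F := F₁) := by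
    intro b'
    obtain ⟨v, hv⟩ := exists_place_genP X L₁ b'
    refine ⟨v, hv, ?_⟩
    have h := redDiv_sq (F' := F₂) v c u₁ α₂ β
    rwa [hv, LPlace.spec_map_const] at h
  have hdegΘ : Divisor.degree Θ = 0 := by
    obtain ⟨v, hv, f, hf, hfD⟩ := hred₂ 0
    rw [sq_zero_right, sub_zero] at hfD
    rw [← degree_redDiv (F := F₁) v Θ, show redDiv F₁ F₂ v Θ = dv L₁ f from Finsupp.ext hfD, degree_dv]
  obtain ⟨P₀, hP₀, hdeg₀, huniq⟩ := exists_isolated_divisor L F
  obtain ⟨v₀, hv₀⟩ := exists_notMem_place P₀.support
  obtain ⟨z, hz0, hzv, hzS⟩ := exists_ord_pos_and_forall_neg v₀ P₀.support hv₀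
  let y := z⁻¹
  have hyv : v₀.ord y < 0 := by rw [v₀.ord_inv]; omega
  have hyS : ∀ R, y ∉ R.toValuationSubring → P₀ R = 0 := fun R hR => by
    by_contra h
    refine hR ((Fermat.Agent.FF.mem_iff_ord_nonneg R).mpr ?_)
    have := hzS R (Finsupp.mem_support_iff.mpr h)
    rw [R.ord_inv]
    omega
  let y₁ : F₁ := algebraMap F F₁ y
  have hy₁ : ∀ c : L₁, y₁ ≠ algebraMap L₁ F₁ c := by
    intro c e
    have h := ord_extPlace_algebraMap (L := L₁) (F' := F₁) v₀ y
    rw [show algebraMap F F₁ y = algebraMap L₁ F₁ c from e, ord_algebraMap] at h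
    omega
  obtain ⟨D, hD, hDΘ⟩ := exists_effective
    (Θ + extDivisor L₂ F₂ (extDivisor L₁ F₁ P₀)) (by
      rw [map_add, hdegΘ, degree_extDivisor, degree_extDivisor, hdeg₀, zero_add,
        genusFF_eq L₁ F₁ L₂ F₂, genusFF_eq L F L₁ F₁])
  have hsupp : ∀ P, D P ≠ 0 → P ∈ Set.range (extPlace L₂ F₂ : Place L₁ F₁ → Place L₂ F₂) := by
    intro P hPD
    by_contra hP
    obtain ⟨hm, htr⟩ := ord_nonneg_or_exists_transcendental (L := L₁) (F := F₁) P hP hy₁
    set e := evalAt P ⟨_, hm⟩
    have he0 : e ≠ 0 := fun h => htr (h ▸ isAlgebraic_zero)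
    obtain ⟨π, hπ⟩ := exists_hom_adjoin_transcendental (M := L₂) (c := e⁻¹)
      (fun h => htr (inv_inv e ▸ h.inv)) (0 : L₁)
    obtain ⟨v, hv⟩ := LPlace.exists_extend _ π
    obtain ⟨hei, hev⟩ := hv ⟨e⁻¹, Algebra.self_mem_adjoin_singleton L₁ e⁻¹⟩
    rw [hπ] at hev
    have henot : e ∉ v.ring := by
      intro h
      have h2 : (⟨e, h⟩ : v.ring) * ⟨e⁻¹, hei⟩ = 1 := Subtype.ext (mul_inv_cancel₀ he0)
      have h3 := congrArg v.value h2
      rw [map_mul, hev, mul_zero, map_one] at h3
      exact zero_ne_one h3
    set R₁ : Place L₁ F₁ := redPlace v P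
    have hR₁ : y₁ ∉ R₁.toValuationSubring := fun h => henot h.choose_spec
    obtain ⟨v', hv'⟩ := exists_place_genP X L (0 : Pt X L)
    set D₁ := redDiv F₁ F₂ v D
    have hD₁0 : 0 ≤ D₁ := redDiv_nonneg v hD
    have hD₁ : D₁ - (sq c u₁ α (v.spec β) + extDivisor L₁ F₁ P₀) ∈
        Divisor.principal (K := L₁) (F := F₁) := by
      have h1 := redDiv_mem_principal (F := F₁) v hDΘ
      rw [map_sub, map_add, redDiv_extDivisor] at h1
      have h2 := redDiv_sq (F' := F₂) v c u₁ α₂ β
      rw [LPlace.spec_map_const] at h2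
      convert add_mem h1 h2 using 1
      simp only [D₁, Θ]
      abel
    set D₂ := redDiv F F₁ v' D₁
    have hD₂ : D₂ - P₀ ∈ Divisor.principal (K := L) (F := F) := by
      have h1 := redDiv_mem_principal (F := F) v' hD₁
      rw [map_sub, map_add, redDiv_extDivisor] at h1
      have h2 := redDiv_sq (F' := F₁) v' c u α (v.spec β)
      rw [hv', sq_zero_left, sub_zero] at h2
      convert add_mem h1 h2 using 1
      simp only [D₂]
      abel
    have hpos : 0 < D₂ (redPlace v' R₁) := by
      have h1 := le_redDiv_apply (L := L₁) (F := F₁) v hD P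
      have h2 := le_redDiv_apply (L := L) (F := F) v' hD₁0 R₁
      have h3 := hD P
      simp only [Finsupp.coe_zero, Pi.zero_apply] at h3
      exact lt_of_lt_of_le (lt_of_lt_of_le (lt_of_le_of_ne h3 (Ne.symm hPD)) h1) h2
    rw [huniq D₂ (redDiv_nonneg v' hD₁0) hD₂,
      hyS (redPlace v' R₁) (fun h => hR₁ h.choose)] at hpos
    exact lt_irrefl _ hpos
  let D₁ : Divisor L₁ F₁ := Finsupp.comapDomain (extPlace L₂ F₂) D
    (Set.injOn_of_injective extPlace_injective)
  have hDext : D = extDivisor L₂ F₂ D₁ := by
    refine Finsupp.ext fun P => ?_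
    by_cases hP : P ∈ Set.range (extPlace L₂ F₂ : Place L₁ F₁ → Place L₂ F₂)
    · obtain ⟨R, rfl⟩ := hP
      rw [extDivisor_apply_extPlace]
      rfl
    · rw [extDivisor_apply_of_notMem_range L₂ F₂ D₁ hP]
      by_contra h
      exact hP (hsupp P h)
  have hΘ : Θ ∈ Divisor.principal (K := L₂) (F := F₂) := by
    obtain ⟨v, -, hv⟩ := hred₂ 0
    rw [sq_zero_right, sub_zero] at hv
    have h1 := redDiv_mem_principal (F := F₁) v hDΘ
    rw [map_sub, map_add, hDext, redDiv_extDivisor, redDiv_extDivisor] at h1
    have h2 : D₁ - extDivisor L₁ F₁ P₀ ∈ Divisor.principal (K := L₁) (F := F₁) := by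
      convert add_mem h1 hv using 1
      abel
    have h3 := extDivisor_mem_principal (L := L₂) (F' := F₂) h2
    rw [map_sub, ← hDext] at h3
    convert sub_mem h3 hDΘ using 1
    abel
  obtain ⟨v, -, hv⟩ := hred₂ (Pt.map (IsScalarTower.toAlgHom K L L₁) b)
  have h1 : sq c u₁ α (Pt.map (IsScalarTower.toAlgHom K L L₁) b) ∈
      Divisor.principal (K := L₁) (F := F₁) := by
    convert sub_mem (redDiv_mem_principal (F := F₁) v hΘ) hv using 1
    abel
  obtain ⟨v', hv'⟩ := exists_place_genP X L a
  have h2 := redDiv_sq (F' := F₁) v' c u α (Pt.map (IsScalarTower.toAlgHom K L L₁) b)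
  rw [hv', LPlace.spec_map_const] at h2
  convert sub_mem (redDiv_mem_principal (F := F) v' h1) h2 using 1
  abel

end Main

end Fermat.Agent.AV
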