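import Fermat.Agent.AV.Tangent
import Fermat.Agent.AV.GenHom
import Fermat.Agent.AV.PlaceExt

/-!
# Symmetrical rational functions with independent differentials
-/

set_option autoImplicit false
set_option linter.unusedSectionVars false

noncomputable section

universe u

open CategoryTheory AlgebraicGeometry TrivSqZeroExt

namespace Fermat.Agent.AV

variable {K : Type u} [Field K] {X : AbVar K} [IsAlgClosed K]
variable {R : Type u} [CommRing R] [Algebra K R]

variable (X) in
/-- Constant tangent vectors forming a basis over every algebra. -/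
theorem exists_tangent_basis :
    ∃ e : Fin X.dim → Tan X K,
      (∀ c : Fin X.dim → K, ∑ j, Tan.scale (c j) (e j) = 0 → c = 0) ∧
      ∀ (R : Type u) [CommRing R] [Algebra K R] (τ : Tan X R), ∃ c : Fin X.dim → R,
        τ = ∑ j, Tan.scale (c j) (Tan.mapHom (Algebra.ofId K R) (e j)) := by
  classical
  obtain ⟨U, h0, t, e, he, hR⟩ := exists_coordinates X
  refine ⟨e, fun c hc => funext fun i => ?_, fun R _ _ τ => ?_⟩
  · have h : dHom U h0 (t i) (∑ j, Tan.scale (c j) (e j)) = 0 := by rw [hc, map_zero]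
    rw [map_sum] at h
    simpa [dHom_apply, dVal_scale, he] using h
  obtain ⟨hR0, hdet⟩ := hR R
  refine ⟨fun j => dVal U hR0 (t j) τ, sub_eq_zero.mp (hdet _ fun i => ?_)⟩
  have key : ∀ (p q : Pt X R) (hp : p.Mem U.1) (hq : q.Mem U.1) (σ : Tan X R) (s),
      p = q → dVal U hp s σ = dVal U hq s σ := by rintro p q hp hq σ s rfl; rfl
  have hb : ∀ j, dVal U hR0 (t i) (Tan.mapHom (Algebra.ofId K R) (e j)) =
      if i = j then 1 else 0 := fun j => by
    rw [key 0 (Pt.map (Algebra.ofId K R) 0) hR0 (h0.map _) _ _ (map_zero _).symm,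
      dVal_mapHom U h0, he]
    split_ifs <;> simp
  rw [← dHom_apply, map_sub, map_sum]
  simp only [dHom_apply, dVal_scale, hb, mul_ite, mul_one, mul_zero, Finset.sum_ite_eq,
    Finset.mem_univ, if_true, sub_self]

theorem dVal_eval_mul (U : Chart X) {p : Pt X R} (hp : p.Mem U.1) (a b : Γ(X.carrier, U.1))
    (τ : Tan X R) :
    dVal U hp (a * b) τ = p.eval U hp a * dVal U hp b τ + p.eval U hp b * dVal U hp a τ := by
  simp only [dVal, map_mul, snd_mul, fst_eval_at U hp]
  simp [mul_comm]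

theorem dVal_sub_const (U : Chart X) {p : Pt X R} (hp : p.Mem U.1) (a : Γ(X.carrier, U.1)) (c : K)
    (τ : Tan X R) :
    dVal U hp (a - algebraMap K _ c) τ = dVal U hp a τ := by
  simp only [dVal, map_sub, AlgHom.commutes, snd_sub, algebraMap_eq_inl', snd_inl, sub_zero]

variable (X) in
/-- Sections with differentials detecting tangent vectors at a rational point. -/
theorem exists_detecting {p : Pt X K} (U : Chart X) (hp : p.Mem U.1) :
    ∃ s : Fin X.dim → Γ(X.carrier, U.1),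
      ∀ τ : Tan X K, (∀ i, dVal U hp (s i) τ = 0) → τ = 0 := by
  classical
  obtain ⟨U₀, h0, t, e, he, hR⟩ := exists_coordinates X
  obtain ⟨hR0, hdet⟩ := hR K
  let Λ : Γ(X.carrier, U.1) →ₗ[K] (Fin X.dim → K) :=
    LinearMap.pi fun j =>
      ((TrivSqZeroExt.sndHom K K).restrictScalars K).comp
        ((Tan.at p (e j)).eval U (Tan.mem_at hp (e j))).toLinearMap
  have hΛ : ∀ s j, Λ s j = dVal U hp s (e j) := fun s j => rfl
  have hsurj : Function.Surjective Λ := by
    rw [← LinearMap.range_eq_top]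
    by_contra hne
    obtain ⟨φ, hφ, hφΛ⟩ := Submodule.exists_dual_map_eq_bot_of_lt_top (lt_top_iff_ne_top.mpr hne)
      inferInstance
    refine hφ (LinearMap.pi_ext' fun j => ?_)
    let c : Fin X.dim → K := fun j => φ (Pi.single j 1)
    let τ : Tan X K := ∑ j, Tan.scale (c j) (e j)
    have hτ : τ = 0 := by
      refine Tan.ext_dVal U hp fun s => ?_
      have h1 : φ (Λ s) = 0 := by
        have : φ (Λ s) ∈ (LinearMap.range Λ).map φ := ⟨Λ s, ⟨s, rfl⟩, rfl⟩
        rwa [hφΛ, Submodule.mem_bot] at this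
      rw [← dHom_apply, ← dHom_apply, map_zero, map_sum]
      simp only [dHom_apply, dVal_scale]
      rw [show Λ s = ∑ j, Λ s j • (Pi.single j (1 : K) : Fin X.dim → K) from
        pi_eq_sum_univ' (Λ s), map_sum] at h1
      simpa [c, hΛ, mul_comm] using h1
    refine LinearMap.ext_ring ?_
    have h2 : dVal U₀ hR0 (t j) τ = c j := by
      rw [← dHom_apply, map_sum]
      simp only [dHom_apply, dVal_scale]
      rw [show hR0 = h0 from rfl]
      simp [he]
    rw [hτ, ← dHom_apply, map_zero] at h2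
    simpa [c] using h2.symm
  choose s hs using fun i => hsurj (Pi.single i (1 : K))
  refine ⟨s, fun τ hτ => hdet τ fun i => ?_⟩
  have hbasis : τ = ∑ j, Tan.scale (dVal U₀ hR0 (t j) τ) (e j) := by
    refine sub_eq_zero.mp (hdet _ fun k => ?_)
    rw [← dHom_apply, map_sub, map_sum]
    simp only [dHom_apply, dVal_scale]
    rw [show hR0 = h0 from rfl]
    simp [he]
  have h3 := hτ i
  rw [hbasis, ← dHom_apply, map_sum] at h3
  simp only [dHom_apply, dVal_scale, ← hΛ, hs] at h3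
  simpa [Pi.single_apply] using h3

variable (X) in
/-- Symmetrical functions, regular at a rational point, with independent differentials there. -/
theorem exists_symmetric_functions :
    ∃ (ι : FFld X →ₐ[K] FFld X) (U : Chart X) (hU : genericPoint X.carrier ∈ U.1) (p₀ : Pt X K)
      (hp : p₀.Mem U.1) (s : Fin X.dim → Γ(X.carrier, U.1)),
      Pt.map ι (genPt X) = -genPt X ∧
      (∀ i, ι (germAlg U.1 hU (s i)) = germAlg U.1 hU (s i)) ∧
      ∀ τ : Tan X K, (∀ i, dVal U hp (s i) τ = 0) → τ = 0 := by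
  classical
  obtain ⟨ι, hι⟩ := exists_invHom X
  have hιι : ∀ f, ι (ι f) = f := by
    have h : ι.comp ι = AlgHom.id K _ := genHom_ext (by
      rw [← Pt.map_map, hι, map_neg, hι, neg_neg, Pt.map_id])
    exact fun f => AlgHom.congr_fun h f
  obtain ⟨U, hU⟩ := exists_generic_chart X
  have hdom : IsDomain Γ(X.carrier, U.1) := (germAlg_injective U.1 hU).isDomain
  obtain ⟨S, hS⟩ := (finiteType_sections X U).out
  by_cases hid : ∀ b ∈ S, ι (germAlg U.1 hU b) = germAlg U.1 hU b
  · have hall : ∀ b, ι (germAlg U.1 hU b) = germAlg U.1 hU b := fun b => by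
      have h : ι.comp (germAlg U.1 hU) = germAlg U.1 hU :=
        AlgHom.ext_of_adjoin_eq_top hS fun b hb => hid b hb
      exact AlgHom.congr_fun h b
    obtain ⟨φ, -⟩ := exists_point_of_ne_zero K Γ(X.carrier, U.1) one_ne_zero
    obtain ⟨s, hs⟩ := exists_detecting X U (Pt.mem_ofEval U φ)
    exact ⟨ι, U, hU, Pt.ofEval U φ, Pt.mem_ofEval U φ, s, hι, fun i => hall _, hs⟩
  push Not at hid
  obtain ⟨b₁, hb₁, hne₁⟩ := hid
  choose A C hC hAC using fun b : Γ(X.carrier, U.1) =>
    exists_eq_germ_div U hU (ι (germAlg U.1 hU b))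
  set D := (∏ b ∈ S, C b) * (A b₁ - C b₁ * b₁) with hD
  have hC' : ∀ b, germAlg U.1 hU (C b) ≠ 0 := fun b =>
    (map_ne_zero_iff _ (germAlg_injective _ _)).mpr (hC b)
  have hD0 : D ≠ 0 := by
    refine mul_ne_zero (Finset.prod_ne_zero_iff.mpr fun b _ => hC b) fun h => hne₁ ?_
    rw [hAC, div_eq_iff (hC' b₁), ← map_mul, mul_comm, sub_eq_zero.mp h]
  obtain ⟨φ, hφ⟩ := exists_point_of_ne_zero K Γ(X.carrier, U.1) hD0
  let V : Chart X := ⟨X.carrier.basicOpen D, U.2.basicOpen D⟩
  have hVU : V.1 ≤ U.1 := X.carrier.basicOpen_le D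
  let _ : Algebra Γ(X.carrier, U.1) Γ(X.carrier, V.1) := (resAlg (X := X) hVU).toRingHom.toAlgebra
  have hloc : IsLocalization.Away D Γ(X.carrier, V.1) := U.2.isLocalization_basicOpen D
  have : IsScalarTower K Γ(X.carrier, U.1) Γ(X.carrier, V.1) :=
    IsScalarTower.of_algebraMap_eq fun c => ((resAlg (X := X) hVU).commutes c).symm
  let φ₂ : Γ(X.carrier, V.1) →ₐ[K] K :=
    IsLocalization.Away.liftAlgHom D (f := φ) (isUnit_iff_ne_zero.mpr hφ)
  let p₀ : Pt X K := Pt.ofEval V φ₂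
  have hp : p₀.Mem V.1 := Pt.mem_ofEval V φ₂
  have hV : genericPoint X.carrier ∈ V.1 := mem_genericPoint_of_mem hp
  have hp₀ : ∀ b, p₀.eval U (hp.mono hVU) b = φ b := fun b => by
    rw [Pt.eval_res p₀ U V hVU hp, Pt.eval_ofEval]
    exact IsLocalization.Away.lift_eq D (isUnit_iff_ne_zero.mpr hφ) b
  have hrange : ∀ b, ι (germAlg U.1 hU b) ∈ (germAlg V.1 hV).range := fun b => by
    have hmem : b ∈ ((germAlg V.1 hV).range).comap (ι.comp (germAlg U.1 hU)) := by
      refine (Algebra.adjoin_le fun c hc => ?_) (hS.symm ▸ trivial :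
        b ∈ Algebra.adjoin K (S : Set _))
      show ι (germAlg U.1 hU c) ∈ (germAlg V.1 hV).range
      have hu : IsUnit (algebraMap Γ(X.carrier, U.1) Γ(X.carrier, V.1) (C c)) :=
        isUnit_of_dvd_unit (map_dvd _ ((Finset.dvd_prod_of_mem C hc).mul_right _))
          (IsLocalization.Away.algebraMap_isUnit D)
      obtain ⟨w, hw⟩ := hu.exists_right_inv
      refine ⟨algebraMap Γ(X.carrier, U.1) Γ(X.carrier, V.1) (A c) * w, ?_⟩
      have h2 := congrArg (germAlg V.1 hV) hw
      rw [map_mul, map_one] at h2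
      have h3 : germAlg V.1 hV (algebraMap Γ(X.carrier, U.1) Γ(X.carrier, V.1) (C c)) =
        germAlg U.1 hU (C c) := germAlg_res hVU hV _
      have h4 : germAlg V.1 hV (algebraMap Γ(X.carrier, U.1) Γ(X.carrier, V.1) (A c)) =
        germAlg U.1 hU (A c) := germAlg_res hVU hV _
      rw [h3] at h2
      show germAlg V.1 hV (_ * w) = _
      rw [map_mul, h4, hAC, eq_div_iff (hC' c), mul_assoc, mul_comm (germAlg V.1 hV w), h2, mul_one]
    exact hmem
  let j : Γ(X.carrier, U.1) →ₐ[K] Γ(X.carrier, V.1) :=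
    (AlgEquiv.ofInjective (germAlg V.1 hV) (germAlg_injective V.1 hV)).symm.toAlgHom.comp
      ((ι.comp (germAlg U.1 hU)).codRestrict _ hrange)
  have hj : ∀ b, germAlg V.1 hV (j b) = ι (germAlg U.1 hU b) := fun b =>
    congrArg Subtype.val
      ((AlgEquiv.ofInjective (germAlg V.1 hV) (germAlg_injective V.1 hV)).apply_symm_apply _)
  have hjn : -(Pt.ofEval V (AlgHom.id K Γ(X.carrier, V.1))) = Pt.ofEval U j := by
    have : IsReduced Γ(X.carrier, V.1) := by
      have := (germAlg_injective V.1 hV).isDomain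
      infer_instance
    refine Pt.map_injective_of_injective (germAlg V.1 hV) (germAlg_injective V.1 hV) ?_
    rw [map_neg, Pt.map_ofEval, Pt.map_ofEval, AlgHom.comp_id, ← genPt_eq V hV,
      show (germAlg V.1 hV).comp j = ι.comp (germAlg U.1 hU) from AlgHom.ext hj, ← Pt.map_ofEval,
      ← genPt_eq U hU, hι]
  have hneg : ∀ {S' : Type u} [CommRing S'] [Algebra K S'] (q : Pt X S') (hq : q.Mem V.1),
      ∃ h : (-q).Mem U.1, (-q).eval U h = (q.eval V hq).comp j := by
    intro S' _ _ q hq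
    have e : -q = Pt.ofEval U ((q.eval V hq).comp j) := by
      conv_lhs => rw [← Pt.ofEval_eval q V hq, ← AlgHom.comp_id (q.eval V hq), ← Pt.map_ofEval,
        ← map_neg, hjn, Pt.map_ofEval]
    have h : (-q).Mem U.1 := e ▸ Pt.mem_ofEval U _
    refine ⟨h, ?_⟩
    rw [Pt.eval_congr_left U e h (Pt.mem_ofEval U _), Pt.eval_ofEval]
  obtain ⟨hnp, hnpe⟩ := hneg p₀ hp
  set d := φ b₁ - (-p₀).eval U hnp b₁ with hd
  have hd0 : d ≠ 0 := by
    intro h
    have h1 : φ₂ (j b₁) * φ (C b₁) = φ (A b₁) := by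
      have h2 : j b₁ * resAlg hVU (C b₁) = resAlg hVU (A b₁) := germAlg_injective V.1 hV (by
        rw [map_mul, hj, germAlg_res, germAlg_res, hAC, div_mul_cancel₀ _ (hC' b₁)])
      have h5 : ∀ b, φ₂ (resAlg hVU b) = φ b := fun b =>
        IsLocalization.Away.lift_eq D (isUnit_iff_ne_zero.mpr hφ) b
      rw [← h5, ← h5, ← map_mul, h2]
    refine hφ ?_
    rw [hd, hnpe, AlgHom.comp_apply, Pt.eval_ofEval, sub_eq_zero] at h
    rw [hD, map_mul, map_sub, map_mul, ← h1, h]
    ring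
  obtain ⟨s₀, hs₀⟩ := exists_detecting X U (hp.mono hVU)
  let w : Γ(X.carrier, U.1) :=
    algebraMap K _ d⁻¹ * (b₁ - algebraMap K _ ((-p₀).eval U hnp b₁))
  let Y : Fin X.dim → Γ(X.carrier, U.1) := fun i => (s₀ i - algebraMap K _ (φ (s₀ i))) * (w * w)
  refine ⟨ι, V, hV, p₀, hp, fun i => resAlg hVU (Y i) + j (Y i), hι, fun i => ?_, fun τ hτ =>
    hs₀ τ fun i => ?_⟩
  · rw [map_add, germAlg_res, hj, map_add, hιι]
    exact add_comm _ _
  rw [← hτ i]
  have hw0 : (-p₀).eval U hnp w = 0 := by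
    simp [w]
  have hw1 : p₀.eval U (hp.mono hVU) w = 1 := by
    simp only [w, map_mul, map_sub, AlgHom.commutes, hp₀]
    exact inv_mul_cancel₀ hd0
  have hfst : dVal V hp (resAlg hVU (Y i)) τ = dVal U (hp.mono hVU) (s₀ i) τ := by
    have e1 : dVal V hp (resAlg hVU (Y i)) τ = dVal U (hp.mono hVU) (Y i) τ := by
      rw [dVal, dVal, Pt.eval_res (Tan.at p₀ τ) U V hVU (Tan.mem_at hp τ)]
    rw [e1, dVal_eval_mul, dVal_sub_const]
    simp [map_mul, hw1, (hp₀ w).symm.trans hw1, hp₀]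
  have hsnd : dVal V hp (j (Y i)) τ = 0 := by
    obtain ⟨h, e⟩ := hneg (Tan.at p₀ τ) (Tan.mem_at hp τ)
    have e2 : -Tan.at p₀ τ = Tan.at (-p₀) (-τ) := by
      simp only [Tan.at, map_neg, AddSubgroup.coe_neg, neg_add]
    have h1 : dVal U hnp (Y i) (-τ) = dVal V hp (j (Y i)) τ := by
      rw [dVal, dVal, ← Pt.eval_congr_left U e2 h (Tan.mem_at hnp _), e]
      rfl
    rw [← h1, dVal_eval_mul, dVal_eval_mul]
    simp [map_mul, hw0]
  have hadd : dVal V hp (resAlg hVU (Y i) + j (Y i)) τ =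
      dVal V hp (resAlg hVU (Y i)) τ + dVal V hp (j (Y i)) τ := by
    simp [dVal]
  show _ = dVal V hp (resAlg hVU (Y i) + j (Y i)) τ
  rw [hadd, hfst, hsnd, add_zero]

end Fermat.Agent.AV
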