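import Fermat.Agent.AV.FunctionField
import Mathlib.Algebra.TrivSqZeroExt.Basic
import Mathlib.RingTheory.Etale.Basic

/-!
# Tangent vectors by dual numbers
-/

set_option autoImplicit false
set_option linter.unusedSectionVars false

noncomputable section

universe u

open CategoryTheory AlgebraicGeometry TrivSqZeroExt

namespace Fermat.Agent.AV

variable {K : Type u} [Field K] {X : AbVar K}
variable {R S : Type u} [CommRing R] [Algebra K R] [CommRing S] [Algebra K S]

/-- Dual numbers over `R`. -/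
abbrev Dual₁ (R : Type u) : Type u := TrivSqZeroExt R R

/-- Square zero extension by two variables. -/
abbrev Dual₂ (R : Type u) : Type u := TrivSqZeroExt R (R × R)

section Alg

variable {M N : Type u} [AddCommGroup M] [Module R M] [Module Rᵐᵒᵖ M] [IsCentralScalar R M]
  [Module K M] [IsScalarTower K R M] [IsScalarTower K Rᵐᵒᵖ M]
  [AddCommGroup N] [Module R N] [Module Rᵐᵒᵖ N] [IsCentralScalar R N]
  [Module K N] [IsScalarTower K R N] [IsScalarTower K Rᵐᵒᵖ N]

variable (K R M) in
/-- The inclusion of constants. -/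
abbrev inlH : R →ₐ[K] TrivSqZeroExt R M := inlAlgHom K R M

variable (K R M) in
/-- The augmentation. -/
abbrev fstH : TrivSqZeroExt R M →ₐ[K] R := fstHom K R M

variable (K) in
/-- The map induced by a linear map of the square zero parts. -/
def sqMap (f : M →ₗ[R] N) : TrivSqZeroExt R M →ₐ[K] TrivSqZeroExt R N where
  toRingHom := (TrivSqZeroExt.map f).toRingHom
  commutes' c := by
    show TrivSqZeroExt.map f (algebraMap K (TrivSqZeroExt R M) c) = _
    rw [algebraMap_eq_inl', algebraMap_eq_inl', TrivSqZeroExt.map_inl]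

theorem fst_sqMap (f : M →ₗ[R] N) (x : TrivSqZeroExt R M) : (sqMap K f x).fst = x.fst :=
  TrivSqZeroExt.fst_map f x

theorem snd_sqMap (f : M →ₗ[R] N) (x : TrivSqZeroExt R M) : (sqMap K f x).snd = f x.snd :=
  TrivSqZeroExt.snd_map f x

theorem fstH_comp_sqMap (f : M →ₗ[R] N) : (fstH K R N).comp (sqMap K f) = fstH K R M :=
  AlgHom.ext fun x => fst_sqMap (K := K) f x

theorem sqMap_comp_inlH (f : M →ₗ[R] N) : (sqMap K f).comp (inlH K R M) = inlH K R N :=
  AlgHom.ext fun r => TrivSqZeroExt.map_inl f r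

theorem fstH_comp_inlH : (fstH K R M).comp (inlH K R M) = AlgHom.id K R :=
  AlgHom.ext fun r => fst_inl M r

theorem sqMap_zero : sqMap K (0 : M →ₗ[R] N) = (inlH K R N).comp (fstH K R M) :=
  AlgHom.ext fun x => TrivSqZeroExt.ext (by simp [fst_sqMap]) (by simp [snd_sqMap])

theorem sqMap_comp {P : Type u} [AddCommGroup P] [Module R P] [Module Rᵐᵒᵖ P] [IsCentralScalar R P]
    [Module K P] [IsScalarTower K R P] [IsScalarTower K Rᵐᵒᵖ P] (f : M →ₗ[R] N) (g : N →ₗ[R] P) :
    (sqMap K g).comp (sqMap K f) = sqMap K (g.comp f) :=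
  AlgHom.ext fun x => TrivSqZeroExt.ext (by simp [fst_sqMap]) (by simp [snd_sqMap])

theorem sqMap_id : sqMap K (LinearMap.id : M →ₗ[R] M) = AlgHom.id K _ :=
  AlgHom.ext fun x => TrivSqZeroExt.ext (by simp [fst_sqMap]) (by simp [snd_sqMap])

theorem isNilpotent_ker_fst :
    IsNilpotent (RingHom.ker (fstH K R M : TrivSqZeroExt R M →+* R)) := by
  refine ⟨2, le_bot_iff.mp ?_⟩
  rw [sq, Ideal.mul_le]
  intro a ha b hb
  have ha' : a.fst = 0 := ha
  have hb' : b.fst = 0 := hb
  rw [Ideal.mem_bot]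
  exact TrivSqZeroExt.ext (by simp [ha']) (by simp [ha', hb'])

/-- A point of a square zero extension lies in an open as soon as its reduction does. -/
theorem Pt.mem_of_fst {x : Pt X (TrivSqZeroExt R M)} {U : X.carrier.Opens}
    (h : (Pt.map (fstH K R M) x).Mem U) : x.Mem U := by
  intro p
  have hp : p = (Spec.map (CommRingCat.ofHom (fstH K R M).toRingHom))
      (PrimeSpectrum.comap (inlHom R M) p) := by
    refine PrimeSpectrum.ext (Ideal.ext fun z => ?_)
    show z ∈ p.asIdeal ↔ (inl z.fst : TrivSqZeroExt R M) ∈ p.asIdeal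
    have hz : (inr z.snd : TrivSqZeroExt R M) ∈ p.asIdeal := by
      refine p.isPrime.mem_of_pow_mem 2 ?_
      rw [sq, inr_mul_inr]
      exact Ideal.zero_mem _
    conv_lhs => rw [← inl_fst_add_inr_snd_eq z]
    exact p.asIdeal.add_mem_iff_left hz
  have h1 := h (PrimeSpectrum.comap (inlHom R M) p)
  rw [hp]
  exact h1

end Alg

variable (K) in
/-- Extension of scalars of dual numbers. -/
def dualMap (φ : R →ₐ[K] S) : Dual₁ R →ₐ[K] Dual₁ S where
  toFun x := inl (φ x.fst) + inr (φ x.snd)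
  map_one' := by ext <;> simp
  map_mul' x y := by ext <;> simp [mul_comm]
  map_zero' := by ext <;> simp
  map_add' x y := by ext <;> simp
  commutes' c := by ext <;> simp [algebraMap_eq_inl']

theorem fstH_comp_dualMap (φ : R →ₐ[K] S) :
    (fstH K S S).comp (dualMap K φ) = φ.comp (fstH K R R) :=
  AlgHom.ext fun x => by simp [dualMap]

theorem dualMap_comp_inlH (φ : R →ₐ[K] S) :
    (dualMap K φ).comp (inlH K R R) = (inlH K S S).comp φ :=
  AlgHom.ext fun x => TrivSqZeroExt.ext (by simp [dualMap]) (by simp [dualMap])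

theorem snd_dualMap (φ : R →ₐ[K] S) (x : Dual₁ R) : (dualMap K φ x).snd = φ x.snd := by
  simp [dualMap]

variable (X R) in
/-- Tangent vectors at the origin. -/
def Tan : AddSubgroup (Pt X (Dual₁ R)) := (Pt.map (X := X) (fstH K R R)).ker

theorem mem_tan {τ : Pt X (Dual₁ R)} : τ ∈ Tan X R ↔ Pt.map (fstH K R R) τ = 0 := Iff.rfl

theorem Tan.map_eq (τ : Tan X R) : Pt.map (fstH K R R) (τ : Pt X (Dual₁ R)) = 0 := τ.2

/-- Multiplication of a tangent vector by a scalar. -/
def Tan.scale (c : R) : Tan X R →+ Tan X R :=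
  ((Pt.map (sqMap K (c • LinearMap.id : R →ₗ[R] R))).comp (Tan X R).subtype).codRestrict _ fun τ => by
    rw [mem_tan, AddMonoidHom.comp_apply, Pt.map_map, fstH_comp_sqMap]
    exact τ.2

/-- Functoriality of tangent vectors. -/
def Tan.mapHom (φ : R →ₐ[K] S) : Tan X R →+ Tan X S :=
  ((Pt.map (dualMap K φ)).comp (Tan X R).subtype).codRestrict _ fun τ => by
    rw [mem_tan, AddMonoidHom.comp_apply, Pt.map_map, fstH_comp_dualMap, ← Pt.map_map]
    show Pt.map φ (Pt.map (fstH K R R) τ.1) = 0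
    rw [Tan.map_eq, map_zero]

/-- The first order point at `p` in direction `τ`. -/
def Tan.at (p : Pt X R) (τ : Tan X R) : Pt X (Dual₁ R) := Pt.map (inlH K R R) p + τ

theorem Tan.map_fst_at (p : Pt X R) (τ : Tan X R) : Pt.map (fstH K R R) (Tan.at p τ) = p := by
  rw [Tan.at, map_add, Tan.map_eq, add_zero, Pt.map_map, fstH_comp_inlH, Pt.map_id]

theorem Tan.mem_at {p : Pt X R} {U : X.carrier.Opens} (hp : p.Mem U) (τ : Tan X R) :
    (Tan.at p τ).Mem U :=
  Pt.mem_of_fst (by rw [Tan.map_fst_at]; exact hp)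

variable (U : Chart X) {p : Pt X R} (hp : p.Mem U.1) (s : Γ(X.carrier, U.1))

/-- The differential of a section. -/
def dVal (τ : Tan X R) : R := ((Tan.at p τ).eval U (Tan.mem_at hp τ) s).snd

theorem Pt.eval_congr_left {T : Type u} [CommRing T] [Algebra K T] {x y : Pt X T} (e : x = y)
    (hx : x.Mem U.1) (hy : y.Mem U.1) : x.eval U hx = y.eval U hy := by subst e; rfl

theorem fst_eval_at (τ : Tan X R) :
    ((Tan.at p τ).eval U (Tan.mem_at hp τ) s).fst = p.eval U hp s := by
  have h := AlgHom.congr_fun (Pt.eval_map (fstH K R R) (Tan.at p τ) U (Tan.mem_at hp τ)) s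
  rw [Pt.eval_congr_left U (Tan.map_fst_at p τ) ((Tan.mem_at hp τ).map _) hp] at h
  exact h.symm

theorem dVal_add (τ τ' : Tan X R) : dVal U hp s (τ + τ') = dVal U hp s τ + dVal U hp s τ' := by
  let i₁ : R →ₗ[R] R × R := LinearMap.inl R R R
  let i₂ : R →ₗ[R] R × R := LinearMap.inr R R R
  let q : Pt X (Dual₂ R) :=
    Pt.map (inlH K R (R × R)) p + Pt.map (sqMap K i₁) τ.1 + Pt.map (sqMap K i₂) τ'.1
  have hq : q.Mem U.1 := Pt.mem_of_fst (by
    simp only [q, map_add, Pt.map_map, fstH_comp_sqMap, fstH_comp_inlH, Pt.map_id, Tan.map_eq,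
      add_zero]
    exact hp)
  have key : ∀ (g : R × R →ₗ[R] R) (σ : Tan X R),
      Pt.map (sqMap K g) q = Tan.at p σ →
      g ((q.eval U hq s).snd) = dVal U hp s σ := by
    intro g σ e
    have h := AlgHom.congr_fun (Pt.eval_map (sqMap K g) q U hq) s
    rw [Pt.eval_congr_left U e (hq.map _) (Tan.mem_at hp σ)] at h
    rw [dVal, h, AlgHom.comp_apply, snd_sqMap]
  have e0 : ∀ σ : Tan X R, Pt.map (sqMap K (0 : R →ₗ[R] R)) σ.1 = 0 := fun σ => by
    rw [sqMap_zero, ← Pt.map_map, Tan.map_eq, map_zero]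
  have hA : Pt.map (sqMap K (LinearMap.fst R R R)) q = Tan.at p τ := by
    simp only [q, Tan.at, map_add, Pt.map_map, sqMap_comp, sqMap_comp_inlH, i₁, i₂,
      LinearMap.fst_comp_inl, LinearMap.fst_comp_inr, sqMap_id, Pt.map_id, e0, add_zero]
  have hB : Pt.map (sqMap K (LinearMap.snd R R R)) q = Tan.at p τ' := by
    simp only [q, Tan.at, map_add, Pt.map_map, sqMap_comp, sqMap_comp_inlH, i₁, i₂,
      LinearMap.snd_comp_inl, LinearMap.snd_comp_inr, sqMap_id, Pt.map_id, e0, add_zero]
  have hC : Pt.map (sqMap K (LinearMap.fst R R R + LinearMap.snd R R R)) q =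
      Tan.at p (τ + τ') := by
    simp only [q, Tan.at, map_add, Pt.map_map, sqMap_comp, sqMap_comp_inlH, i₁, i₂,
      LinearMap.add_comp, LinearMap.fst_comp_inl, LinearMap.fst_comp_inr, LinearMap.snd_comp_inl,
      LinearMap.snd_comp_inr, zero_add, add_zero, sqMap_id, Pt.map_id, AddSubgroup.coe_add,
      add_assoc]
  rw [← key _ _ hA, ← key _ _ hB, ← key _ _ hC]
  rfl

/-- The differential as an additive map. -/
def dHom : Tan X R →+ R := AddMonoidHom.mk' (dVal U hp s) (dVal_add U hp s)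

theorem dHom_apply (τ : Tan X R) : dHom U hp s τ = dVal U hp s τ := rfl

theorem dVal_scale (c : R) (τ : Tan X R) :
    dVal U hp s (Tan.scale c τ) = c * dVal U hp s τ := by
  have e : Pt.map (sqMap K (c • LinearMap.id : R →ₗ[R] R)) (Tan.at p τ) =
      Tan.at p (Tan.scale c τ) := by
    rw [Tan.at, Tan.at, map_add, Pt.map_map, sqMap_comp_inlH]
    rfl
  have h := AlgHom.congr_fun
    (Pt.eval_map (sqMap K (c • LinearMap.id : R →ₗ[R] R)) (Tan.at p τ) U (Tan.mem_at hp τ)) s
  rw [Pt.eval_congr_left U e ((Tan.mem_at hp τ).map _) (Tan.mem_at hp _)] at h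
  rw [dVal, h, AlgHom.comp_apply, snd_sqMap]
  rfl

theorem dVal_mapHom (φ : R →ₐ[K] S) (τ : Tan X R) :
    dVal U (hp.map φ) s (Tan.mapHom φ τ) = φ (dVal U hp s τ) := by
  have e : Pt.map (dualMap K φ) (Tan.at p τ) = Tan.at (Pt.map φ p) (Tan.mapHom φ τ) := by
    rw [Tan.at, Tan.at, map_add, Pt.map_map, dualMap_comp_inlH, ← Pt.map_map]
    rfl
  have h := AlgHom.congr_fun
    (Pt.eval_map (dualMap K φ) (Tan.at p τ) U (Tan.mem_at hp τ)) s
  rw [Pt.eval_congr_left U e ((Tan.mem_at hp τ).map _) (Tan.mem_at (hp.map φ) _)] at h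
  rw [dVal, h, AlgHom.comp_apply, snd_dualMap]
  rfl

theorem dVal_nsmul (n : ℕ) (τ : Tan X R) : dVal U hp s (n • τ) = n * dVal U hp s τ := by
  rw [← dHom_apply, map_nsmul, dHom_apply, nsmul_eq_mul]

/-- A tangent vector at `p` is determined by the differentials of a chart. -/
theorem Tan.ext_dVal {τ τ' : Tan X R} (h : ∀ s, dVal U hp s τ = dVal U hp s τ') : τ = τ' := by
  have e : Tan.at p τ = Tan.at p τ' :=
    Pt.ext_eval (Tan.mem_at hp τ) (Tan.mem_at hp τ') (AlgHom.ext fun s => TrivSqZeroExt.ext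
      (by rw [fst_eval_at U hp s τ, fst_eval_at U hp s τ']) (h s))
  exact Subtype.ext (add_left_cancel e)

section Coordinates

variable [IsAlgClosed K]

variable (X) in
/-- The origin over `R` lies in an étale chart with coordinates inducing bijective differentials. -/
theorem exists_coordinates :
    ∃ (U : Chart X) (h0 : (0 : Pt X K).Mem U.1) (t : Fin X.dim → Γ(X.carrier, U.1))
      (e : Fin X.dim → Tan X K),
      (∀ i j, dVal U h0 (t i) (e j) = if i = j then 1 else 0) ∧
      ∀ (R : Type u) [CommRing R] [Algebra K R],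
        ∃ hR : (0 : Pt X R).Mem U.1, ∀ τ : Tan X R,
          (∀ i, dVal U hR (t i) τ = 0) → τ = 0 := by
  classical
  obtain ⟨U, hU, g, hg⟩ := exists_etale_chart X (0 : Pt X K).pos
  have h0 : (0 : Pt X K).Mem U.1 := (Pt.mem_iff_pos _ _).mpr hU
  let _ := g.toRingHom.toAlgebra
  let P := MvPolynomial (Fin X.dim) K
  let B := Γ(X.carrier, U.1)
  have : Algebra.Etale P B := hg
  let t : Fin X.dim → B := fun i => g (MvPolynomial.X i)
  have hlift : ∀ j, ∃ e : Tan X K, ∀ i, dVal U h0 (t i) e = if i = j then 1 else 0 := by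
    intro j
    let φ := (0 : Pt X K).eval U h0
    let ψ : P →ₐ[K] Dual₁ K :=
      MvPolynomial.aeval fun i => inl (φ (t i)) + inr (if i = j then (1 : K) else 0)
    let _ : Algebra P (Dual₁ K) := ψ.toRingHom.toAlgebra
    let _ : Algebra P K := (φ.comp g).toRingHom.toAlgebra
    have hψ : (fstH K K K).comp ψ = φ.comp g :=
      MvPolynomial.algHom_ext fun i => by by_cases h : i = j <;> simp [ψ, t, h]
    let φ' : B →ₐ[P] K := { φ.toRingHom with commutes' := fun _ => rfl }
    let π : Dual₁ K →ₐ[P] K :=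
      { (fstH K K K).toRingHom with commutes' := fun r => AlgHom.congr_fun hψ r }
    have hπ : Function.Surjective π := fun r => ⟨inl r, fst_inl K r⟩
    let l := Algebra.FormallySmooth.liftOfSurjective φ' π hπ
      (isNilpotent_ker_fst (K := K) (R := K) (M := K))
    let lK : B →ₐ[K] Dual₁ K :=
      { l.toRingHom with
        commutes' := fun c => by
          show l (algebraMap K B c) = _
          have : algebraMap K B c = algebraMap P B (MvPolynomial.C c) := (g.commutes c).symm
          rw [this, l.commutes]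
          exact ψ.commutes c }
    let y : Pt X (Dual₁ K) := Pt.ofEval U lK
    have hy : y ∈ Tan X K := by
      rw [mem_tan, Pt.map_ofEval,
        show (fstH K K K).comp lK = φ from AlgHom.ext fun b =>
          Algebra.FormallySmooth.liftOfSurjective_apply φ' π hπ _ b]
      exact Pt.ofEval_eval _ U h0
    refine ⟨⟨y, hy⟩, fun i => ?_⟩
    have e : Tan.at (0 : Pt X K) ⟨y, hy⟩ = y := by rw [Tan.at, map_zero, zero_add]
    rw [dVal, Pt.eval_congr_left U e (Tan.mem_at h0 _) (Pt.mem_ofEval U lK), Pt.eval_ofEval]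
    have : lK (t i) = ψ (MvPolynomial.X i) := l.commutes (MvPolynomial.X i)
    rw [this]
    have hX : ψ (MvPolynomial.X i) = inl (φ (t i)) + inr (if i = j then (1 : K) else 0) :=
      MvPolynomial.aeval_X _ i
    rw [hX, snd_add, snd_inl, snd_inr, zero_add]
  choose e he using hlift
  refine ⟨U, h0, t, e, fun i j => he j i, fun R _ _ => ?_⟩
  have hR : (0 : Pt X R).Mem U.1 := by
    rw [← map_zero (Pt.map (X := X) (Algebra.ofId K R))]
    exact h0.map _
  refine ⟨hR, fun τ hτ => Tan.ext_dVal U hR fun s => ?_⟩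
  let f₁ := (Tan.at 0 τ).eval U (Tan.mem_at hR τ)
  let f₂ := (Tan.at 0 (0 : Tan X R)).eval U (Tan.mem_at hR 0)
  have hX : f₁.comp g = f₂.comp g := MvPolynomial.algHom_ext fun i => TrivSqZeroExt.ext
    ((fst_eval_at U hR (t i) τ).trans (fst_eval_at U hR (t i) 0).symm)
    ((hτ i).trans (map_zero (dHom U hR (t i))).symm)
  let _ : Algebra P (Dual₁ R) := (f₁.comp g).toRingHom.toAlgebra
  let g₁ : B →ₐ[P] Dual₁ R := { f₁.toRingHom with commutes' := fun _ => rfl }
  let g₂ : B →ₐ[P] Dual₁ R :=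
    { f₂.toRingHom with commutes' := fun r => (AlgHom.congr_fun hX r).symm }
  have h := Algebra.FormallyUnramified.ext' (fstH K R R : Dual₁ R →+* R) isNilpotent_ker_fst g₁ g₂
    fun b => (fst_eval_at U hR b τ).trans (fst_eval_at U hR b 0).symm
  exact congrArg TrivSqZeroExt.snd (AlgHom.congr_fun h s)

end Coordinates

end Fermat.Agent.AV
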